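import Mathlib
import Fermat.Agent.S28.BasicSpec
import Fermat.Agent.S28.IntInvariantSpec
import Fermat.Agent.S28.ConjJNSpec
import Fermat.Agent.S28.UnitsSpec
import Fermat.Agent.S28.GcdMatrixSpec
import Fermat.Agent.S28.KeyAbstractSpec

/-!
# S28 leaf L5c : the modular equation stays irreducible mod `ℓ` (`ℓ ∤ N`)
-/

set_option autoImplicit false
set_option linter.unusedSectionVars false

noncomputable section

namespace Fermat.Agent.S28

open UpperHalfPlane ModularCurve Fermat.Agent.S24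
open scoped MatrixGroups

variable (N : ℕ) [NeZero N] (ℓ : ℕ) [Fact ℓ.Prime]

/-! ### the reduction map on pairs -/

/-- expansion followed by reduction. -/
def keyirrRho : IntPair N ℓ →+* LaurentSeries (kBar ℓ) := (serRed ℓ).comp (IntPair.snd N ℓ)

/-- `j(s^N) mod ℓ`. -/
def keyirrJ : LaurentSeries (kBar ℓ) := qExpand (kBar ℓ) N (jqModC (kBar ℓ))

theorem keyirrRho_jPair : keyirrRho N ℓ (jPair N ℓ) = keyirrJ N ℓ := by
  show serRed ℓ (qExpand (OBar ℓ) N (jqModC (OBar ℓ))) = _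
  rw [serRed, coeffMap_qExpand, coeffMap_jqModC]
  rfl

theorem keyirr_coeffMap_C {R S : Type*} [CommRing R] [CommRing S] (f : R →+* S) (c : R) :
    coeffMap f (HahnSeries.C c) = HahnSeries.C (f c) := by
  show coeffMap f (HahnSeries.single 0 c) = HahnSeries.single 0 (f c)
  rw [coeffMap_single]

theorem keyirr_algebraMap_eq_C {k : Type*} [Field k] (c : k) :
    algebraMap k (LaurentSeries k) c = HahnSeries.C c := by
  have h1 : algebraMap k (PowerSeries k) c = PowerSeries.C c := by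
    simp
  rw [HahnSeries.algebraMap_apply', h1, HahnSeries.ofPowerSeries_C]

theorem keyirrRho_constPair (c : OBar ℓ) :
    keyirrRho N ℓ (constPair N ℓ c) = HahnSeries.C (redBar ℓ c) := by
  show serRed ℓ (HahnSeries.C c) = _
  rw [serRed, keyirr_coeffMap_C]

theorem keyirrRho_mem_polyRange (p : IntPair N ℓ)
    (hinv : ∀ γ : SL(2, ℤ), γ • IntPair.fst N ℓ p = IntPair.fst N ℓ p) :
    keyirrRho N ℓ p ∈ polyRange (keyirrJ N ℓ) := by
  obtain ⟨Q, rfl⟩ := intPair_invariant N ℓ p hinv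
  rw [Polynomial.hom_eval₂, keyirrRho_jPair]
  refine ⟨Q.map (redBar ℓ), ?_⟩
  show Polynomial.aeval (keyirrJ N ℓ) (Q.map (redBar ℓ)) = _
  rw [Polynomial.aeval_def, Polynomial.eval₂_map]
  congr 1
  refine RingHom.ext fun c => ?_
  rw [RingHom.comp_apply, RingHom.comp_apply, keyirrRho_constPair, keyirr_algebraMap_eq_C]

theorem keyirrJ_order_neg : (keyirrJ N ℓ).order < 0 := by
  have h1 : (keyirrJ N ℓ).coeff ((N : ℤ) * (-1)) = 1 := by
    rw [keyirrJ, qExpand_coeff_mul, coeff_jqModC_neg_one]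
  have h2 : (keyirrJ N ℓ).order ≤ (N : ℤ) * (-1) :=
    HahnSeries.order_le_of_coeff_ne_zero (by rw [h1]; exact one_ne_zero)
  have h3 : (0 : ℤ) < N := by exact_mod_cast Nat.pos_of_ne_zero (NeZero.ne N)
  linarith

/-! ### orbits -/

/-- A `Fintype` structure on the coset space (local to this file). -/
local instance keyirrFintypeQuot : Fintype (SL(2, ℤ) ⧸ CongruenceSubgroup.Gamma0 N) :=
  haveI := finite_quotient_Gamma0 N
  Fintype.ofFinite _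

/-- classical decidable equality on the coset space (local to this file). -/
local instance keyirrDecEqQuot : DecidableEq (SL(2, ℤ) ⧸ CongruenceSubgroup.Gamma0 N) :=
  Classical.decEq _

variable {N}

/-- the conjugates of a `Γ₀(N)`-invariant function are permuted by `SL(2, ℤ)`. -/
theorem keyirr_smul_out_smul (f : HolRing)
    (hf : ∀ γ : SL(2, ℤ), γ ∈ CongruenceSubgroup.Gamma0 N → γ • f = f) (γ : SL(2, ℤ))
    (ξ : SL(2, ℤ) ⧸ CongruenceSubgroup.Gamma0 N) : γ • (ξ.out • f) = (γ • ξ).out • f := by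
  rw [← mul_smul]
  have h : (γ • ξ).out⁻¹ * (γ * ξ.out) ∈ CongruenceSubgroup.Gamma0 N := by
    rw [← QuotientGroup.eq, QuotientGroup.out_eq']
    conv_lhs => rw [← QuotientGroup.out_eq' ξ]
    rfl
  have h1 : γ * ξ.out = (γ • ξ).out * ((γ • ξ).out⁻¹ * (γ * ξ.out)) := by group
  rw [h1, mul_smul, hf _ h]

/-- the coefficients of an orbit polynomial are invariant. -/
theorem keyirr_smul_prod_coeff (F : SL(2, ℤ) ⧸ CongruenceSubgroup.Gamma0 N → HolRing) (γ : SL(2, ℤ))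
    (hF : ∀ ξ, γ • F ξ = F (γ • ξ)) (i : ℕ) :
    γ • (∏ ξ, (Polynomial.X - Polynomial.C (F ξ))).coeff i =
      (∏ ξ, (Polynomial.X - Polynomial.C (F ξ))).coeff i := by
  have h1 : γ • (∏ ξ, (Polynomial.X - Polynomial.C (F ξ))).coeff i =
      ((∏ ξ, (Polynomial.X - Polynomial.C (F ξ))).map
        (MulSemiringAction.toRingHom SL(2, ℤ) HolRing γ)).coeff i := by
    rw [Polynomial.coeff_map]; rfl
  rw [h1]
  congr 1
  rw [Polynomial.map_prod]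
  simp only [Polynomial.map_sub, Polynomial.map_X, Polynomial.map_C,
    MulSemiringAction.toRingHom_apply, hF]
  exact Fintype.prod_equiv (MulAction.toPerm γ) _ _ fun ξ => rfl

/-- the coefficients of a Lagrange numerator are invariant. -/
theorem keyirr_smul_lagrange_coeff (F G : SL(2, ℤ) ⧸ CongruenceSubgroup.Gamma0 N → HolRing)
    (γ : SL(2, ℤ)) (hF : ∀ ξ, γ • F ξ = F (γ • ξ)) (hG : ∀ ξ, γ • G ξ = G (γ • ξ)) (i : ℕ) :
    γ • (∑ ξ, Polynomial.C (G ξ) *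
        ∏ ξ' ∈ Finset.univ.erase ξ, (Polynomial.X - Polynomial.C (F ξ'))).coeff i =
      (∑ ξ, Polynomial.C (G ξ) *
        ∏ ξ' ∈ Finset.univ.erase ξ, (Polynomial.X - Polynomial.C (F ξ'))).coeff i := by
  have h1 : γ • (∑ ξ, Polynomial.C (G ξ) *
        ∏ ξ' ∈ Finset.univ.erase ξ, (Polynomial.X - Polynomial.C (F ξ'))).coeff i =
      ((∑ ξ, Polynomial.C (G ξ) *
        ∏ ξ' ∈ Finset.univ.erase ξ, (Polynomial.X - Polynomial.C (F ξ'))).map
        (MulSemiringAction.toRingHom SL(2, ℤ) HolRing γ)).coeff i := by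
    rw [Polynomial.coeff_map]; rfl
  rw [h1]
  congr 1
  rw [Polynomial.map_sum]
  simp only [Polynomial.map_mul, Polynomial.map_prod, Polynomial.map_sub, Polynomial.map_X,
    Polynomial.map_C, MulSemiringAction.toRingHom_apply, hF, hG]
  refine Fintype.sum_equiv (MulAction.toPerm γ) _ _ fun ξ => ?_
  congr 1
  refine Finset.prod_equiv (MulAction.toPerm γ) (fun ξ' => ?_) fun ξ' _ => rfl
  simp only [Finset.mem_erase, Finset.mem_univ, and_true, ne_eq, EmbeddingLike.apply_eq_iff_eq]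

variable (N)

theorem keyirr_prod_mem (f : HolRing)
    (hf : ∀ γ : SL(2, ℤ), γ ∈ CongruenceSubgroup.Gamma0 N → γ • f = f)
    (p : SL(2, ℤ) ⧸ CongruenceSubgroup.Gamma0 N → IntPair N ℓ)
    (hp : ∀ ξ, IntPair.fst N ℓ (p ξ) = ξ.out • f) (i : ℕ) :
    (∏ ξ, (Polynomial.X - Polynomial.C (keyirrRho N ℓ (p ξ)))).coeff i ∈ polyRange (keyirrJ N ℓ) := by
  have h1 : (∏ ξ, (Polynomial.X - Polynomial.C (keyirrRho N ℓ (p ξ)))) =
      (∏ ξ, (Polynomial.X - Polynomial.C (p ξ))).map (keyirrRho N ℓ) := by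
    rw [Polynomial.map_prod]
    simp only [Polynomial.map_sub, Polynomial.map_X, Polynomial.map_C]
  rw [h1, Polynomial.coeff_map]
  refine keyirrRho_mem_polyRange N ℓ _ fun γ => ?_
  have h2 : IntPair.fst N ℓ ((∏ ξ, (Polynomial.X - Polynomial.C (p ξ))).coeff i) =
      (∏ ξ : SL(2, ℤ) ⧸ CongruenceSubgroup.Gamma0 N,
        (Polynomial.X - Polynomial.C (ξ.out • f))).coeff i := by
    rw [← Polynomial.coeff_map, Polynomial.map_prod]
    simp only [Polynomial.map_sub, Polynomial.map_X, Polynomial.map_C, hp]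
  rw [h2]
  exact keyirr_smul_prod_coeff _ γ (fun ξ => keyirr_smul_out_smul f hf γ ξ) i

theorem keyirr_lagrange_mem (f g : HolRing)
    (hf : ∀ γ : SL(2, ℤ), γ ∈ CongruenceSubgroup.Gamma0 N → γ • f = f)
    (hg : ∀ γ : SL(2, ℤ), γ ∈ CongruenceSubgroup.Gamma0 N → γ • g = g)
    (p q : SL(2, ℤ) ⧸ CongruenceSubgroup.Gamma0 N → IntPair N ℓ)
    (hp : ∀ ξ, IntPair.fst N ℓ (p ξ) = ξ.out • f)
    (hq : ∀ ξ, IntPair.fst N ℓ (q ξ) = ξ.out • g) (i : ℕ) :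
    (∑ ξ, Polynomial.C (keyirrRho N ℓ (q ξ)) *
        ∏ ξ' ∈ Finset.univ.erase ξ, (Polynomial.X - Polynomial.C (keyirrRho N ℓ (p ξ')))).coeff i ∈
      polyRange (keyirrJ N ℓ) := by
  have h1 : (∑ ξ, Polynomial.C (keyirrRho N ℓ (q ξ)) *
        ∏ ξ' ∈ Finset.univ.erase ξ, (Polynomial.X - Polynomial.C (keyirrRho N ℓ (p ξ')))) =
      (∑ ξ, Polynomial.C (q ξ) *
        ∏ ξ' ∈ Finset.univ.erase ξ, (Polynomial.X - Polynomial.C (p ξ'))).map (keyirrRho N ℓ) := by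
    rw [Polynomial.map_sum]
    simp only [Polynomial.map_mul, Polynomial.map_prod, Polynomial.map_sub, Polynomial.map_X,
      Polynomial.map_C]
  rw [h1, Polynomial.coeff_map]
  refine keyirrRho_mem_polyRange N ℓ _ fun γ => ?_
  have h2 : IntPair.fst N ℓ ((∑ ξ, Polynomial.C (q ξ) *
        ∏ ξ' ∈ Finset.univ.erase ξ, (Polynomial.X - Polynomial.C (p ξ'))).coeff i) =
      (∑ ξ : SL(2, ℤ) ⧸ CongruenceSubgroup.Gamma0 N, Polynomial.C (ξ.out • g) *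
        ∏ ξ' ∈ Finset.univ.erase ξ, (Polynomial.X - Polynomial.C (ξ'.out • f))).coeff i := by
    rw [← Polynomial.coeff_map, Polynomial.map_sum]
    simp only [Polynomial.map_mul, Polynomial.map_prod, Polynomial.map_sub, Polynomial.map_X,
      Polynomial.map_C, hp, hq]
  rw [h2]
  exact keyirr_smul_lagrange_coeff _ _ γ (fun ξ => keyirr_smul_out_smul f hf γ ξ)
    (fun ξ => keyirr_smul_out_smul g hg γ ξ) i

/-! ### the data -/

theorem keyirr_dvd_of_mem_Gamma0 (γ : SL(2, ℤ)) (hγ : γ ∈ CongruenceSubgroup.Gamma0 N) :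
    (N : ℤ) ∣ (γ⁻¹ : SL(2, ℤ)) 1 0 :=
  (ZMod.intCast_zmod_eq_zero_iff_dvd _ N).mp (CongruenceSubgroup.Gamma0_mem.mp (inv_mem hγ))

theorem keyirr_smul_jdHol (γ : SL(2, ℤ)) (hγ : γ ∈ CongruenceSubgroup.Gamma0 N) :
    γ • jdHol N = jdHol N := by
  obtain ⟨c', hc'⟩ := keyirr_dvd_of_mem_Gamma0 N γ hγ
  exact bridge_smul_jdHol N γ c' hc'

theorem keyirr_smul_unitHolInv (δ : ℕ) [NeZero δ] (hδ : δ ∣ N) (γ : SL(2, ℤ))
    (hγ : γ ∈ CongruenceSubgroup.Gamma0 N) : γ • unitHolInv δ = unitHolInv δ := by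
  have h1 : unitHol δ * (γ • unitHolInv δ) = 1 := by
    have h := congrArg (fun f : HolRing => γ • f) (unitHol_mul_unitHolInv δ)
    simp only [smul_mul', smul_one] at h
    rwa [smul_unitHol_of_mem_Gamma0 N δ hδ γ hγ] at h
  calc γ • unitHolInv δ = (unitHol δ * unitHolInv δ) * (γ • unitHolInv δ) := by
        rw [unitHol_mul_unitHolInv, one_mul]
    _ = unitHolInv δ * (unitHol δ * (γ • unitHolInv δ)) := by ring
    _ = unitHolInv δ := by rw [h1, mul_one]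

/-- the index type of the units. -/
abbrev KeyirrD : Type := {δ : ℕ // δ ∣ N}

local instance keyirr_neZero_div (δ : KeyirrD N) : NeZero (δ : ℕ) :=
  ⟨fun h => NeZero.ne N (Nat.eq_zero_of_zero_dvd (h ▸ δ.2))⟩

/-- the pair of the conjugate `ξ.out • j(Nτ)`. -/
def keyirrXPair (ξ : SL(2, ℤ) ⧸ CongruenceSubgroup.Gamma0 N) : IntPair N ℓ :=
  ⟨((ξ.out • jdHol N : HolRing), (exists_intPair_jN N ℓ ξ.out).choose),
    (exists_intPair_jN N ℓ ξ.out).choose_spec.1⟩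

theorem fst_keyirrXPair (ξ : SL(2, ℤ) ⧸ CongruenceSubgroup.Gamma0 N) :
    IntPair.fst N ℓ (keyirrXPair N ℓ ξ) = ξ.out • jdHol N := rfl

variable {N ℓ} in
/-- the pair of the conjugate `ξ.out • u_δ`. -/
def keyirrUPair (hℓN : ¬ ℓ ∣ N) (δ : KeyirrD N) (ξ : SL(2, ℤ) ⧸ CongruenceSubgroup.Gamma0 N) :
    IntPair N ℓ :=
  ⟨((ξ.out • unitHol (δ : ℕ) : HolRing), (exists_intPair_unit N ℓ hℓN δ δ.2 ξ.out).choose),
    (exists_intPair_unit N ℓ hℓN δ δ.2 ξ.out).choose_spec.1⟩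

variable {N ℓ} in
theorem fst_keyirrUPair (hℓN : ¬ ℓ ∣ N) (δ : KeyirrD N) (ξ : SL(2, ℤ) ⧸ CongruenceSubgroup.Gamma0 N) :
    IntPair.fst N ℓ (keyirrUPair hℓN δ ξ) = ξ.out • unitHol (δ : ℕ) := rfl

variable {N ℓ} in
theorem hasUnitLead_keyirrUPair (hℓN : ¬ ℓ ∣ N) (δ : KeyirrD N)
    (ξ : SL(2, ℤ) ⧸ CongruenceSubgroup.Gamma0 N) :
    HasUnitLead (IntPair.snd N ℓ (keyirrUPair hℓN δ ξ))
      (((N / (δ : ℕ) : ℕ) : ℤ) * ((Nat.gcd (δ : ℕ) (cuspType N ξ.out) : ℕ) : ℤ) ^ 2 - (N : ℤ)) :=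
  (exists_intPair_unit N ℓ hℓN δ δ.2 ξ.out).choose_spec.2

variable {N ℓ} in
/-- the pair of the conjugate `ξ.out • u_δ⁻¹`. -/
def keyirrUPair' (hℓN : ¬ ℓ ∣ N) (δ : KeyirrD N) (ξ : SL(2, ℤ) ⧸ CongruenceSubgroup.Gamma0 N) :
    IntPair N ℓ :=
  ⟨((ξ.out • unitHolInv (δ : ℕ) : HolRing), (exists_intPair_unitInv N ℓ hℓN δ δ.2 ξ.out).choose),
    (exists_intPair_unitInv N ℓ hℓN δ δ.2 ξ.out).choose_spec⟩

variable {N ℓ} in
theorem fst_keyirrUPair' (hℓN : ¬ ℓ ∣ N) (δ : KeyirrD N) (ξ : SL(2, ℤ) ⧸ CongruenceSubgroup.Gamma0 N) :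
    IntPair.fst N ℓ (keyirrUPair' hℓN δ ξ) = ξ.out • unitHolInv (δ : ℕ) := rfl

variable {N ℓ} in
theorem keyirrUPair_mul_keyirrUPair' (hℓN : ¬ ℓ ∣ N) (δ : KeyirrD N)
    (ξ : SL(2, ℤ) ⧸ CongruenceSubgroup.Gamma0 N) :
    keyirrUPair hℓN δ ξ * keyirrUPair' hℓN δ ξ = 1 := by
  apply IntPair.ext_fst
  rw [map_mul, map_one, fst_keyirrUPair, fst_keyirrUPair', ← smul_mul', unitHol_mul_unitHolInv, smul_one]

variable {N ℓ} in
theorem keyirrXPair_injective (hℓN : ¬ ℓ ∣ N) :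
    Function.Injective fun ξ : SL(2, ℤ) ⧸ CongruenceSubgroup.Gamma0 N =>
      keyirrRho N ℓ (keyirrXPair N ℓ ξ) := by
  intro ξ ξ' h
  by_contra hne
  have h1 : ξ.out⁻¹ * ξ'.out ∉ CongruenceSubgroup.Gamma0 N := by
    intro hmem
    apply hne
    rw [← QuotientGroup.out_eq' ξ, ← QuotientGroup.out_eq' ξ']
    exact QuotientGroup.eq.mpr hmem
  obtain ⟨m, hm⟩ := hasUnitLead_sub_jN N ℓ hℓN ξ.out ξ'.out h1 _ _
    (keyirrXPair N ℓ ξ).2 (keyirrXPair N ℓ ξ').2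
  apply hm.serRed_ne_zero
  rw [map_sub, sub_eq_zero]
  exact h

/-! ### counting -/

theorem keyirr_count {X : Type*} [DecidableEq X] (N : ℕ) (hN : N ≠ 0) (t : X → ℕ)
    (ht : ∀ ξ, t ξ ∈ N.divisors) (S : Finset X) (δ : ℕ) (hδ : δ ∣ N)
    (h : ∑ ξ ∈ S, (((N / δ : ℕ) : ℤ) * ((Nat.gcd δ (t ξ) : ℕ) : ℤ) ^ 2 - (N : ℤ)) = 0) :
    ∑ d ∈ N.divisors, ((S.filter fun ξ => t ξ = d).card : ℤ) * ((Nat.gcd δ d : ℤ)) ^ 2 =
      (δ : ℤ) * S.card := by
  have hNδ : ((N / δ : ℕ) : ℤ) ≠ 0 := by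
    have : 0 < N / δ := Nat.div_pos (Nat.le_of_dvd (Nat.pos_of_ne_zero hN) hδ)
      (Nat.pos_of_ne_zero (fun h0 => hN (by rw [h0] at hδ; exact Nat.eq_zero_of_zero_dvd hδ)))
    exact_mod_cast this.ne'
  have hN' : (N : ℤ) = ((N / δ : ℕ) : ℤ) * (δ : ℤ) := by
    exact_mod_cast (Nat.div_mul_cancel hδ).symm
  have h1 : ∑ ξ ∈ S, ((Nat.gcd δ (t ξ) : ℕ) : ℤ) ^ 2 = (δ : ℤ) * S.card := by
    rw [Finset.sum_sub_distrib, ← Finset.mul_sum, Finset.sum_const, nsmul_eq_mul] at h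
    have h2 : ((N / δ : ℕ) : ℤ) * (∑ ξ ∈ S, ((Nat.gcd δ (t ξ) : ℕ) : ℤ) ^ 2 - (δ : ℤ) * S.card) = 0 := by
      rw [mul_sub, ← mul_assoc, ← hN']
      linarith
    have h3 := (mul_eq_zero.mp h2).resolve_left hNδ
    linarith
  rw [← h1, ← Finset.sum_fiberwise_of_maps_to (s := S) (t := N.divisors) (g := t)
    (fun ξ _ => ht ξ)]
  refine Finset.sum_congr rfl fun d _ => ?_
  rw [Finset.card_eq_sum_ones, Nat.cast_sum, Finset.sum_mul]
  refine Finset.sum_congr rfl fun ξ hξ => ?_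
  rw [(Finset.mem_filter.mp hξ).2]
  simp

theorem keyirr_card_eq {X : Type*} [Fintype X] [DecidableEq X] (N : ℕ) (hN : N ≠ 0) (t : X → ℕ)
    (ht : ∀ ξ, t ξ ∈ N.divisors) (ξ₀ : X) (hξ₀ : ∀ ξ, t ξ = N ↔ ξ = ξ₀) (C : Finset X)
    (hC : ξ₀ ∈ C)
    (h1 : ∀ δ : ℕ, δ ∣ N →
      ∑ ξ ∈ C, (((N / δ : ℕ) : ℤ) * ((Nat.gcd δ (t ξ) : ℕ) : ℤ) ^ 2 - (N : ℤ)) = 0)
    (h2 : ∀ δ : ℕ, δ ∣ N →
      ∑ ξ : X, (((N / δ : ℕ) : ℤ) * ((Nat.gcd δ (t ξ) : ℕ) : ℤ) ^ 2 - (N : ℤ)) = 0) :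
    C.card = Fintype.card X := by
  set v : ℕ → ℤ := fun d => (Fintype.card X : ℤ) * ((C.filter fun ξ => t ξ = d).card : ℤ) -
    (C.card : ℤ) * (((Finset.univ : Finset X).filter fun ξ => t ξ = d).card : ℤ) with hv
  have hv0 : ∀ δ ∈ N.divisors, ∑ d ∈ N.divisors, v d * ((Nat.gcd δ d : ℤ)) ^ 2 = 0 := by
    intro δ hδ
    have hδN : δ ∣ N := Nat.dvd_of_mem_divisors hδ
    have e1 := keyirr_count N hN t ht C δ hδN (h1 δ hδN)
    have e2 := keyirr_count N hN t ht Finset.univ δ hδN (h2 δ hδN)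
    simp only [hv, sub_mul, Finset.sum_sub_distrib, mul_assoc, ← Finset.mul_sum]
    rw [e1, e2, Finset.card_univ]
    ring
  have hN0 := gcdMatrix_injective N hN v hv0 N (Nat.mem_divisors_self N hN)
  have f1 : (C.filter fun ξ => t ξ = N) = {ξ₀} := by
    ext ξ
    simp only [Finset.mem_filter, Finset.mem_singleton, hξ₀]
    constructor
    · exact fun h => h.2
    · rintro rfl; exact ⟨hC, rfl⟩
  have f2 : ((Finset.univ : Finset X).filter fun ξ => t ξ = N) = {ξ₀} := by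
    ext ξ
    simp only [Finset.mem_filter, Finset.mem_singleton, hξ₀, Finset.mem_univ, true_and]
  simp only [hv, f1, f2, Finset.card_singleton, Nat.cast_one, mul_one] at hN0
  have : (C.card : ℤ) = Fintype.card X := by linarith
  exact_mod_cast this


/-! ### cusp types -/

/-- the type of the cusp of the coset `ξ`. -/
def keyirrT (ξ : SL(2, ℤ) ⧸ CongruenceSubgroup.Gamma0 N) : ℕ := cuspType N ξ.out

theorem keyirrT_mem_divisors (ξ : SL(2, ℤ) ⧸ CongruenceSubgroup.Gamma0 N) :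
    keyirrT N ξ ∈ N.divisors :=
  Nat.mem_divisors.mpr ⟨Nat.gcd_dvd_right _ _, NeZero.ne N⟩

theorem keyirr_out_mem_iff (ξ : SL(2, ℤ) ⧸ CongruenceSubgroup.Gamma0 N) :
    ξ.out ∈ CongruenceSubgroup.Gamma0 N ↔
      ξ = ((1 : SL(2, ℤ)) : SL(2, ℤ) ⧸ CongruenceSubgroup.Gamma0 N) := by
  constructor
  · intro h
    rw [← QuotientGroup.out_eq' ξ]
    refine QuotientGroup.eq.mpr ?_
    rw [← inv_mem_iff, mul_inv_rev, inv_inv, inv_one, one_mul]
    exact h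
  · intro h
    have h2 : ((ξ.out : SL(2, ℤ)) : SL(2, ℤ) ⧸ CongruenceSubgroup.Gamma0 N) =
        ((1 : SL(2, ℤ)) : SL(2, ℤ) ⧸ CongruenceSubgroup.Gamma0 N) := by
      rw [QuotientGroup.out_eq', h]
    have h3 := QuotientGroup.eq.mp h2
    rw [← inv_mem_iff, mul_inv_rev, inv_inv, inv_one, one_mul] at h3
    exact h3

theorem keyirrT_eq_iff (ξ : SL(2, ℤ) ⧸ CongruenceSubgroup.Gamma0 N) :
    keyirrT N ξ = N ↔ ξ = ((1 : SL(2, ℤ)) : SL(2, ℤ) ⧸ CongruenceSubgroup.Gamma0 N) := by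
  rw [← keyirr_out_mem_iff]
  rw [keyirrT, cuspType, Nat.gcd_eq_right_iff_dvd, ← inv_mem_iff (x := ξ.out),
    CongruenceSubgroup.Gamma0_mem, ZMod.intCast_zmod_eq_zero_iff_dvd, Int.natCast_dvd]

variable {N ℓ} in
theorem order_keyirrUPair (hℓN : ¬ ℓ ∣ N) (δ : KeyirrD N)
    (ξ : SL(2, ℤ) ⧸ CongruenceSubgroup.Gamma0 N) :
    (keyirrRho N ℓ (keyirrUPair hℓN δ ξ)).order =
      ((N / (δ : ℕ) : ℕ) : ℤ) * ((Nat.gcd (δ : ℕ) (keyirrT N ξ) : ℕ) : ℤ) ^ 2 - (N : ℤ) :=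
  (hasUnitLead_keyirrUPair hℓN δ ξ).order_serRed

/-! ### the distinguished conjugate -/

theorem keyirr_jdPair_mem : ((jdHol N, qExpand (OBar ℓ) (N * N) (jqModC (OBar ℓ))) :
    HolRing × LaurentSeries (OBar ℓ)) ∈ IntPair N ℓ := by
  rw [mem_IntPair]
  show HasCuspExp N (jdHol N : ℍ → ℂ)
    (coeffMap iotaBar (serO ℓ (qExpand (OBar ℓ) (N * N) (jqModC (OBar ℓ)))))
  have h := (hasCuspExp_jdHol N).qExpand N
  rw [one_mul, qExpand_qExpand] at h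
  rw [serO, coeffMap_qExpand, coeffMap_qExpand, coeffMap_jqModC, coeffMap_jqModC]
  exact h

theorem keyirrRho_keyirrXPair_one :
    keyirrRho N ℓ (keyirrXPair N ℓ ((1 : SL(2, ℤ)) : SL(2, ℤ) ⧸ CongruenceSubgroup.Gamma0 N)) =
      qExpand (kBar ℓ) (N * N) (jqModC (kBar ℓ)) := by
  have h1 : keyirrXPair N ℓ ((1 : SL(2, ℤ)) : SL(2, ℤ) ⧸ CongruenceSubgroup.Gamma0 N) =
      ⟨_, keyirr_jdPair_mem N ℓ⟩ := by
    apply IntPair.ext_fst
    rw [fst_keyirrXPair]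
    exact keyirr_smul_jdHol N _ ((keyirr_out_mem_iff N _).mpr rfl)
  rw [h1]
  show serRed ℓ (qExpand (OBar ℓ) (N * N) (jqModC (OBar ℓ))) = _
  rw [serRed, coeffMap_qExpand, coeffMap_jqModC]

/-! ### transfer from `𝔽_ℓ((q))` to `kBar((s))` -/

/-- `𝔽_ℓ((q)) → kBar((s))`, `q ↦ s^N`. -/
def keyirrPsi : LaurentSeries (ZMod ℓ) →+* LaurentSeries (kBar ℓ) :=
  (qExpand (kBar ℓ) N).comp (coeffMap (ZMod.castHom (dvd_refl ℓ) (kBar ℓ)))

theorem keyirrPsi_jq : keyirrPsi N ℓ (jqModC (ZMod ℓ)) = keyirrJ N ℓ := by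
  show qExpand (kBar ℓ) N (coeffMap _ (jqModC (ZMod ℓ))) = _
  rw [coeffMap_jqModC]
  rfl

theorem keyirrPsi_jqN : keyirrPsi N ℓ (jqNModC (ZMod ℓ) N) =
    qExpand (kBar ℓ) (N * N) (jqModC (kBar ℓ)) := by
  show qExpand (kBar ℓ) N (coeffMap _ (jqNModC (ZMod ℓ) N)) = _
  rw [coeffMap_jqNModC, jqNModC, qExpand_qExpand]

theorem keyirrPsi_comp_aeval :
    (keyirrPsi N ℓ).comp ((Polynomial.aeval (jqModC (ZMod ℓ)) :
        Polynomial (ZMod ℓ) →ₐ[ZMod ℓ] LaurentSeries (ZMod ℓ)) :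
          Polynomial (ZMod ℓ) →+* LaurentSeries (ZMod ℓ)) =
      ((Polynomial.aeval (keyirrJ N ℓ) :
        Polynomial (kBar ℓ) →ₐ[kBar ℓ] LaurentSeries (kBar ℓ)) :
          Polynomial (kBar ℓ) →+* LaurentSeries (kBar ℓ)).comp
        (Polynomial.mapRingHom (ZMod.castHom (dvd_refl ℓ) (kBar ℓ))) := by
  refine Polynomial.ringHom_ext (fun a => ?_) ?_
  · simp only [RingHom.comp_apply, RingHom.coe_coe, Polynomial.aeval_C,
      Polynomial.coe_mapRingHom, Polynomial.map_C]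
    rw [keyirr_algebraMap_eq_C, keyirr_algebraMap_eq_C]
    show qExpand (kBar ℓ) N (coeffMap _ (HahnSeries.C a)) = _
    rw [keyirr_coeffMap_C, qExpand_C]
  · simp only [RingHom.comp_apply, RingHom.coe_coe, Polynomial.aeval_X,
      Polynomial.coe_mapRingHom, Polynomial.map_X]
    exact keyirrPsi_jq N ℓ

/-! ### the theorem -/

theorem key_irreducible (N : ℕ) [NeZero N] (ℓ : ℕ) [Fact ℓ.Prime] (hℓN : ¬ ℓ ∣ N)
    (P : Polynomial (Polynomial (ZMod ℓ)))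
    (hdeg : P.natDegree < Nat.card (SL(2, ℤ) ⧸ CongruenceSubgroup.Gamma0 N))
    (h : P.eval₂ ((Polynomial.aeval (jqModC (ZMod ℓ)) :
        Polynomial (ZMod ℓ) →ₐ[ZMod ℓ] LaurentSeries (ZMod ℓ)) :
          Polynomial (ZMod ℓ) →+* LaurentSeries (ZMod ℓ)) (jqNModC (ZMod ℓ) N) = 0) :
    P = 0 := by
  obtain ⟨C, hC0, hC1, hC2, hC3⟩ := key_abstract (keyirrJ N ℓ) (keyirrJ_order_neg N ℓ)
    (fun ξ : SL(2, ℤ) ⧸ CongruenceSubgroup.Gamma0 N => keyirrRho N ℓ (keyirrXPair N ℓ ξ))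
    (keyirrXPair_injective hℓN)
    (keyirr_prod_mem N ℓ (jdHol N) (keyirr_smul_jdHol N) (keyirrXPair N ℓ) (fst_keyirrXPair N ℓ))
    (D := KeyirrD N)
    (fun δ ξ => keyirrRho N ℓ (keyirrUPair hℓN δ ξ)) (fun δ ξ => keyirrRho N ℓ (keyirrUPair' hℓN δ ξ))
    (fun δ ξ => by rw [← map_mul, keyirrUPair_mul_keyirrUPair', map_one])
    (fun δ => keyirr_prod_mem N ℓ (unitHol (δ : ℕ)) (smul_unitHol_of_mem_Gamma0 N δ δ.2)
      (keyirrUPair hℓN δ) (fst_keyirrUPair hℓN δ))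
    (fun δ => keyirr_prod_mem N ℓ (unitHolInv (δ : ℕ)) (keyirr_smul_unitHolInv N δ δ.2)
      (keyirrUPair' hℓN δ) (fst_keyirrUPair' hℓN δ))
    (fun δ => keyirr_lagrange_mem N ℓ (jdHol N) (unitHol (δ : ℕ)) (keyirr_smul_jdHol N)
      (smul_unitHol_of_mem_Gamma0 N δ δ.2) (keyirrXPair N ℓ) (keyirrUPair hℓN δ) (fst_keyirrXPair N ℓ)
      (fst_keyirrUPair hℓN δ))
    ((1 : SL(2, ℤ)) : SL(2, ℤ) ⧸ CongruenceSubgroup.Gamma0 N)
  have hcard : C.card = Fintype.card (SL(2, ℤ) ⧸ CongruenceSubgroup.Gamma0 N) := by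
    refine keyirr_card_eq N (NeZero.ne N) (keyirrT N) (keyirrT_mem_divisors N) _ (keyirrT_eq_iff N) C hC0
      (fun δ hδ => ?_) (fun δ hδ => ?_)
    · have h1 := hC1 ⟨δ, hδ⟩
      simp only [order_keyirrUPair] at h1
      exact h1
    · have h2 := hC2 ⟨δ, hδ⟩
      simp only [order_keyirrUPair] at h2
      exact h2
  have hι : Function.Injective (ZMod.castHom (dvd_refl ℓ) (kBar ℓ)) := RingHom.injective _
  have hmap : Function.Injective
      (Polynomial.mapRingHom (ZMod.castHom (dvd_refl ℓ) (kBar ℓ))) := by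
    rw [Polynomial.coe_mapRingHom]
    exact Polynomial.map_injective _ hι
  have hP' := hC3 (P.map (Polynomial.mapRingHom (ZMod.castHom (dvd_refl ℓ) (kBar ℓ)))) (by
    rw [Polynomial.natDegree_map_eq_of_injective hmap, hcard, ← Nat.card_eq_fintype_card]
    exact hdeg) (by
    rw [Polynomial.eval₂_map, ← keyirrPsi_comp_aeval, keyirrRho_keyirrXPair_one, ← keyirrPsi_jqN,
      ← Polynomial.hom_eval₂, h, map_zero])
  exact Polynomial.map_injective _ hmap (by rw [hP', Polynomial.map_zero])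

end Fermat.Agent.S28
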