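import Mathlib
import Fermat.Agent.S24.ADefs
import Fermat.Agent.S24.CuspExp
import Fermat.Prelude.Def_ModularCurve_IgusaScheme
import Fermat.Prelude.Def_ModularCurve_X0ModL

/-!
# S28 : shared definitions

* `zlRed ℓ : ℤ_(ℓ) →+* ZMod ℓ` : reduction mod `ℓ`;
* `OBar ℓ : Subring QBar` : the algebraic numbers that are integral at `ℓ`
  (`d • x` is an algebraic integer for some `d` prime to `ℓ`); NOT a local ring;
* `maxBar ℓ` : a chosen maximal ideal of `OBar ℓ` (it contains `ℓ`), `kBar ℓ` the residue field,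
  `redBar ℓ : OBar ℓ →+* kBar ℓ`;
* `serO ℓ : LaurentSeries (OBar ℓ) →+* LaurentSeries QBar` (coefficientwise inclusion) and
  `serRed ℓ : LaurentSeries (OBar ℓ) →+* LaurentSeries (kBar ℓ)` (coefficientwise reduction);
* `IntPair N ℓ` : the ring of pairs (holomorphic function on `ℍ`, its expansion in
  `s = exp(2πiτ/N)` with coefficients in `OBar ℓ`).
-/

set_option autoImplicit false

noncomputable section

namespace Fermat.Agent.S28

open UpperHalfPlane ModularCurve Fermat.Agent.S24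
open scoped MatrixGroups

/-! ### `ℤ_(ℓ)` -/

/-- `ℤ_(ℓ)` as in the frozen statement. -/
abbrev Zl (ℓ : ℕ) : Type := ↥(GaloisRep.ratLocalizedAt ℓ)

theorem zl_den_ne_zero (ℓ : ℕ) [Fact ℓ.Prime] (x : Zl ℓ) : (((x : ℚ).den : ℕ) : ZMod ℓ) ≠ 0 := by
  have hx : (x : ℚ).den.Coprime ℓ := x.2
  intro h
  rw [ZMod.natCast_eq_zero_iff] at h
  have h1 : ℓ ∣ Nat.gcd (x : ℚ).den ℓ := Nat.dvd_gcd h dvd_rfl
  rw [Nat.Coprime.gcd_eq_one hx] at h1
  exact (Fact.out : ℓ.Prime).one_lt.ne' (Nat.dvd_one.mp h1)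

/-- Reduction mod `ℓ`. -/
def zlRed (ℓ : ℕ) [Fact ℓ.Prime] : Zl ℓ →+* ZMod ℓ where
  toFun x := ((x : ℚ) : ZMod ℓ)
  map_one' := by simp
  map_mul' x y := by
    show (((x * y : Zl ℓ) : ℚ) : ZMod ℓ) = _
    rw [Subring.coe_mul]
    exact Rat.cast_mul_of_ne_zero (zl_den_ne_zero ℓ x) (zl_den_ne_zero ℓ y)
  map_zero' := by simp
  map_add' x y := by
    show (((x + y : Zl ℓ) : ℚ) : ZMod ℓ) = _
    rw [Subring.coe_add]
    exact Rat.cast_add_of_ne_zero (zl_den_ne_zero ℓ x) (zl_den_ne_zero ℓ y)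

/-! ### The ring `OBar ℓ` of `ℓ`-integral algebraic numbers -/

/-- Algebraic numbers `x` such that `d • x` is an algebraic integer for some `d` prime to `ℓ`. -/
def OBar (ℓ : ℕ) : Subring QBar where
  carrier := {x | ∃ d : ℕ, d.Coprime ℓ ∧ IsIntegral ℤ ((d : QBar) * x)}
  mul_mem' := by
    rintro x y ⟨d, hd, hx⟩ ⟨e, he, hy⟩
    refine ⟨d * e, Nat.Coprime.mul_left hd he, ?_⟩
    have : ((d * e : ℕ) : QBar) * (x * y) = ((d : QBar) * x) * ((e : QBar) * y) := by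
      push_cast; ring
    rw [this]
    exact hx.mul hy
  one_mem' := ⟨1, Nat.coprime_one_left ℓ, by simpa using isIntegral_one⟩
  add_mem' := by
    rintro x y ⟨d, hd, hx⟩ ⟨e, he, hy⟩
    refine ⟨d * e, Nat.Coprime.mul_left hd he, ?_⟩
    have : ((d * e : ℕ) : QBar) * (x + y) =
        (e : QBar) * ((d : QBar) * x) + (d : QBar) * ((e : QBar) * y) := by
      push_cast; ring
    rw [this]
    have he' : IsIntegral ℤ ((e : QBar)) := by
      have := isIntegral_algebraMap (R := ℤ) (A := QBar) (x := (e : ℤ))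
      simpa using this
    have hd' : IsIntegral ℤ ((d : QBar)) := by
      have := isIntegral_algebraMap (R := ℤ) (A := QBar) (x := (d : ℤ))
      simpa using this
    exact (he'.mul hx).add (hd'.mul hy)
  zero_mem' := ⟨1, Nat.coprime_one_left ℓ, by simpa using isIntegral_zero⟩
  neg_mem' := by
    rintro x ⟨d, hd, hx⟩
    refine ⟨d, hd, ?_⟩
    rw [mul_neg]
    exact hx.neg

theorem mem_OBar {ℓ : ℕ} {x : QBar} :
    x ∈ OBar ℓ ↔ ∃ d : ℕ, d.Coprime ℓ ∧ IsIntegral ℤ ((d : QBar) * x) := Iff.rfl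

theorem natCast_ell_not_isUnit (ℓ : ℕ) [Fact ℓ.Prime] : ¬ IsUnit ((ℓ : ℕ) : OBar ℓ) := by
  have hℓ : ℓ.Prime := Fact.out
  intro h
  obtain ⟨u, hu⟩ := h.exists_right_inv
  obtain ⟨d, hd, hint⟩ := u.2
  have hℓ0 : ((ℓ : ℕ) : QBar) ≠ 0 := by exact_mod_cast hℓ.ne_zero
  have hu' : ((ℓ : ℕ) : QBar) * (u : QBar) = 1 := by
    have := congrArg (fun x : OBar ℓ => (x : QBar)) hu
    simpa using this
  have hu2 : (u : QBar) = ((ℓ : ℕ) : QBar)⁻¹ := eq_inv_of_mul_eq_one_right hu'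
  have h1 : (d : QBar) * (u : QBar) = algebraMap ℚ QBar ((d : ℚ) / (ℓ : ℚ)) := by
    rw [hu2, map_div₀, map_natCast, map_natCast, div_eq_mul_inv]
  rw [h1, isIntegral_algebraMap_iff (algebraMap ℚ QBar).injective] at hint
  obtain ⟨n, hn⟩ := IsIntegrallyClosed.isIntegral_iff.mp hint
  have hℓq : (ℓ : ℚ) ≠ 0 := by exact_mod_cast hℓ.ne_zero
  have h2 : (n : ℚ) * (ℓ : ℚ) = (d : ℚ) := by
    have : (algebraMap ℤ ℚ n) = (n : ℚ) := rfl
    rw [this] at hn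
    rw [hn]; field_simp
  have h3 : (n * (ℓ : ℤ)) = (d : ℤ) := by exact_mod_cast h2
  have h4 : (ℓ : ℤ) ∣ (d : ℤ) := ⟨n, by rw [← h3]; ring⟩
  have h5 : ℓ ∣ d := by exact_mod_cast h4
  have h6 : ℓ ∣ Nat.gcd d ℓ := Nat.dvd_gcd h5 dvd_rfl
  rw [Nat.Coprime.gcd_eq_one hd] at h6
  exact hℓ.one_lt.ne' (Nat.dvd_one.mp h6)

/-- A maximal ideal of `OBar ℓ` containing `ℓ`. -/
def maxBar (ℓ : ℕ) [Fact ℓ.Prime] : Ideal (OBar ℓ) :=
  (Ideal.exists_le_maximal (Ideal.span {((ℓ : ℕ) : OBar ℓ)})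
    (by rw [Ne, Ideal.span_singleton_eq_top]; exact natCast_ell_not_isUnit ℓ)).choose

instance maxBar_isMaximal (ℓ : ℕ) [Fact ℓ.Prime] : (maxBar ℓ).IsMaximal :=
  (Ideal.exists_le_maximal (Ideal.span {((ℓ : ℕ) : OBar ℓ)})
    (by rw [Ne, Ideal.span_singleton_eq_top]; exact natCast_ell_not_isUnit ℓ)).choose_spec.1

theorem natCast_ell_mem_maxBar (ℓ : ℕ) [Fact ℓ.Prime] : ((ℓ : ℕ) : OBar ℓ) ∈ maxBar ℓ :=
  (Ideal.exists_le_maximal (Ideal.span {((ℓ : ℕ) : OBar ℓ)})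
    (by rw [Ne, Ideal.span_singleton_eq_top]; exact natCast_ell_not_isUnit ℓ)).choose_spec.2
    (Ideal.subset_span rfl)

/-- The residue field. -/
def kBar (ℓ : ℕ) [Fact ℓ.Prime] : Type := OBar ℓ ⧸ maxBar ℓ

instance (ℓ : ℕ) [Fact ℓ.Prime] : Field (kBar ℓ) := Ideal.Quotient.field (maxBar ℓ)

/-- Reduction modulo the chosen maximal ideal. -/
def redBar (ℓ : ℕ) [Fact ℓ.Prime] : OBar ℓ →+* kBar ℓ := Ideal.Quotient.mk (maxBar ℓ)

theorem redBar_surjective (ℓ : ℕ) [Fact ℓ.Prime] : Function.Surjective (redBar ℓ) :=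
  Ideal.Quotient.mk_surjective

theorem ker_redBar (ℓ : ℕ) [Fact ℓ.Prime] : RingHom.ker (redBar ℓ) = maxBar ℓ :=
  Ideal.mk_ker

/-- `ℤ_(ℓ) → OBar ℓ`. -/
def zlToO (ℓ : ℕ) : Zl ℓ →+* OBar ℓ :=
  ((algebraMap ℚ QBar).comp (GaloisRep.ratLocalizedAt ℓ).subtype).codRestrict (OBar ℓ) (by
    intro x
    refine ⟨(x : ℚ).den, x.2, ?_⟩
    have h1 : (((x : ℚ).den : ℕ) : QBar) * algebraMap ℚ QBar (x : ℚ) =
        algebraMap ℤ QBar (x : ℚ).num := by
      have h2 : (((x : ℚ).den : ℕ) : ℚ) * (x : ℚ) = ((x : ℚ).num : ℚ) := by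
        rw [mul_comm]; exact Rat.mul_den_eq_num _
      have h3 := congrArg (algebraMap ℚ QBar) h2
      rw [map_mul, map_natCast, map_intCast] at h3
      rw [h3]; simp
    show IsIntegral ℤ ((((x : ℚ).den : ℕ) : QBar) * algebraMap ℚ QBar (x : ℚ))
    rw [h1]
    exact isIntegral_algebraMap)

@[simp] theorem coe_zlToO (ℓ : ℕ) (x : Zl ℓ) :
    ((zlToO ℓ x : OBar ℓ) : QBar) = algebraMap ℚ QBar (x : ℚ) := rfl

/-! ### Series with `ℓ`-integral coefficients -/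

/-- Coefficientwise inclusion `ℤ_(ℓ)((q)) → ℚ((q))`. -/
def serZl (ℓ : ℕ) : LaurentSeries (Zl ℓ) →+* LaurentSeries ℚ :=
  coeffMap (GaloisRep.ratLocalizedAt ℓ).subtype

/-- Coefficientwise reduction `ℤ_(ℓ)((q)) → 𝔽_ℓ((q))`. -/
def serZlRed (ℓ : ℕ) [Fact ℓ.Prime] : LaurentSeries (Zl ℓ) →+* LaurentSeries (ZMod ℓ) :=
  coeffMap (zlRed ℓ)

@[simp] theorem serZl_coeff (ℓ : ℕ) (S : LaurentSeries (Zl ℓ)) (m : ℤ) :
    (serZl ℓ S).coeff m = (S.coeff m : ℚ) := rfl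

@[simp] theorem serZlRed_coeff (ℓ : ℕ) [Fact ℓ.Prime] (S : LaurentSeries (Zl ℓ)) (m : ℤ) :
    (serZlRed ℓ S).coeff m = zlRed ℓ (S.coeff m) := rfl

theorem serZl_injective (ℓ : ℕ) : Function.Injective (serZl ℓ) := by
  intro S T h
  ext m
  have := congrArg (fun U : LaurentSeries ℚ => U.coeff m) h
  exact this

/-- Coefficientwise inclusion `OBar((s)) → QBar((s))`. -/
def serO (ℓ : ℕ) : LaurentSeries (OBar ℓ) →+* LaurentSeries QBar := coeffMap (OBar ℓ).subtype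

/-- Coefficientwise reduction `OBar((s)) → kBar((s))`. -/
def serRed (ℓ : ℕ) [Fact ℓ.Prime] : LaurentSeries (OBar ℓ) →+* LaurentSeries (kBar ℓ) :=
  coeffMap (redBar ℓ)

@[simp] theorem serO_coeff (ℓ : ℕ) (S : LaurentSeries (OBar ℓ)) (m : ℤ) :
    (serO ℓ S).coeff m = (S.coeff m : QBar) := rfl

@[simp] theorem serRed_coeff (ℓ : ℕ) [Fact ℓ.Prime] (S : LaurentSeries (OBar ℓ)) (m : ℤ) :
    (serRed ℓ S).coeff m = redBar ℓ (S.coeff m) := rfl

theorem serO_injective (ℓ : ℕ) : Function.Injective (serO ℓ) := by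
  intro S T h
  ext m
  have := congrArg (fun U : LaurentSeries QBar => U.coeff m) h
  exact this

/-- `S` has a unit leading coefficient at `m` (then `S` is a unit of `OBar((s))` and the order of
its reduction is `m`). -/
def HasUnitLead {ℓ : ℕ} (S : LaurentSeries (OBar ℓ)) (m : ℤ) : Prop :=
  IsUnit (S.coeff m) ∧ ∀ i : ℤ, i < m → S.coeff i = 0

/-! ### Pairs (holomorphic function, `ℓ`-integral expansion at `i∞` in `s = exp(2πiτ/N)`) -/

/-- The ring of pairs `(f, S)`, `S ∈ OBar((s))` the expansion of `f` in `exp(2πiτ/N)`. -/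
def IntPair (N : ℕ) [NeZero N] (ℓ : ℕ) : Subring (HolRing × LaurentSeries (OBar ℓ)) where
  carrier := {p | HasCuspExp N (p.1 : ℍ → ℂ) (coeffMap iotaBar (serO ℓ p.2))}
  mul_mem' := by
    intro a b ha hb
    show HasCuspExp N ((a * b).1 : ℍ → ℂ) (coeffMap iotaBar (serO ℓ (a * b).2))
    rw [Prod.fst_mul, Prod.snd_mul, map_mul, map_mul, Subring.coe_mul]
    exact HasCuspExp.mul ha hb
  one_mem' := by
    show HasCuspExp N ((1 : HolRing × LaurentSeries (OBar ℓ)).1 : ℍ → ℂ)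
      (coeffMap iotaBar (serO ℓ (1 : HolRing × LaurentSeries (OBar ℓ)).2))
    rw [Prod.fst_one, Prod.snd_one, map_one, map_one, Subring.coe_one]
    have := HasCuspExp.const (h := N) (1 : ℂ)
    rw [map_one] at this
    exact this
  add_mem' := by
    intro a b ha hb
    show HasCuspExp N ((a + b).1 : ℍ → ℂ) (coeffMap iotaBar (serO ℓ (a + b).2))
    rw [Prod.fst_add, Prod.snd_add, map_add, map_add, Subring.coe_add]
    exact HasCuspExp.add ha hb
  zero_mem' := by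
    show HasCuspExp N ((0 : HolRing × LaurentSeries (OBar ℓ)).1 : ℍ → ℂ)
      (coeffMap iotaBar (serO ℓ (0 : HolRing × LaurentSeries (OBar ℓ)).2))
    rw [Prod.fst_zero, Prod.snd_zero, map_zero, map_zero, Subring.coe_zero]
    have := HasCuspExp.const (h := N) (0 : ℂ)
    rw [map_zero] at this
    exact this
  neg_mem' := by
    intro a ha
    show HasCuspExp N ((-a).1 : ℍ → ℂ) (coeffMap iotaBar (serO ℓ (-a).2))
    rw [Prod.fst_neg, Prod.snd_neg, map_neg, map_neg, NegMemClass.coe_neg]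
    exact HasCuspExp.neg ha

theorem mem_IntPair {N : ℕ} [NeZero N] {ℓ : ℕ} {p : HolRing × LaurentSeries (OBar ℓ)} :
    p ∈ IntPair N ℓ ↔ HasCuspExp N (p.1 : ℍ → ℂ) (coeffMap iotaBar (serO ℓ p.2)) := Iff.rfl

/-- First projection. -/
def IntPair.fst (N : ℕ) [NeZero N] (ℓ : ℕ) : IntPair N ℓ →+* HolRing :=
  (RingHom.fst HolRing (LaurentSeries (OBar ℓ))).comp (IntPair N ℓ).subtype

/-- Second projection: the expansion. -/
def IntPair.snd (N : ℕ) [NeZero N] (ℓ : ℕ) : IntPair N ℓ →+* LaurentSeries (OBar ℓ) :=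
  (RingHom.snd HolRing (LaurentSeries (OBar ℓ))).comp (IntPair N ℓ).subtype

/-- The action of `SL(2,ℤ)` on holomorphic functions, `(γ • f)(τ) = f(γ⁻¹ τ)`; the type of the
cusp `γ⁻¹ ∞`, i.e. the gcd of `N` with the lower left entry of `γ⁻¹`. -/
def cuspType (N : ℕ) (γ : SL(2, ℤ)) : ℕ := Nat.gcd ((γ⁻¹ : SL(2, ℤ)) 1 0).natAbs N

end Fermat.Agent.S28
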