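import Mathlib
import Fermat.Agent.S28.Defs
import Fermat.Agent.S24.Bridge

/-!
# S28 : the modular units `Δ(δτ)/Δ(τ)` as holomorphic functions
-/

set_option autoImplicit false

noncomputable section

namespace Fermat.Agent.S28

open UpperHalfPlane ModularCurve ModularForm Fermat.Agent.S24
open scoped MatrixGroups Manifold ModularForm

/-- `Δ` as an element of `HolRing`. -/
def deltaHol : HolRing :=
  ⟨fun τ : ℍ => ModularForm.discriminant τ, ModularFormClass.holo CuspForm.discriminant⟩

/-- `1/Δ` as an element of `HolRing`. -/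
def deltaInvHol : HolRing :=
  ⟨fun τ : ℍ => (ModularForm.discriminant τ)⁻¹, fun τ =>
    ((ModularFormClass.holo CuspForm.discriminant : MDiff fun τ : ℍ => ModularForm.discriminant τ) τ).inv
      (ModularForm.discriminant_ne_zero τ)⟩

theorem deltaHol_mul_deltaInvHol : deltaHol * deltaInvHol = 1 := by
  apply Subtype.ext
  funext τ
  exact mul_inv_cancel₀ (ModularForm.discriminant_ne_zero τ)

/-- The modular unit `τ ↦ Δ(δτ)/Δ(τ)`. -/
def unitHol (δ : ℕ) [NeZero δ] : HolRing :=
  HolRing.compGL (Fermat.Agent.S23.utGL δ 0 1)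
    (Fermat.Agent.S23.det_utGL_pos (NeZero.ne δ) one_ne_zero 0) deltaHol * deltaInvHol

/-- Its inverse `τ ↦ Δ(τ)/Δ(δτ)`. -/
def unitHolInv (δ : ℕ) [NeZero δ] : HolRing :=
  HolRing.compGL (Fermat.Agent.S23.utGL δ 0 1)
    (Fermat.Agent.S23.det_utGL_pos (NeZero.ne δ) one_ne_zero 0) deltaInvHol * deltaHol

theorem unitHol_apply (δ : ℕ) [NeZero δ] (τ : ℍ) :
    (unitHol δ : ℍ → ℂ) τ =
      ModularForm.discriminant (Fermat.Agent.S23.utGL δ 0 1 • τ) / ModularForm.discriminant τ :=
  rfl

theorem unitHol_mul_unitHolInv (δ : ℕ) [NeZero δ] : unitHol δ * unitHolInv δ = 1 := by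
  unfold unitHol unitHolInv
  have h : ∀ a b c d : HolRing, a * b * (c * d) = (a * c) * (d * b) := fun a b c d => by ring
  rw [h, ← map_mul, deltaHol_mul_deltaInvHol, map_one, one_mul]

end Fermat.Agent.S28
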