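import Mathlib
import Fermat.Agent.S28.UnitDefs
import Fermat.Agent.S24.JExp
import Fermat.Agent.S24.CuspExp
import Fermat.Prelude.Def_ModularCurve_ModularUnit

/-!
# S28 leaf L3-A : the expansions of `Δ` and `1/Δ` at `i∞`

`Δ = q ∏ (1 - qⁿ)^24` and `1/Δ = q⁻¹ ∏ (1 - qⁿ)^(-24)` as `HasCuspExp 1`, with the formal series
built from the Prelude `dedekindEtaUnit = etaProd ^ 24` and `dedekindEtaUnitInv`.
Helper lemmas are prefixed `dexp_`.
-/

set_option autoImplicit false

noncomputable section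

namespace Fermat.Agent.S28

open UpperHalfPlane ModularCurve Function ModularForm Fermat.Agent.S24
open scoped MatrixGroups Manifold ModularForm Real Topology

local notation "𝕢" => Periodic.qParam

/-- `q ∏ (1 - qⁿ)^24` over any commutative ring. -/
def deltaSer (R : Type*) [CommRing R] : LaurentSeries R :=
  HahnSeries.single (1 : ℤ) 1 *
    HahnSeries.ofPowerSeries ℤ R (dedekindEtaUnit.map (Int.castRingHom R))

/-- `q⁻¹ ∏ (1 - qⁿ)^(-24)` over any commutative ring. -/
def deltaInvSer (R : Type*) [CommRing R] : LaurentSeries R :=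
  HahnSeries.single (-1 : ℤ) 1 *
    HahnSeries.ofPowerSeries ℤ R (dedekindEtaUnitInv.map (Int.castRingHom R))

theorem deltaSer_mul_deltaInvSer (R : Type*) [CommRing R] : deltaSer R * deltaInvSer R = 1 := by
  unfold deltaSer deltaInvSer
  have e1 : HahnSeries.ofPowerSeries ℤ R (dedekindEtaUnit.map (Int.castRingHom R)) *
      HahnSeries.ofPowerSeries ℤ R (dedekindEtaUnitInv.map (Int.castRingHom R)) = 1 := by
    rw [← map_mul, ← map_mul, dedekindEtaUnit_mul_inv, map_one, map_one]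
  have e2 : (HahnSeries.single (1 : ℤ) (1 : R) : LaurentSeries R) *
      HahnSeries.single (-1 : ℤ) (1 : R) = 1 := by
    rw [HahnSeries.single_mul_single]
    norm_num
  rw [mul_mul_mul_comm, e1, e2, mul_one]

/-- coefficients of a shifted power series -/
theorem dexp_coeff_shift {R : Type*} [CommRing R] (P : PowerSeries R) (k m : ℤ) :
    (HahnSeries.single k (1 : R) * HahnSeries.ofPowerSeries ℤ R P).coeff m =
      (HahnSeries.ofPowerSeries ℤ R P).coeff (m - k) := by
  rw [HahnSeries.coeff_single_mul, one_mul]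

theorem dexp_coeff_shift_nat {R : Type*} [CommRing R] (P : PowerSeries R) (k : ℤ) (n : ℕ) :
    (HahnSeries.single k (1 : R) * HahnSeries.ofPowerSeries ℤ R P).coeff ((n : ℤ) + k) =
      PowerSeries.coeff n P := by
  rw [dexp_coeff_shift, add_sub_cancel_right, HahnSeries.ofPowerSeries_apply_coeff]

theorem dexp_coeff_shift_of_lt {R : Type*} [CommRing R] (P : PowerSeries R) {k m : ℤ}
    (h : m < k) :
    (HahnSeries.single k (1 : R) * HahnSeries.ofPowerSeries ℤ R P).coeff m = 0 := by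
  rw [dexp_coeff_shift, ofPowerSeries_coeff_of_neg _ (by omega)]

/-- `coeffMap` of a shifted integral power series -/
theorem dexp_coeffMap_shift {R S : Type*} [CommRing R] [CommRing S] (f : R →+* S)
    (P : PowerSeries ℤ) (k : ℤ) :
    coeffMap f (HahnSeries.single k (1 : R) *
        HahnSeries.ofPowerSeries ℤ R (P.map (Int.castRingHom R))) =
      HahnSeries.single k (1 : S) * HahnSeries.ofPowerSeries ℤ S (P.map (Int.castRingHom S)) := by
  ext m
  rw [coeffMap_coeff]
  rcases lt_or_ge m k with h | h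
  · rw [dexp_coeff_shift_of_lt _ h, dexp_coeff_shift_of_lt _ h, map_zero]
  · obtain ⟨n, hn⟩ := Int.eq_ofNat_of_zero_le (sub_nonneg.mpr h)
    have hm : m = (n : ℤ) + k := by omega
    rw [hm, dexp_coeff_shift_nat, dexp_coeff_shift_nat, PowerSeries.coeff_map,
      PowerSeries.coeff_map, eq_intCast, eq_intCast, map_intCast]

theorem coeffMap_deltaSer {R S : Type*} [CommRing R] [CommRing S] (f : R →+* S) :
    coeffMap f (deltaSer R) = deltaSer S :=
  dexp_coeffMap_shift f dedekindEtaUnit 1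

theorem coeffMap_deltaInvSer {R S : Type*} [CommRing R] [CommRing S] (f : R →+* S) :
    coeffMap f (deltaInvSer R) = deltaInvSer S :=
  dexp_coeffMap_shift f dedekindEtaUnitInv (-1)

/-- lowest terms: `deltaSer = q + …`. -/
theorem deltaSer_coeff_one (R : Type*) [CommRing R] : (deltaSer R).coeff 1 = 1 := by
  have := dexp_coeff_shift_nat (dedekindEtaUnit.map (Int.castRingHom R)) 1 0
  simp only [Nat.cast_zero, zero_add] at this
  rw [deltaSer, this, PowerSeries.coeff_map, PowerSeries.coeff_zero_eq_constantCoeff,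
    constantCoeff_dedekindEtaUnit, map_one]

theorem deltaSer_coeff_of_lt (R : Type*) [CommRing R] {m : ℤ} (hm : m < 1) :
    (deltaSer R).coeff m = 0 :=
  dexp_coeff_shift_of_lt _ hm

/-- lowest terms: `deltaInvSer = q⁻¹ + …`. -/
theorem deltaInvSer_coeff_neg_one (R : Type*) [CommRing R] : (deltaInvSer R).coeff (-1) = 1 := by
  have := dexp_coeff_shift_nat (dedekindEtaUnitInv.map (Int.castRingHom R)) (-1) 0
  simp only [Nat.cast_zero, zero_add] at this
  rw [deltaInvSer, this, PowerSeries.coeff_map, PowerSeries.coeff_zero_eq_constantCoeff,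
    constantCoeff_dedekindEtaUnitInv, map_one]

theorem deltaInvSer_coeff_of_lt (R : Type*) [CommRing R] {m : ℤ} (hm : m < -1) :
    (deltaInvSer R).coeff m = 0 :=
  dexp_coeff_shift_of_lt _ hm

/-- a function with a power series expansion in `q`, times `q^k` -/
theorem dexp_hasCuspExp_shift (G : ℍ → ℂ) (P : PowerSeries ℤ) (k : ℤ)
    (hG : ∀ τ : ℍ, HasSum (fun n : ℕ => ((PowerSeries.coeff n P : ℤ) : ℂ) * 𝕢 1 (τ : ℂ) ^ n) (G τ)) :
    HasCuspExp 1 (fun τ : ℍ => G τ * 𝕢 1 (τ : ℂ) ^ k)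
      (HahnSeries.single k (1 : ℂ) *
        HahnSeries.ofPowerSeries ℤ ℂ (P.map (Int.castRingHom ℂ))) := by
  intro τ
  have hinj : Function.Injective (fun n : ℕ => ((n : ℤ) + k)) := by
    intro a b h
    simpa using h
  rw [← hinj.hasSum_iff]
  · have h1 := (hG τ).mul_right (𝕢 1 (τ : ℂ) ^ k)
    have e : ((fun m : ℤ => (HahnSeries.single k (1 : ℂ) *
        HahnSeries.ofPowerSeries ℤ ℂ (P.map (Int.castRingHom ℂ))).coeff m *
        Complex.exp (2 * π * Complex.I * m * τ / (1 : ℕ))) ∘ fun n : ℕ => ((n : ℤ) + k)) =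
        fun i : ℕ => ((PowerSeries.coeff i P : ℤ) : ℂ) * 𝕢 1 (τ : ℂ) ^ i * 𝕢 1 (τ : ℂ) ^ k := by
      funext n
      simp only [Function.comp_apply]
      have hexp : Complex.exp (2 * π * Complex.I * (((n : ℤ) + k : ℤ) : ℂ) * τ / ((1 : ℕ) : ℂ)) =
          𝕢 1 (τ : ℂ) ^ n * 𝕢 1 (τ : ℂ) ^ k := by
        rw [Periodic.qParam, ← Complex.exp_nat_mul, ← Complex.exp_int_mul, ← Complex.exp_add]
        congr 1
        push_cast
        ring
      rw [dexp_coeff_shift_nat, hexp, mul_assoc, PowerSeries.coeff_map, eq_intCast]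
    rw [e]
    exact h1
  · intro m hm
    rw [dexp_coeff_shift_of_lt, zero_mul]
    by_contra hlt
    apply hm
    refine ⟨(m - k).toNat, ?_⟩
    simp only
    omega

/-- `∏ (1 - qⁿ)^24` has the expansion `dedekindEtaUnit`. -/
theorem dexp_hasSum_D_pow (τ : ℍ) :
    HasSum (fun n : ℕ => ((PowerSeries.coeff n dedekindEtaUnit : ℤ) : ℂ) * 𝕢 1 (τ : ℂ) ^ n)
      (jexpD τ ^ 24) := by
  have hN := jexp_jNice_D.pow 24
  have := hasSum_qExpansion one_pos hN.periodic hN.holo hN.bdd τ
  have hq : qExpansion 1 (jexpD ^ 24) = PowerSeries.map (Int.castRingHom ℂ) dedekindEtaUnit := by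
    rw [jexp_jNice_D.qExpansion_pow, jexp_qExpansion_D, dedekindEtaUnit, map_pow]
  simpa only [hq, PowerSeries.coeff_map, eq_intCast, smul_eq_mul, Pi.pow_apply] using this

/-- `∏ (1 - qⁿ)^(-24)` -/
def dexpDinv (τ : ℍ) : ℂ := (jexpD τ ^ 24)⁻¹

theorem dexp_jNice_Dinv : JNice dexpDinv where
  holo := by
    have hD : MDiff (fun τ : ℍ => jexpD τ ^ 24) := jexp_jNice_D.holo.pow 24
    intro τ
    exact (hD τ).inv (pow_ne_zero 24 (jexp_D_ne_zero τ))
  periodic := by
    have h2 := jexp_jNice_D.periodic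
    intro z
    have e2 := h2 z
    simp only [Function.comp_apply, dexpDinv] at e2 ⊢
    rw [e2]
  bdd := by
    have := (jexp_tendsto_D_pow.inv₀ one_ne_zero).isBigO_one ℝ
    exact this

theorem dexp_Dinv_mul : dexpDinv * jexpD ^ 24 = 1 := by
  funext τ
  simp only [Pi.mul_apply, Pi.pow_apply, dexpDinv, Pi.one_apply]
  exact inv_mul_cancel₀ (pow_ne_zero 24 (jexp_D_ne_zero τ))

theorem dexp_qExpansion_Dinv :
    qExpansion 1 dexpDinv = PowerSeries.map (Int.castRingHom ℂ) dedekindEtaUnitInv := by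
  have h1 : qExpansion 1 dexpDinv * PowerSeries.map (Int.castRingHom ℂ) dedekindEtaUnit = 1 := by
    have hq : qExpansion 1 (jexpD ^ 24) = PowerSeries.map (Int.castRingHom ℂ) dedekindEtaUnit := by
      rw [jexp_jNice_D.qExpansion_pow, jexp_qExpansion_D, dedekindEtaUnit, map_pow]
    rw [← hq, ← UpperHalfPlane.qExpansion_mul dexp_jNice_Dinv.analyticAt
      (jexp_jNice_D.pow 24).analyticAt, dexp_Dinv_mul]
    exact UpperHalfPlane.qExpansion_one 1
  have h2 : PowerSeries.map (Int.castRingHom ℂ) dedekindEtaUnit *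
      PowerSeries.map (Int.castRingHom ℂ) dedekindEtaUnitInv = 1 := by
    rw [← map_mul, dedekindEtaUnit_mul_inv, map_one]
  calc qExpansion 1 dexpDinv
      = qExpansion 1 dexpDinv * (PowerSeries.map (Int.castRingHom ℂ) dedekindEtaUnit *
          PowerSeries.map (Int.castRingHom ℂ) dedekindEtaUnitInv) := by rw [h2, mul_one]
    _ = PowerSeries.map (Int.castRingHom ℂ) dedekindEtaUnitInv := by
        rw [← mul_assoc, h1, one_mul]

theorem dexp_hasSum_Dinv (τ : ℍ) :
    HasSum (fun n : ℕ => ((PowerSeries.coeff n dedekindEtaUnitInv : ℤ) : ℂ) * 𝕢 1 (τ : ℂ) ^ n)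
      (dexpDinv τ) := by
  have := hasSum_qExpansion one_pos dexp_jNice_Dinv.periodic dexp_jNice_Dinv.holo
    dexp_jNice_Dinv.bdd τ
  simpa only [dexp_qExpansion_Dinv, PowerSeries.coeff_map, eq_intCast, smul_eq_mul] using this

/-- **the expansion of `Δ`** -/
theorem hasCuspExp_delta :
    HasCuspExp 1 (fun τ : ℍ => ModularForm.discriminant τ) (deltaSer ℂ) := by
  have h := dexp_hasCuspExp_shift (fun τ => jexpD τ ^ 24) dedekindEtaUnit 1 dexp_hasSum_D_pow
  have e : (fun τ : ℍ => ModularForm.discriminant τ) =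
      fun τ : ℍ => jexpD τ ^ 24 * 𝕢 1 (τ : ℂ) ^ (1 : ℤ) := by
    funext τ
    rw [jexp_discriminant_eq, zpow_one, mul_comm]
  rw [e]
  exact h

/-- **the expansion of `1/Δ`** -/
theorem hasCuspExp_deltaInv :
    HasCuspExp 1 (fun τ : ℍ => (ModularForm.discriminant τ)⁻¹) (deltaInvSer ℂ) := by
  have h := dexp_hasCuspExp_shift dexpDinv dedekindEtaUnitInv (-1) dexp_hasSum_Dinv
  have e : (fun τ : ℍ => (ModularForm.discriminant τ)⁻¹) =
      fun τ : ℍ => dexpDinv τ * 𝕢 1 (τ : ℂ) ^ (-1 : ℤ) := by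
    funext τ
    rw [jexp_discriminant_eq, dexpDinv, zpow_neg, zpow_one, mul_inv, mul_comm]
  rw [e]
  exact h

end Fermat.Agent.S28
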