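import Mathlib

/-!
# S28 leaf L5a : characteristic polynomial, norm and trace via a full set of conjugates

`L` a commutative `K`-algebra with a power basis `pb` (NOT assumed to be a field), `E` a field,
`σ i : L →ₐ[K] E`, `i : Fin pb.dim`, with pairwise distinct values at `pb.gen`.  Then the matrix of
multiplication by `z` in the basis `pb.basis` is diagonalised over `E` by the Vandermonde matrix
`V i k = (σ i pb.gen) ^ k` (`V * M = diag (σ i z) * V`, `det V ≠ 0`), so its characteristic
polynomial maps to `∏ (X - σ i z)`.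
-/

set_option autoImplicit false

namespace Fermat.Agent.S28

open Polynomial Matrix

variable {K L E : Type*} [CommRing K] [CommRing L] [Algebra K L] [Field E] [Algebra K E]

/-- The Vandermonde matrix intertwines multiplication by `z` and the diagonal matrix of
conjugates. -/
theorem cpc_vandermonde_mul (pb : PowerBasis K L) (σ : Fin pb.dim → (L →ₐ[K] E)) (z : L) :
    Matrix.vandermonde (fun i => σ i pb.gen) *
        (Algebra.leftMulMatrix pb.basis z).map (algebraMap K E) =
      Matrix.diagonal (fun i => σ i z) * Matrix.vandermonde (fun i => σ i pb.gen) := by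
  ext i k
  rw [Matrix.diagonal_mul, Matrix.mul_apply, Matrix.vandermonde_apply]
  have h1 : z * pb.gen ^ (k : ℕ) =
      ∑ j, (pb.basis.repr (z * pb.basis k) j) • pb.gen ^ (j : ℕ) := by
    conv_lhs => rw [← pb.basis_eq_pow k, ← pb.basis.sum_repr (z * pb.basis k)]
    simp only [PowerBasis.basis_eq_pow]
  have h2 := congrArg (σ i) h1
  rw [map_mul, map_pow, map_sum] at h2
  rw [h2]
  apply Finset.sum_congr rfl
  intro j _
  rw [Matrix.vandermonde_apply, Matrix.map_apply, Algebra.leftMulMatrix_eq_repr_mul, map_smul,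
    map_pow, Algebra.smul_def, mul_comm]

theorem cpc_map_eq_conj (pb : PowerBasis K L)
    (σ : Fin pb.dim → (L →ₐ[K] E)) (hσ : Function.Injective fun i => σ i pb.gen) (z : L) :
    ∃ U : (Matrix (Fin pb.dim) (Fin pb.dim) E)ˣ,
      (Algebra.leftMulMatrix pb.basis z).map (algebraMap K E) =
        U.val⁻¹ * Matrix.diagonal (fun i => σ i z) * U.val := by
  have hdet : IsUnit (Matrix.vandermonde (fun i => σ i pb.gen)).det :=
    (Matrix.det_vandermonde_ne_zero_iff.mpr hσ).isUnit
  refine ⟨Matrix.nonsingInvUnit _ hdet, ?_⟩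
  have h1 := cpc_vandermonde_mul pb σ z
  have h2 : (Matrix.nonsingInvUnit _ hdet).val = Matrix.vandermonde (fun i => σ i pb.gen) := rfl
  rw [h2, Matrix.mul_assoc, ← h1, ← Matrix.mul_assoc, Matrix.nonsing_inv_mul _ hdet, Matrix.one_mul]

theorem charpoly_leftMulMatrix_map_eq_prod (pb : PowerBasis K L)
    (σ : Fin pb.dim → (L →ₐ[K] E)) (hσ : Function.Injective fun i => σ i pb.gen) (z : L) :
    (Matrix.charpoly (Algebra.leftMulMatrix pb.basis z)).map (algebraMap K E) =
      ∏ i : Fin pb.dim, (X - C (σ i z)) := by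
  obtain ⟨U, hU⟩ := cpc_map_eq_conj pb σ hσ z
  rw [← Matrix.charpoly_map, hU, Matrix.charpoly_units_conj', Matrix.charpoly_diagonal]

theorem algebraMap_norm_eq_prod_conj (pb : PowerBasis K L)
    (σ : Fin pb.dim → (L →ₐ[K] E)) (hσ : Function.Injective fun i => σ i pb.gen) (z : L) :
    algebraMap K E (Algebra.norm K z) = ∏ i : Fin pb.dim, σ i z := by
  obtain ⟨U, hU⟩ := cpc_map_eq_conj pb σ hσ z
  rw [Algebra.norm_eq_matrix_det pb.basis z, RingHom.map_det, RingHom.mapMatrix_apply, hU,
    ← Matrix.coe_units_inv, Matrix.det_units_conj', Matrix.det_diagonal]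

theorem algebraMap_trace_eq_sum_conj (pb : PowerBasis K L)
    (σ : Fin pb.dim → (L →ₐ[K] E)) (hσ : Function.Injective fun i => σ i pb.gen) (z : L) :
    algebraMap K E (Algebra.trace K L z) = ∑ i : Fin pb.dim, σ i z := by
  obtain ⟨U, hU⟩ := cpc_map_eq_conj pb σ hσ z
  have h1 : algebraMap K E (Matrix.trace (Algebra.leftMulMatrix pb.basis z)) =
      Matrix.trace ((Algebra.leftMulMatrix pb.basis z).map (algebraMap K E)) := by
    simp [Matrix.trace, map_sum]
  rw [Algebra.trace_eq_matrix_trace pb.basis z, h1, hU, ← Matrix.coe_units_inv,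
    Matrix.trace_units_conj', Matrix.trace_diagonal]

end Fermat.Agent.S28
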