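import Mathlib

/-!
# S28 leaf L4 : the gcd matrix `(gcd(δ,t)²)_{δ,t ∣ N}` is injective

`m² = ∑_{e ∣ m} J(e)` with `J(n) = ∑_{lcm(e,f) = n} φ(e) φ(f) > 0` (Jordan's totient), hence
`∑_t v t * gcd(δ,t)² = ∑_{e ∣ δ} J(e) * w(e)` with `w(e) = ∑_{t : e ∣ t ∣ N} v t`;
strong induction on `δ` gives `w(δ) = 0` for all `δ ∣ N`, and downward induction on divisors
gives `v = 0`.
-/

set_option autoImplicit false
set_option linter.unusedVariables false

namespace Fermat.Agent.S28

open Finset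

/-- Jordan's totient `J₂`, written through `lcm` so that positivity is evident. -/
def gcdmJ (n : ℕ) : ℤ :=
  ∑ x ∈ (n.divisors ×ˢ n.divisors).filter (fun x => Nat.lcm x.1 x.2 = n),
    ((Nat.totient x.1 : ℤ) * (Nat.totient x.2 : ℤ))

theorem gcdmJ_pos {n : ℕ} (hn : n ≠ 0) : 0 < gcdmJ n := by
  unfold gcdmJ
  have hmem : (n, n) ∈ (n.divisors ×ˢ n.divisors).filter (fun x => Nat.lcm x.1 x.2 = n) := by
    simp [hn]
  have hnonneg : ∀ x ∈ (n.divisors ×ˢ n.divisors).filter (fun x => Nat.lcm x.1 x.2 = n),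
      0 ≤ ((Nat.totient x.1 : ℤ) * (Nat.totient x.2 : ℤ)) := fun x _ => by positivity
  have hpos : 0 < ((Nat.totient n : ℤ) * (Nat.totient n : ℤ)) := by
    have := Nat.totient_pos.mpr (Nat.pos_of_ne_zero hn)
    positivity
  exact lt_of_lt_of_le hpos
    (Finset.single_le_sum (f := fun x : ℕ × ℕ => ((Nat.totient x.1 : ℤ) * (Nat.totient x.2 : ℤ)))
      hnonneg hmem)

theorem sum_gcdmJ {m : ℕ} (hm : m ≠ 0) : ∑ d ∈ m.divisors, gcdmJ d = (m : ℤ) ^ 2 := by
  have h1 : ((m : ℤ)) ^ 2 = ∑ x ∈ m.divisors ×ˢ m.divisors,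
      ((Nat.totient x.1 : ℤ) * (Nat.totient x.2 : ℤ)) := by
    rw [Finset.sum_product]
    simp only []
    rw [← Finset.sum_mul_sum, ← Nat.cast_sum, Nat.sum_totient, sq]
  rw [h1, ← Finset.sum_fiberwise_of_maps_to (s := m.divisors ×ˢ m.divisors) (t := m.divisors)
    (g := fun x => Nat.lcm x.1 x.2)]
  · apply Finset.sum_congr rfl
    intro d hd
    unfold gcdmJ
    apply Finset.sum_congr _ (fun _ _ => rfl)
    ext ⟨e, f⟩
    simp only [mem_filter, mem_product, Nat.mem_divisors] at hd ⊢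
    constructor
    · rintro ⟨-, hl⟩
      refine ⟨⟨⟨?_, hm⟩, ⟨?_, hm⟩⟩, hl⟩
      · exact (hl ▸ Nat.dvd_lcm_left e f).trans hd.1
      · exact (hl ▸ Nat.dvd_lcm_right e f).trans hd.1
    · rintro ⟨-, hl⟩
      have hd0 : d ≠ 0 := fun h0 => hm (by simpa [h0] using hd.1)
      refine ⟨⟨⟨?_, hd0⟩, ⟨?_, hd0⟩⟩, hl⟩
      · exact hl ▸ Nat.dvd_lcm_left e f
      · exact hl ▸ Nat.dvd_lcm_right e f
  · intro x hx
    simp only [mem_product, Nat.mem_divisors] at hx ⊢
    exact ⟨Nat.lcm_dvd hx.1.1 hx.2.1, hm⟩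

theorem gcdMatrix_injective (N : ℕ) (hN : N ≠ 0) (v : ℕ → ℤ)
    (h : ∀ δ ∈ N.divisors, ∑ t ∈ N.divisors, v t * ((Nat.gcd δ t : ℤ)) ^ 2 = 0) :
    ∀ t ∈ N.divisors, v t = 0 := by
  set w : ℕ → ℤ := fun e => ∑ t ∈ N.divisors, if e ∣ t then v t else 0 with hw
  -- step 1: the hypothesis in terms of `w`
  have key : ∀ δ ∈ N.divisors, ∑ e ∈ δ.divisors, gcdmJ e * w e = 0 := by
    intro δ hδ
    rw [← h δ hδ]
    have hδ0 : δ ≠ 0 := (Nat.pos_of_mem_divisors hδ).ne'
    have h2 : ∀ t ∈ N.divisors, v t * ((Nat.gcd δ t : ℤ)) ^ 2 =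
        ∑ e ∈ δ.divisors, if e ∣ t then gcdmJ e * v t else 0 := by
      intro t ht
      have hg0 : Nat.gcd δ t ≠ 0 := Nat.gcd_ne_zero_left hδ0
      have h3 : ((Nat.gcd δ t : ℕ) : ℤ) ^ 2 = ∑ e ∈ (Nat.gcd δ t).divisors, gcdmJ e :=
        (sum_gcdmJ hg0).symm
      rw [h3, Finset.mul_sum, ← Finset.sum_filter]
      apply Finset.sum_congr
      · ext e
        simp only [Nat.mem_divisors, mem_filter, Nat.dvd_gcd_iff]
        tauto
      · intro e _
        ring
    rw [Finset.sum_congr rfl h2, Finset.sum_comm]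
    apply Finset.sum_congr rfl
    intro e he
    simp only [hw]
    rw [Finset.mul_sum]
    apply Finset.sum_congr rfl
    intro t _
    split_ifs <;> simp
  -- step 2: `w = 0` on divisors
  have hw0 : ∀ δ : ℕ, δ ∈ N.divisors → w δ = 0 := by
    intro δ
    induction δ using Nat.strong_induction_on with
    | _ δ ih =>
      intro hδ
      have h1 := key δ hδ
      have hδ0' : δ ≠ 0 := (Nat.pos_of_mem_divisors hδ).ne'
      rw [← Nat.cons_self_properDivisors hδ0', Finset.sum_cons, add_comm] at h1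
      have h2 : ∑ e ∈ δ.properDivisors, gcdmJ e * w e = 0 := by
        apply Finset.sum_eq_zero
        intro e he
        rw [Nat.mem_properDivisors] at he
        have heN : e ∈ N.divisors := by
          rw [Nat.mem_divisors] at hδ ⊢
          exact ⟨he.1.trans hδ.1, hδ.2⟩
        rw [ih e he.2 heN, mul_zero]
      rw [h2, zero_add] at h1
      have hδ0 : δ ≠ 0 := (Nat.pos_of_mem_divisors hδ).ne'
      rcases mul_eq_zero.mp h1 with h3 | h3
      · exact absurd h3 (gcdmJ_pos hδ0).ne'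
      · exact h3
  -- step 3: downward induction
  have hv : ∀ n : ℕ, ∀ t ∈ N.divisors, N - t = n → v t = 0 := by
    intro n
    induction n using Nat.strong_induction_on with
    | _ n ih =>
      intro t ht hn
      have h1 := hw0 t ht
      simp only [hw] at h1
      rw [Finset.sum_eq_single t] at h1
      · simpa using h1
      · intro t' ht' hne
        split_ifs with hdvd
        · have ht'pos : 0 < t' := Nat.pos_of_mem_divisors ht'
          have hle : t ≤ t' := Nat.le_of_dvd ht'pos hdvd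
          have hlt : t < t' := lt_of_le_of_ne hle (Ne.symm hne)
          have ht'N : t' ≤ N := Nat.divisor_le ht'
          exact ih (N - t') (by omega) t' ht' rfl
        · rfl
      · intro hnot
        exact absurd ht hnot
  intro t ht
  exact hv (N - t) t ht rfl

end Fermat.Agent.S28
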