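import Mathlib
import Fermat.Agent.S28.GcdMatrix
import Fermat.Agent.S28.CharpolyConj

/-!
# S28 leaf L5b : the abstract Igusa key lemma
-/

set_option autoImplicit false
set_option linter.unusedSectionVars false
set_option linter.style.haveILetI false

namespace Fermat.Agent.S28

open Polynomial

section Units

variable {k₀ : Type*} [Field k₀] {K₀ : Type*} [Field K₀] [Algebra k₀[X] K₀]
  [IsFractionRing k₀[X] K₀]

/-- An element of `k₀(X)` which is integral over `k₀[X]` together with its inverse is a nonzero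
constant. -/
theorem key_const_of_isIntegral {z : K₀} (hz : z ≠ 0) (h1 : IsIntegral k₀[X] z)
    (h2 : IsIntegral k₀[X] z⁻¹) :
    ∃ c : k₀, c ≠ 0 ∧ z = algebraMap k₀[X] K₀ (C c) := by
  obtain ⟨p, hp⟩ := IsIntegrallyClosed.isIntegral_iff.mp h1
  obtain ⟨r, hr⟩ := IsIntegrallyClosed.isIntegral_iff.mp h2
  have hpr : p * r = 1 := by
    apply IsFractionRing.injective k₀[X] K₀
    rw [map_mul, hp, hr, map_one, mul_inv_cancel₀ hz]
  have hu : IsUnit p := IsUnit.of_mul_eq_one r hpr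
  obtain ⟨c, hc, rfl⟩ := Polynomial.isUnit_iff.mp hu
  exact ⟨c, hc.ne_zero, hp.symm⟩

end Units

section Factor

variable {E : Type*} [Field E] {ι : Type*} [Fintype ι]

open Classical in
/-- A monic divisor of `∏ (X - x g)` (distinct `x g`) is the product over its own roots. -/
theorem key_monic_dvd_prod (x : ι → E) (hx : Function.Injective x) (A : E[X]) (hA : A.Monic)
    (hdvd : A ∣ ∏ g, (X - C (x g))) :
    A = ∏ g ∈ Finset.univ.filter (fun g => x g ∈ A.roots), (X - C (x g)) ∧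
      A.natDegree = (Finset.univ.filter (fun g => x g ∈ A.roots)).card := by
  have hne : (∏ g, (X - C (x g)) : E[X]) ≠ 0 :=
    Finset.prod_ne_zero_iff.mpr fun g _ => X_sub_C_ne_zero (x g)
  have hsplit : A.Splits :=
    (Splits.prod fun g _ => Splits.X_sub_C (x g)).of_dvd hne hdvd
  have hroots_le : A.roots ≤ (Finset.univ.val.map x) := by
    have h1 := Polynomial.roots.le_of_dvd hne hdvd
    have hprod : (∏ g, (X - C (x g)) : E[X]) =
        ((Finset.univ.val.map x).map fun a => X - C a).prod := by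
      rw [Multiset.map_map]
      rfl
    rwa [hprod, Polynomial.roots_multiset_prod_X_sub_C] at h1
  have hnodup : (Finset.univ.val.map x).Nodup :=
    Multiset.Nodup.map hx Finset.univ.nodup
  have hroots : A.roots = (Finset.univ.filter (fun g => x g ∈ A.roots)).val.map x := by
    apply Multiset.Nodup.ext (Multiset.nodup_of_le hroots_le hnodup)
      (Multiset.Nodup.map hx (Finset.nodup _)) |>.mpr
    intro r
    constructor
    · intro hr
      have h2 := Multiset.mem_of_le hroots_le hr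
      obtain ⟨g, -, rfl⟩ := Multiset.mem_map.mp h2
      exact Multiset.mem_map.mpr ⟨g, by simpa using hr, rfl⟩
    · intro hr
      obtain ⟨g, hg, rfl⟩ := Multiset.mem_map.mp hr
      simpa using hg
  constructor
  · conv_lhs => rw [hsplit.eq_prod_roots_of_monic hA, hroots]
    rw [Multiset.map_map]
    rfl
  · rw [hsplit.natDegree_eq_card_roots]
    conv_lhs => rw [hroots]
    rw [Multiset.card_map]
    rfl

end Factor

section Norm

variable {K₀ : Type*} [Field K₀] {E : Type*} [Field E] (φ : K₀ →+* E)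
  {ι : Type*}

/-- The product of the values of `R` at the roots of the monic polynomial `P` is (the image of)
a norm, hence lies in `φ K₀`. -/
theorem key_prod_eq_norm (x : ι → E) (s : Finset ι) (hx : Set.InjOn x s) (P : K₀[X])
    (hP : P.Monic) (hPs : P.map φ = ∏ g ∈ s, (X - C (x g))) (R : K₀[X]) :
    φ (Algebra.norm K₀ (AdjoinRoot.mk P R)) = ∏ g ∈ s, eval₂ φ (x g) R := by
  let _ : Algebra K₀ E := φ.toAlgebra
  have halg : (algebraMap K₀ E) = φ := RingHom.algebraMap_toAlgebra φ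
  set pb := AdjoinRoot.powerBasis' hP with hpb
  have hdeg : P.natDegree = s.card := by
    have h1 : (P.map φ).natDegree = P.natDegree := Polynomial.natDegree_map φ
    rw [← h1, hPs, Polynomial.natDegree_prod_of_monic _ _ (fun g _ => monic_X_sub_C (x g))]
    simp
  have hcard : Fintype.card ↥s = pb.dim := by
    rw [Fintype.card_coe, hpb, AdjoinRoot.powerBasis'_dim, hdeg]
  let e : ↥s ≃ Fin pb.dim := Fintype.equivFinOfCardEq hcard
  have hroot : ∀ g : ↥s, P.eval₂ (Algebra.ofId K₀ E) (x g.1) = 0 := by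
    intro g
    have h1 : P.eval₂ (Algebra.ofId K₀ E) (x g.1) = (P.map φ).eval (x g.1) := by
      rw [Polynomial.eval_map]
      rfl
    rw [h1, hPs, Polynomial.eval_prod]
    apply Finset.prod_eq_zero g.2
    simp
  let σ : Fin pb.dim → (AdjoinRoot P →ₐ[K₀] E) := fun i =>
    AdjoinRoot.liftAlgHom P (Algebra.ofId K₀ E) (x (e.symm i).1) (hroot (e.symm i))
  have hσ : Function.Injective fun i => σ i pb.gen := by
    intro i j hij
    have h1 : x (e.symm i).1 = x (e.symm j).1 := by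
      simpa [σ, hpb, AdjoinRoot.powerBasis'_gen] using hij
    have h2 := hx (e.symm i).2 (e.symm j).2 h1
    exact e.symm.injective (Subtype.ext h2)
  have h3 := algebraMap_norm_eq_prod_conj pb σ hσ (AdjoinRoot.mk P R)
  rw [halg] at h3
  rw [h3, ← Finset.prod_coe_sort s]
  rw [← Equiv.prod_comp e.symm]
  apply Finset.prod_congr rfl
  intro i _
  simp only [σ, AdjoinRoot.liftAlgHom_mk]
  rfl

end Norm

section Val

variable {k₀ : Type*} [Field k₀] {K₀ : Type*} [Field K₀] [Algebra k₀[X] K₀]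
  [IsFractionRing k₀[X] K₀] {E : Type*} [Field E] (v : AddValuation E (WithTop ℤ)) (φ : K₀ →+* E)

theorem key_isIntegral_of_elem {z : K₀}
    (h : (φ.comp (algebraMap k₀[X] K₀)).IsIntegralElem (φ z)) : IsIntegral k₀[X] z := by
  obtain ⟨q, hq, hqz⟩ := h
  refine ⟨q, hq, ?_⟩
  rw [← Polynomial.hom_eval₂] at hqz
  exact φ.injective (by rw [hqz, map_zero])

theorem key_val_eq_zero (hφc : ∀ c : k₀, c ≠ 0 → v (φ (algebraMap k₀[X] K₀ (C c))) = 0) {z : K₀}
    (hz : z ≠ 0) (h1 : (φ.comp (algebraMap k₀[X] K₀)).IsIntegralElem (φ z))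
    (h2 : (φ.comp (algebraMap k₀[X] K₀)).IsIntegralElem (φ z)⁻¹) : v (φ z) = 0 := by
  have h1' := key_isIntegral_of_elem φ h1
  rw [← map_inv₀] at h2
  have h2' := key_isIntegral_of_elem φ h2
  obtain ⟨c, hc, rfl⟩ := key_const_of_isIntegral hz h1' h2'
  exact hφc c hc

theorem key_val_prod {ι : Type*} (s : Finset ι) (u : ι → E) :
    v (∏ g ∈ s, u g) = ∑ g ∈ s, v (u g) := by
  classical
  induction s using Finset.induction_on with
  | empty => simp
  | insert a s ha ih => rw [Finset.prod_insert ha, Finset.sum_insert ha, v.map_mul, ih]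

theorem key_isIntegralElem_prod {R S : Type*} [CommRing R] [CommRing S] (f : R →+* S)
    {ι : Type*} (s : Finset ι) (u : ι → S) (h : ∀ g ∈ s, f.IsIntegralElem (u g)) :
    f.IsIntegralElem (∏ g ∈ s, u g) := by
  letI : Algebra R S := f.toAlgebra
  exact IsIntegral.prod u h

variable {ι : Type*}

/-- The valuation computation: for a monic factor `P` with root set `s`, the orders of the unit
functions sum to zero. -/
theorem key_sum_gcd_eq (hφc : ∀ c : k₀, c ≠ 0 → v (φ (algebraMap k₀[X] K₀ (C c))) = 0)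
    (N : ℕ) (hN : N ≠ 0) (x : ι → E) (t : ι → ℕ) (R : ℕ → K₀[X])
    (hint : ∀ δ ∈ N.divisors, ∀ g,
      (φ.comp (algebraMap k₀[X] K₀)).IsIntegralElem (eval₂ φ (x g) (R δ)))
    (hint' : ∀ δ ∈ N.divisors, ∀ g,
      (φ.comp (algebraMap k₀[X] K₀)).IsIntegralElem (eval₂ φ (x g) (R δ))⁻¹)
    (hord : ∀ δ ∈ N.divisors, ∀ g, v (eval₂ φ (x g) (R δ)) =
      (((((N / δ : ℕ) : ℤ) * (((Nat.gcd δ (t g) : ℕ) : ℤ) ^ 2 - (δ : ℤ)) : ℤ)) : WithTop ℤ))
    (P : K₀[X]) (hP : P.Monic) (s : Finset ι) (hx : Set.InjOn x s)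
    (hPs : P.map φ = ∏ g ∈ s, (X - C (x g))) (δ : ℕ) (hδ : δ ∈ N.divisors) :
    ∑ g ∈ s, (((Nat.gcd δ (t g) : ℕ) : ℤ)) ^ 2 = (δ : ℤ) * s.card := by
  have hnorm := key_prod_eq_norm φ x s hx P hP hPs (R δ)
  set z := Algebra.norm K₀ (AdjoinRoot.mk P (R δ)) with hz
  have hune : ∀ g, eval₂ φ (x g) (R δ) ≠ 0 := by
    intro g h0
    have h1 := hord δ hδ g
    rw [h0, v.map_zero] at h1
    exact WithTop.top_ne_coe h1
  have hz0 : z ≠ 0 := by
    intro h0
    rw [h0, map_zero] at hnorm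
    exact (Finset.prod_ne_zero_iff.mpr fun g _ => hune g) hnorm.symm
  have h1 : (φ.comp (algebraMap k₀[X] K₀)).IsIntegralElem (φ z) := by
    rw [hnorm]
    exact key_isIntegralElem_prod _ s _ fun g _ => hint δ hδ g
  have h2 : (φ.comp (algebraMap k₀[X] K₀)).IsIntegralElem (φ z)⁻¹ := by
    rw [hnorm, ← Finset.prod_inv_distrib]
    exact key_isIntegralElem_prod _ s _ fun g _ => hint' δ hδ g
  have h3 := key_val_eq_zero v φ hφc hz0 h1 h2
  rw [hnorm, key_val_prod, Finset.sum_congr rfl (fun g _ => hord δ hδ g), ← WithTop.coe_sum,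
    ← WithTop.coe_zero, WithTop.coe_eq_coe, ← Finset.mul_sum] at h3
  have hδN : δ ∣ N := (Nat.mem_divisors.mp hδ).1
  have hδ0 : 0 < δ := Nat.pos_of_mem_divisors hδ
  have hdiv : ((N / δ : ℕ) : ℤ) ≠ 0 := by
    have : 0 < N / δ := Nat.div_pos (Nat.le_of_dvd (Nat.pos_of_ne_zero hN) hδN) hδ0
    exact_mod_cast this.ne'
  have h4 := (mul_eq_zero.mp h3).resolve_left hdiv
  rw [Finset.sum_sub_distrib, Finset.sum_const, nsmul_eq_mul] at h4
  linarith

end Val

section Count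

variable {ι : Type*} [Fintype ι] [DecidableEq ι]

theorem key_sum_fiber (N : ℕ) (t : ι → ℕ) (ht : ∀ g, t g ∈ N.divisors) (s : Finset ι)
    (f : ℕ → ℤ) :
    ∑ g ∈ s, f (t g) = ∑ τ ∈ N.divisors, ((s.filter fun g => t g = τ).card : ℤ) * f τ := by
  rw [← Finset.sum_fiberwise_of_maps_to (s := s) (t := N.divisors) (g := t) (fun g _ => ht g)]
  apply Finset.sum_congr rfl
  intro τ _
  rw [Finset.sum_congr rfl (fun g hg => by rw [(Finset.mem_filter.mp hg).2] : ∀ g ∈
    s.filter (fun g => t g = τ), f (t g) = f τ), Finset.sum_const, nsmul_eq_mul]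

/-- The counting argument: a root set `s` containing the unique root of type `N` and satisfying
the same gcd-sum relations as the full root set is everything. -/
theorem key_card_eq (N : ℕ) (hN : N ≠ 0) (t : ι → ℕ) (ht : ∀ g, t g ∈ N.divisors) (g₁ : ι)
    (hg₁ : t g₁ = N) (huniq : ∀ g, t g = N → g = g₁) (s : Finset ι) (hg₁s : g₁ ∈ s)
    (hs : ∀ δ ∈ N.divisors,
      ∑ g ∈ s, (((Nat.gcd δ (t g) : ℕ) : ℤ)) ^ 2 = (δ : ℤ) * s.card)
    (huniv : ∀ δ ∈ N.divisors,
      ∑ g, (((Nat.gcd δ (t g) : ℕ) : ℤ)) ^ 2 = (δ : ℤ) * Fintype.card ι) :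
    s.card = Fintype.card ι := by
  set mS : ℕ → ℤ := fun τ => ((s.filter fun g => t g = τ).card : ℤ) with hmS
  set mX : ℕ → ℤ := fun τ => ((Finset.univ.filter fun g => t g = τ).card : ℤ) with hmX
  have h1 : ∀ δ ∈ N.divisors, ∑ τ ∈ N.divisors,
      ((Fintype.card ι : ℤ) * mS τ - (s.card : ℤ) * mX τ) * (((Nat.gcd δ τ : ℕ) : ℤ)) ^ 2 = 0 := by
    intro δ hδ
    have e1 := key_sum_fiber N t ht s (fun τ => (((Nat.gcd δ τ : ℕ) : ℤ)) ^ 2)
    have e2 := key_sum_fiber N t ht Finset.univ (fun τ => (((Nat.gcd δ τ : ℕ) : ℤ)) ^ 2)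
    rw [hs δ hδ] at e1
    rw [huniv δ hδ] at e2
    have e3 : ∑ τ ∈ N.divisors,
        ((Fintype.card ι : ℤ) * mS τ - (s.card : ℤ) * mX τ) * (((Nat.gcd δ τ : ℕ) : ℤ)) ^ 2 =
        (Fintype.card ι : ℤ) * ∑ τ ∈ N.divisors, mS τ * (((Nat.gcd δ τ : ℕ) : ℤ)) ^ 2 -
          (s.card : ℤ) * ∑ τ ∈ N.divisors, mX τ * (((Nat.gcd δ τ : ℕ) : ℤ)) ^ 2 := by
      rw [Finset.mul_sum, Finset.mul_sum, ← Finset.sum_sub_distrib]
      apply Finset.sum_congr rfl
      intro τ _
      ring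
    rw [e3, ← e1, ← e2]
    ring
  have h2 := gcdMatrix_injective N hN
    (fun τ => (Fintype.card ι : ℤ) * mS τ - (s.card : ℤ) * mX τ) h1 N
    (Nat.mem_divisors.mpr ⟨dvd_rfl, hN⟩)
  have hmSN : mS N = 1 := by
    have : s.filter (fun g => t g = N) = {g₁} := by
      ext g
      simp only [Finset.mem_filter, Finset.mem_singleton]
      constructor
      · rintro ⟨-, h⟩
        exact huniq g h
      · rintro rfl
        exact ⟨hg₁s, hg₁⟩
    simp [hmS, this]
  have hmXN : mX N = 1 := by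
    have : Finset.univ.filter (fun g => t g = N) = {g₁} := by
      ext g
      simp only [Finset.mem_filter, Finset.mem_univ, true_and, Finset.mem_singleton]
      constructor
      · exact huniq g
      · rintro rfl
        exact hg₁
    simp [hmX, this]
  rw [hmSN, hmXN] at h2
  have h3 : (s.card : ℤ) = (Fintype.card ι : ℤ) := by linarith
  exact_mod_cast h3

end Count

section Final

variable {k₀ : Type*} [Field k₀] {K₀ : Type*} [Field K₀] [Algebra k₀[X] K₀]
  [IsFractionRing k₀[X] K₀] {E : Type*} [Field E] (v : AddValuation E (WithTop ℤ)) (φ : K₀ →+* E)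
  {ι : Type*} [Fintype ι] [DecidableEq ι]

/-- **Abstract Igusa key lemma**, minimal-polynomial form.

`K₀ = k₀(j)` (fraction field of `k₀[X]`), `φ : K₀ → E` an embedding into a valued field (think
`E = k((q^{1/N}))`, `φ X = j̄`), constants of valuation `0`.  `Φ ∈ K₀[T]` monic with
`Φ^φ = ∏_g (T - x g)`, the `x g` pairwise distinct, of "types" `t g ∣ N`, exactly one root `x g₁`
of type `N`.  For every `δ ∣ N` a polynomial `R δ ∈ K₀[T]` whose values `u δ g = R δ (x g)` are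
units integral over `k₀[j]` together with their inverses, of valuation
`(N/δ) (gcd(δ, t g)² - δ)`.  Then `Φ` is the minimal polynomial of `x g₁` over `K₀`. -/
theorem key_minpoly_eq (hφc : ∀ c : k₀, c ≠ 0 → v (φ (algebraMap k₀[X] K₀ (C c))) = 0)
    (N : ℕ) (hN : N ≠ 0) (x : ι → E) (hx : Function.Injective x) (t : ι → ℕ)
    (ht : ∀ g, t g ∈ N.divisors) (g₁ : ι) (hg₁ : t g₁ = N) (huniq : ∀ g, t g = N → g = g₁)
    (R : ℕ → K₀[X])
    (hint : ∀ δ ∈ N.divisors, ∀ g,
      (φ.comp (algebraMap k₀[X] K₀)).IsIntegralElem (eval₂ φ (x g) (R δ)))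
    (hint' : ∀ δ ∈ N.divisors, ∀ g,
      (φ.comp (algebraMap k₀[X] K₀)).IsIntegralElem (eval₂ φ (x g) (R δ))⁻¹)
    (hord : ∀ δ ∈ N.divisors, ∀ g, v (eval₂ φ (x g) (R δ)) =
      (((((N / δ : ℕ) : ℤ) * (((Nat.gcd δ (t g) : ℕ) : ℤ) ^ 2 - (δ : ℤ)) : ℤ)) : WithTop ℤ))
    (Φ : K₀[X]) (hΦm : Φ.Monic) (hΦ : Φ.map φ = ∏ g, (X - C (x g))) :
    letI : Algebra K₀ E := φ.toAlgebra
    minpoly K₀ (x g₁) = Φ := by
  letI : Algebra K₀ E := φ.toAlgebra
  have halg : (algebraMap K₀ E) = φ := RingHom.algebraMap_toAlgebra φ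
  have hroot : Polynomial.aeval (x g₁) Φ = 0 := by
    rw [Polynomial.aeval_def, halg, ← Polynomial.eval_map, hΦ, Polynomial.eval_prod]
    apply Finset.prod_eq_zero (Finset.mem_univ g₁)
    simp
  have hintg : IsIntegral K₀ (x g₁) := ⟨Φ, hΦm, by rwa [Polynomial.aeval_def] at hroot⟩
  set P := minpoly K₀ (x g₁) with hPdef
  have hPm : P.Monic := minpoly.monic hintg
  have hPdvd : P ∣ Φ := minpoly.dvd K₀ (x g₁) hroot
  have hPdvd' : P.map φ ∣ ∏ g, (X - C (x g)) := by
    rw [← hΦ]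
    exact Polynomial.map_dvd φ hPdvd
  obtain ⟨hPs, hPcard⟩ := key_monic_dvd_prod x hx (P.map φ) (hPm.map φ) hPdvd'
  classical
  set s := Finset.univ.filter (fun g => x g ∈ (P.map φ).roots) with hs
  have hg₁s : g₁ ∈ s := by
    rw [hs, Finset.mem_filter]
    refine ⟨Finset.mem_univ _, ?_⟩
    rw [Polynomial.mem_roots (hPm.map φ).ne_zero, Polynomial.IsRoot, Polynomial.eval_map, ← halg,
      ← Polynomial.aeval_def]
    exact minpoly.aeval K₀ (x g₁)
  have hsum_s := key_sum_gcd_eq v φ hφc N hN x t R hint hint' hord P hPm s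
    (hx.injOn) hPs
  have hsum_univ := key_sum_gcd_eq v φ hφc N hN x t R hint hint' hord Φ hΦm Finset.univ
    (hx.injOn) hΦ
  have hcard := key_card_eq N hN t ht g₁ hg₁ huniq s hg₁s hsum_s
    (fun δ hδ => by simpa using hsum_univ δ hδ)
  have hdegP : P.natDegree = Fintype.card ι := by
    rw [← hcard, ← hPcard, Polynomial.natDegree_map]
  have hdegΦ : Φ.natDegree = Fintype.card ι := by
    have h1 : (Φ.map φ).natDegree = Φ.natDegree := Polynomial.natDegree_map φ
    rw [← h1, hΦ, Polynomial.natDegree_prod_of_monic _ _ (fun g _ => monic_X_sub_C (x g))]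
    simp
  exact (Polynomial.eq_of_monic_of_dvd_of_natDegree_le hPm hΦm hPdvd
    (by rw [hdegP, hdegΦ])).symm

/-- **Abstract Igusa key lemma**: `Φ` is irreducible over `K₀ = k₀(j)`. -/
theorem keylem_irreducible (hφc : ∀ c : k₀, c ≠ 0 → v (φ (algebraMap k₀[X] K₀ (C c))) = 0)
    (N : ℕ) (hN : N ≠ 0) (x : ι → E) (hx : Function.Injective x) (t : ι → ℕ)
    (ht : ∀ g, t g ∈ N.divisors) (g₁ : ι) (hg₁ : t g₁ = N) (huniq : ∀ g, t g = N → g = g₁)
    (R : ℕ → K₀[X])
    (hint : ∀ δ ∈ N.divisors, ∀ g,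
      (φ.comp (algebraMap k₀[X] K₀)).IsIntegralElem (eval₂ φ (x g) (R δ)))
    (hint' : ∀ δ ∈ N.divisors, ∀ g,
      (φ.comp (algebraMap k₀[X] K₀)).IsIntegralElem (eval₂ φ (x g) (R δ))⁻¹)
    (hord : ∀ δ ∈ N.divisors, ∀ g, v (eval₂ φ (x g) (R δ)) =
      (((((N / δ : ℕ) : ℤ) * (((Nat.gcd δ (t g) : ℕ) : ℤ) ^ 2 - (δ : ℤ)) : ℤ)) : WithTop ℤ))
    (Φ : K₀[X]) (hΦm : Φ.Monic) (hΦ : Φ.map φ = ∏ g, (X - C (x g))) :
    Irreducible Φ := by
  letI : Algebra K₀ E := φ.toAlgebra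
  have h := key_minpoly_eq v φ hφc N hN x hx t ht g₁ hg₁ huniq R hint hint' hord Φ hΦm hΦ
  have hintg : IsIntegral K₀ (x g₁) := by
    refine ⟨Φ, hΦm, ?_⟩
    rw [RingHom.algebraMap_toAlgebra φ, ← Polynomial.eval_map, hΦ, Polynomial.eval_prod]
    apply Finset.prod_eq_zero (Finset.mem_univ g₁)
    simp
  rw [← h]
  exact minpoly.irreducible hintg

/-- **Abstract Igusa key lemma**, the form used for the `q`-expansion principle: a polynomial
over `K₀` of degree `< n` vanishing at the distinguished root `x g₁` is zero. -/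
theorem key_eq_zero_of_natDegree_lt
    (hφc : ∀ c : k₀, c ≠ 0 → v (φ (algebraMap k₀[X] K₀ (C c))) = 0)
    (N : ℕ) (hN : N ≠ 0) (x : ι → E) (hx : Function.Injective x) (t : ι → ℕ)
    (ht : ∀ g, t g ∈ N.divisors) (g₁ : ι) (hg₁ : t g₁ = N) (huniq : ∀ g, t g = N → g = g₁)
    (R : ℕ → K₀[X])
    (hint : ∀ δ ∈ N.divisors, ∀ g,
      (φ.comp (algebraMap k₀[X] K₀)).IsIntegralElem (eval₂ φ (x g) (R δ)))
    (hint' : ∀ δ ∈ N.divisors, ∀ g,
      (φ.comp (algebraMap k₀[X] K₀)).IsIntegralElem (eval₂ φ (x g) (R δ))⁻¹)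
    (hord : ∀ δ ∈ N.divisors, ∀ g, v (eval₂ φ (x g) (R δ)) =
      (((((N / δ : ℕ) : ℤ) * (((Nat.gcd δ (t g) : ℕ) : ℤ) ^ 2 - (δ : ℤ)) : ℤ)) : WithTop ℤ))
    (Φ : K₀[X]) (hΦm : Φ.Monic) (hΦ : Φ.map φ = ∏ g, (X - C (x g)))
    (A : K₀[X]) (hdeg : A.natDegree < Fintype.card ι) (hA : eval₂ φ (x g₁) A = 0) : A = 0 := by
  letI : Algebra K₀ E := φ.toAlgebra
  have h := key_minpoly_eq v φ hφc N hN x hx t ht g₁ hg₁ huniq R hint hint' hord Φ hΦm hΦ
  have hdegΦ : Φ.natDegree = Fintype.card ι := by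
    have h1 : (Φ.map φ).natDegree = Φ.natDegree := Polynomial.natDegree_map φ
    rw [← h1, hΦ, Polynomial.natDegree_prod_of_monic _ _ (fun g _ => monic_X_sub_C (x g))]
    simp
  have hdvd : Φ ∣ A := by
    rw [← h]
    apply minpoly.dvd K₀ (x g₁)
    rw [Polynomial.aeval_def, RingHom.algebraMap_toAlgebra φ]
    exact hA
  by_contra hne
  have := Polynomial.natDegree_le_of_dvd hdvd hne
  omega

end Final

end Fermat.Agent.S28
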