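import Mathlib
import Fermat.Agent.S28.KeyLemma

/-!
# S28 leaf L5b : `key_abstract`, the abstract irreducibility lemma over `k((s))`

Exact statement of `KeyAbstractSpec.key_abstract` (origin/helper12 123c613), proved on top of
`KeyLemma.lean` (`key_monic_dvd_prod`, `key_prod_eq_norm`, `key_val_eq_zero`).
-/

set_option autoImplicit false

noncomputable section

namespace Fermat.Agent.S28

open Polynomial

variable {k : Type*} [Field k]

/-- the subring `k[J]` of `k((s))`. -/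
def polyRange (J : LaurentSeries k) : Subalgebra k (LaurentSeries k) :=
  (Polynomial.aeval J : k[X] →ₐ[k] LaurentSeries k).range

/-- the ring hom `k[X] → k((s))`, `X ↦ J`. -/
abbrev keyabsHom (J : LaurentSeries k) : k[X] →+* LaurentSeries k :=
  ((Polynomial.aeval J : k[X] →ₐ[k] LaurentSeries k) : k[X] →+* LaurentSeries k)

theorem keyabs_algebraMap_eq (c : k) :
    algebraMap k (LaurentSeries k) c = HahnSeries.C c := by
  rw [HahnSeries.algebraMap_apply']
  simp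

theorem keyabs_val_const (c : k) (hc : c ≠ 0) :
    HahnSeries.addVal ℤ k (algebraMap k (LaurentSeries k) c) = 0 := by
  rw [keyabs_algebraMap_eq, HahnSeries.addVal_apply]
  exact HahnSeries.orderTop_single hc

theorem keyabs_val_pow (J : LaurentSeries k) (hJ0 : J ≠ 0) (i : ℕ) :
    HahnSeries.addVal ℤ k (J ^ i) = (((i : ℤ) * J.order : ℤ) : WithTop ℤ) := by
  rw [AddValuation.map_pow, HahnSeries.addVal_apply_of_ne hJ0, ← nsmul_eq_mul, WithTop.coe_nsmul]

theorem keyabs_val_term (J : LaurentSeries k) (hJ0 : J ≠ 0) (c : k) (hc : c ≠ 0) (i : ℕ) :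
    HahnSeries.addVal ℤ k (algebraMap k (LaurentSeries k) c * J ^ i) =
      (((i : ℤ) * J.order : ℤ) : WithTop ℤ) := by
  rw [AddValuation.map_mul, keyabs_val_const c hc, keyabs_val_pow J hJ0, zero_add]

theorem keyabs_aeval_ne_zero (J : LaurentSeries k) (hJ : J.order < 0) (p : k[X]) (hp : p ≠ 0) :
    Polynomial.aeval J p ≠ 0 := by
  have hJ0 : J ≠ 0 := by
    rintro rfl
    simp at hJ
  intro h0
  rw [Polynomial.aeval_eq_sum_range, Finset.sum_range_succ] at h0
  simp only [Algebra.smul_def] at h0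
  have hlc : p.coeff p.natDegree ≠ 0 := by
    rwa [Polynomial.coeff_natDegree, Polynomial.leadingCoeff_ne_zero]
  have h1 : algebraMap k (LaurentSeries k) (p.coeff p.natDegree) * J ^ p.natDegree =
      -∑ i ∈ Finset.range p.natDegree, algebraMap k (LaurentSeries k) (p.coeff i) * J ^ i := by
    rw [eq_neg_iff_add_eq_zero, add_comm]
    exact h0
  have h2 := keyabs_val_term J hJ0 _ hlc p.natDegree
  have h3 : (((p.natDegree : ℤ) * J.order : ℤ) : WithTop ℤ) <
      HahnSeries.addVal ℤ k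
        (∑ i ∈ Finset.range p.natDegree, algebraMap k (LaurentSeries k) (p.coeff i) * J ^ i) := by
    apply AddValuation.map_lt_sum _ (WithTop.coe_ne_top)
    intro i hi
    rw [Finset.mem_range] at hi
    by_cases hci : p.coeff i = 0
    · rw [hci, map_zero, zero_mul, AddValuation.map_zero]
      exact WithTop.coe_lt_top _
    · rw [keyabs_val_term J hJ0 _ hci, WithTop.coe_lt_coe]
      have : (i : ℤ) < p.natDegree := by exact_mod_cast hi
      nlinarith
  rw [h1, AddValuation.map_neg] at h2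
  rw [h2] at h3
  exact lt_irrefl _ h3

theorem keyabs_hom_injective (J : LaurentSeries k) (hJ : J.order < 0) :
    Function.Injective (keyabsHom J) := by
  rw [injective_iff_map_eq_zero]
  intro p hp
  by_contra hne
  exact keyabs_aeval_ne_zero J hJ p hne hp


theorem keyabs_hom_const (J : LaurentSeries k) (c : k) :
    keyabsHom J (C c) = algebraMap k (LaurentSeries k) c := by
  simp [keyabsHom]

theorem keyabs_lift (J : LaurentSeries k) (F : (LaurentSeries k)[X])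
    (hF : ∀ i : ℕ, F.coeff i ∈ polyRange J) : ∃ F₀ : k[X][X], F₀.map (keyabsHom J) = F := by
  have h : F ∈ Polynomial.lifts (keyabsHom J) := by
    rw [Polynomial.lifts_iff_coeff_lifts]
    intro i
    obtain ⟨p, hp⟩ := hF i
    exact ⟨p, hp⟩
  exact (Polynomial.mem_lifts _).mp h

theorem keyabs_lift_monic (J : LaurentSeries k) (F : (LaurentSeries k)[X]) (hm : F.Monic)
    (hF : ∀ i : ℕ, F.coeff i ∈ polyRange J) :
    ∃ F₀ : k[X][X], F₀.Monic ∧ F₀.map (keyabsHom J) = F := by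
  have h : F ∈ Polynomial.lifts (keyabsHom J) := by
    rw [Polynomial.lifts_iff_coeff_lifts]
    intro i
    obtain ⟨p, hp⟩ := hF i
    exact ⟨p, hp⟩
  obtain ⟨q, hq, -, hqm⟩ := Polynomial.lifts_and_natDegree_eq_and_monic h hm
  exact ⟨q, hqm, hq⟩

section Lagrange

variable {E : Type*} [Field E] {X : Type*} [Fintype X] [DecidableEq X]

theorem keyabs_eval_lagrange (x : X → E) (w : X → E) (ξ : X) :
    (∑ ξ' : X, C (w ξ') * ∏ ξ'' ∈ Finset.univ.erase ξ', (Polynomial.X - C (x ξ''))).eval (x ξ) =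
      w ξ * ∏ ξ'' ∈ Finset.univ.erase ξ, (x ξ - x ξ'') := by
  rw [Polynomial.eval_finsetSum, Finset.sum_eq_single ξ]
  · simp [Polynomial.eval_prod]
  · intro ξ' _ hne
    rw [Polynomial.eval_mul, Polynomial.eval_prod,
      Finset.prod_eq_zero (Finset.mem_erase.mpr ⟨hne.symm, Finset.mem_univ ξ⟩) (by simp), mul_zero]
  · intro h
    exact absurd (Finset.mem_univ ξ) h

theorem keyabs_eval_derivative (x : X → E) (ξ : X) :
    (derivative (∏ ξ' : X, (Polynomial.X - C (x ξ')))).eval (x ξ) =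
      ∏ ξ'' ∈ Finset.univ.erase ξ, (x ξ - x ξ'') := by
  have h := keyabs_eval_lagrange x (fun _ => 1) ξ
  rw [one_mul] at h
  rw [← h, Polynomial.derivative_prod_finset]
  congr 1
  apply Finset.sum_congr rfl
  intro ξ' _
  rw [Polynomial.derivative_sub, Polynomial.derivative_X, Polynomial.derivative_C, sub_zero,
    mul_one, map_one, one_mul]

theorem keyabs_prod_erase_ne_zero (x : X → E) (hx : Function.Injective x) (ξ : X) :
    ∏ ξ'' ∈ Finset.univ.erase ξ, (x ξ - x ξ'') ≠ 0 := by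
  rw [Finset.prod_ne_zero_iff]
  intro ξ'' h
  rw [Finset.mem_erase] at h
  exact sub_ne_zero.mpr fun h' => h.1 (hx h').symm

end Lagrange


section SumOrder

variable {X : Type*} [Fintype X] [DecidableEq X]

omit [DecidableEq X] in
theorem keyabs_isIntegralElem (J : LaurentSeries k) (u : X → LaurentSeries k)
    (hu : ∀ (i : ℕ), (∏ ξ : X, (Polynomial.X - Polynomial.C (u ξ))).coeff i ∈ polyRange J)
    (ξ : X) : (keyabsHom J).IsIntegralElem (u ξ) := by
  obtain ⟨U₀, hU₀m, hU₀⟩ := keyabs_lift_monic J _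
    (Polynomial.monic_prod_of_monic _ _ fun ξ _ => Polynomial.monic_X_sub_C (u ξ)) hu
  refine ⟨U₀, hU₀m, ?_⟩
  rw [← Polynomial.eval_map, hU₀, Polynomial.eval_prod]
  apply Finset.prod_eq_zero (Finset.mem_univ ξ)
  simp

theorem keyabs_sum_order (J : LaurentSeries k) (x : X → LaurentSeries k)
    (hx : Function.Injective x)
    (hΦ : ∀ i : ℕ, (∏ ξ : X, (Polynomial.X - Polynomial.C (x ξ))).coeff i ∈ polyRange J)
    (u u' : X → LaurentSeries k) (huu' : ∀ ξ, u ξ * u' ξ = 1)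
    (hu : ∀ (i : ℕ), (∏ ξ : X, (Polynomial.X - Polynomial.C (u ξ))).coeff i ∈ polyRange J)
    (hu' : ∀ (i : ℕ), (∏ ξ : X, (Polynomial.X - Polynomial.C (u' ξ))).coeff i ∈ polyRange J)
    (hG : ∀ (i : ℕ), (∑ ξ : X, Polynomial.C (u ξ) *
        ∏ ξ' ∈ Finset.univ.erase ξ, (Polynomial.X - Polynomial.C (x ξ'))).coeff i ∈ polyRange J)
    {K₀ : Type*} [Field K₀] [Algebra k[X] K₀] [IsFractionRing k[X] K₀]
    (φ : K₀ →+* LaurentSeries k) (hφ : φ.comp (algebraMap k[X] K₀) = keyabsHom J)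
    (P : K₀[X]) (hP : P.Monic) (s : Finset X)
    (hPs : P.map φ = ∏ ξ ∈ s, (Polynomial.X - C (x ξ))) :
    ∑ ξ ∈ s, (u ξ).order = 0 := by
  obtain ⟨G₀, hG₀⟩ := keyabs_lift J _ hG
  obtain ⟨Φ₀, hΦ₀⟩ := keyabs_lift J _ hΦ
  set G : K₀[X] := G₀.map (algebraMap k[X] K₀) with hGdef
  set D : K₀[X] := (derivative Φ₀).map (algebraMap k[X] K₀) with hDdef
  have hGmap : G.map φ = ∑ ξ : X, Polynomial.C (u ξ) *
        ∏ ξ' ∈ Finset.univ.erase ξ, (Polynomial.X - Polynomial.C (x ξ')) := by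
    rw [hGdef, Polynomial.map_map, hφ, hG₀]
  have hDmap : D.map φ = derivative (∏ ξ : X, (Polynomial.X - Polynomial.C (x ξ))) := by
    rw [hDdef, Polynomial.map_map, hφ, ← Polynomial.derivative_map, hΦ₀]
  set w : X → LaurentSeries k := fun ξ => ∏ ξ'' ∈ Finset.univ.erase ξ, (x ξ - x ξ'') with hw
  have hw0 : ∀ ξ, w ξ ≠ 0 := fun ξ => keyabs_prod_erase_ne_zero x hx ξ
  have hu0 : ∀ ξ, u ξ ≠ 0 := fun ξ h => by
    have := huu' ξ
    rw [h, zero_mul] at this
    exact zero_ne_one this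
  have hu'inv : ∀ ξ, u' ξ = (u ξ)⁻¹ := fun ξ => eq_inv_of_mul_eq_one_right (huu' ξ)
  have hN1 := key_prod_eq_norm φ x s hx.injOn P hP hPs G
  have hN2 := key_prod_eq_norm φ x s hx.injOn P hP hPs D
  have hevG : ∀ ξ, eval₂ φ (x ξ) G = u ξ * w ξ := by
    intro ξ
    rw [← Polynomial.eval_map, hGmap]
    exact keyabs_eval_lagrange x u ξ
  have hevD : ∀ ξ, eval₂ φ (x ξ) D = w ξ := by
    intro ξ
    rw [← Polynomial.eval_map, hDmap]
    exact keyabs_eval_derivative x ξ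
  simp only [hevG, hevD] at hN1 hN2
  rw [Finset.prod_mul_distrib] at hN1
  set N1 := Algebra.norm K₀ (AdjoinRoot.mk P G) with hN1def
  set N2 := Algebra.norm K₀ (AdjoinRoot.mk P D) with hN2def
  have hwprod : ∏ ξ ∈ s, w ξ ≠ 0 := Finset.prod_ne_zero_iff.mpr fun ξ _ => hw0 ξ
  have huprod : ∏ ξ ∈ s, u ξ ≠ 0 := Finset.prod_ne_zero_iff.mpr fun ξ _ => hu0 ξ
  have hφz : φ (N1 / N2) = ∏ ξ ∈ s, u ξ := by
    rw [map_div₀, hN1, hN2, mul_div_cancel_right₀ _ hwprod]
  have hz : N1 / N2 ≠ 0 := by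
    intro h0
    rw [h0, map_zero] at hφz
    exact huprod hφz.symm
  have hφc : ∀ c : k, c ≠ 0 →
      HahnSeries.addVal ℤ k (φ (algebraMap k[X] K₀ (C c))) = 0 := by
    intro c hc
    have h1 : φ (algebraMap k[X] K₀ (C c)) = keyabsHom J (C c) := by
      rw [← hφ]
      rfl
    rw [h1, keyabs_hom_const]
    exact keyabs_val_const c hc
  have hint1 : (φ.comp (algebraMap k[X] K₀)).IsIntegralElem (φ (N1 / N2)) := by
    rw [hφ, hφz]
    exact key_isIntegralElem_prod _ s _ fun ξ _ => keyabs_isIntegralElem J u hu ξ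
  have hint2 : (φ.comp (algebraMap k[X] K₀)).IsIntegralElem (φ (N1 / N2))⁻¹ := by
    rw [hφ, hφz, ← Finset.prod_inv_distrib]
    refine key_isIntegralElem_prod _ s _ fun ξ _ => ?_
    rw [← hu'inv ξ]
    exact keyabs_isIntegralElem J u' hu' ξ
  have h3 := key_val_eq_zero (HahnSeries.addVal ℤ k) φ hφc hz hint1 hint2
  rw [hφz, key_val_prod,
    Finset.sum_congr rfl (fun ξ _ => HahnSeries.addVal_apply_of_ne (hu0 ξ)),
    ← WithTop.coe_sum, ← WithTop.coe_zero, WithTop.coe_eq_coe] at h3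
  exact h3

end SumOrder


open Classical in
theorem keyabs_monic_dvd_prod' {E : Type*} [Field E] {ι : Type*} [Fintype ι] (x : ι → E)
    (hx : Function.Injective x) (A : E[X]) (hA : A.Monic)
    (hdvd : A ∣ ∏ g, (Polynomial.X - C (x g))) :
    ∃ s : Finset ι, (∀ g, g ∈ s ↔ x g ∈ A.roots) ∧
      A = ∏ g ∈ s, (Polynomial.X - C (x g)) ∧ A.natDegree = s.card :=
  ⟨_, fun g => by simp, (key_monic_dvd_prod x hx A hA hdvd).1,
    (key_monic_dvd_prod x hx A hA hdvd).2⟩

theorem keyabs_aux (J : LaurentSeries k)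
    {X : Type*} [Fintype X] [DecidableEq X] (x : X → LaurentSeries k)
    (hx : Function.Injective x)
    (hΦ : ∀ i : ℕ, (∏ ξ : X, (Polynomial.X - Polynomial.C (x ξ))).coeff i ∈ polyRange J)
    {D : Type*} (u u' : D → X → LaurentSeries k) (huu' : ∀ δ ξ, u δ ξ * u' δ ξ = 1)
    (hu : ∀ δ (i : ℕ), (∏ ξ : X, (Polynomial.X - Polynomial.C (u δ ξ))).coeff i ∈ polyRange J)
    (hu' : ∀ δ (i : ℕ), (∏ ξ : X, (Polynomial.X - Polynomial.C (u' δ ξ))).coeff i ∈ polyRange J)
    (hG : ∀ δ (i : ℕ), (∑ ξ : X, Polynomial.C (u δ ξ) *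
        ∏ ξ' ∈ Finset.univ.erase ξ, (Polynomial.X - Polynomial.C (x ξ'))).coeff i ∈ polyRange J)
    (ξ₀ : X)
    {K₀ : Type*} [Field K₀] [Algebra k[X] K₀] [IsFractionRing k[X] K₀]
    (φ : K₀ →+* LaurentSeries k) (hφ : φ.comp (algebraMap k[X] K₀) = keyabsHom J) :
    ∃ C : Finset X, ξ₀ ∈ C ∧ (∀ δ, ∑ ξ ∈ C, (u δ ξ).order = 0) ∧
      (∀ δ, ∑ ξ : X, (u δ ξ).order = 0) ∧
      ∀ P : Polynomial (Polynomial k), P.natDegree < C.card →
        P.eval₂ (keyabsHom J) (x ξ₀) = 0 → P = 0 := by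
  obtain ⟨Φ₀, hΦ₀m, hΦ₀⟩ := keyabs_lift_monic J _
    (Polynomial.monic_prod_of_monic _ _ fun ξ _ => Polynomial.monic_X_sub_C (x ξ)) hΦ
  set Φ : K₀[X] := Φ₀.map (algebraMap k[X] K₀) with hΦdef
  have hΦm : Φ.Monic := hΦ₀m.map _
  have hΦmap : Φ.map φ = ∏ ξ : X, (Polynomial.X - Polynomial.C (x ξ)) := by
    rw [hΦdef, Polynomial.map_map, hφ, hΦ₀]
  let _ : Algebra K₀ (LaurentSeries k) := φ.toAlgebra
  have halg : algebraMap K₀ (LaurentSeries k) = φ := RingHom.algebraMap_toAlgebra φ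
  have hroot : Polynomial.aeval (x ξ₀) Φ = 0 := by
    rw [Polynomial.aeval_def, halg, ← Polynomial.eval_map, hΦmap, Polynomial.eval_prod]
    apply Finset.prod_eq_zero (Finset.mem_univ ξ₀)
    simp
  have hintg : IsIntegral K₀ (x ξ₀) := ⟨Φ, hΦm, by rwa [Polynomial.aeval_def] at hroot⟩
  set μ := minpoly K₀ (x ξ₀) with hμdef
  have hμm : μ.Monic := minpoly.monic hintg
  have hμdvd : μ ∣ Φ := minpoly.dvd K₀ (x ξ₀) hroot
  have hμdvd' : μ.map φ ∣ ∏ ξ : X, (Polynomial.X - Polynomial.C (x ξ)) := by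
    rw [← hΦmap]
    exact Polynomial.map_dvd φ hμdvd
  obtain ⟨s, hsmem, hμs, hμcard⟩ := keyabs_monic_dvd_prod' x hx (μ.map φ) (hμm.map φ) hμdvd'
  refine ⟨s, ?_, ?_, ?_, ?_⟩
  · rw [hsmem]
    rw [Polynomial.mem_roots (hμm.map φ).ne_zero, Polynomial.IsRoot, Polynomial.eval_map, ← halg,
      ← Polynomial.aeval_def]
    exact minpoly.aeval K₀ (x ξ₀)
  · intro δ
    exact keyabs_sum_order J x hx hΦ (u δ) (u' δ) (huu' δ) (hu δ) (hu' δ) (hG δ) φ hφ μ hμm _ hμs
  · intro δ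
    exact keyabs_sum_order J x hx hΦ (u δ) (u' δ) (huu' δ) (hu δ) (hu' δ) (hG δ) φ hφ Φ hΦm _ hΦmap
  · intro P hdeg hP0
    have hAinj : Function.Injective (algebraMap k[X] K₀) := IsFractionRing.injective k[X] K₀
    set P' : K₀[X] := P.map (algebraMap k[X] K₀) with hP'def
    have hdvd : μ ∣ P' := by
      apply minpoly.dvd K₀ (x ξ₀)
      rw [Polynomial.aeval_def, halg, hP'def, Polynomial.eval₂_map, hφ]
      exact hP0
    have hdegP' : P'.natDegree = P.natDegree := Polynomial.natDegree_map_eq_of_injective hAinj P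
    have hμdeg : μ.natDegree = (μ.map φ).natDegree := (Polynomial.natDegree_map φ).symm
    by_contra hne
    have hP'ne : P' ≠ 0 := by
      intro h0
      apply hne
      apply Polynomial.map_injective _ hAinj
      rw [Polynomial.map_zero]
      exact h0
    have := Polynomial.natDegree_le_of_dvd hdvd hP'ne
    rw [hμdeg, hμcard, hdegP'] at this
    omega

theorem key_abstract (J : LaurentSeries k) (hJ : J.order < 0)
    {X : Type*} [Fintype X] [DecidableEq X] (x : X → LaurentSeries k)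
    (hx : Function.Injective x)
    (hΦ : ∀ i : ℕ, (∏ ξ : X, (Polynomial.X - Polynomial.C (x ξ))).coeff i ∈ polyRange J)
    {D : Type*} (u u' : D → X → LaurentSeries k) (huu' : ∀ δ ξ, u δ ξ * u' δ ξ = 1)
    (hu : ∀ δ (i : ℕ), (∏ ξ : X, (Polynomial.X - Polynomial.C (u δ ξ))).coeff i ∈ polyRange J)
    (hu' : ∀ δ (i : ℕ), (∏ ξ : X, (Polynomial.X - Polynomial.C (u' δ ξ))).coeff i ∈ polyRange J)
    (hG : ∀ δ (i : ℕ), (∑ ξ : X, Polynomial.C (u δ ξ) *
        ∏ ξ' ∈ Finset.univ.erase ξ, (Polynomial.X - Polynomial.C (x ξ'))).coeff i ∈ polyRange J)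
    (ξ₀ : X) :
    ∃ C : Finset X, ξ₀ ∈ C ∧ (∀ δ, ∑ ξ ∈ C, (u δ ξ).order = 0) ∧
      (∀ δ, ∑ ξ : X, (u δ ξ).order = 0) ∧
      ∀ P : Polynomial (Polynomial k), P.natDegree < C.card →
        P.eval₂ ((Polynomial.aeval J : k[X] →ₐ[k] LaurentSeries k) : k[X] →+* LaurentSeries k)
          (x ξ₀) = 0 → P = 0 := by
  have hinj := keyabs_hom_injective J hJ
  have hφ : (IsFractionRing.lift hinj : FractionRing k[X] →+* LaurentSeries k).comp
      (algebraMap k[X] (FractionRing k[X])) = keyabsHom J :=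
    RingHom.ext fun p => by rw [RingHom.comp_apply, IsFractionRing.lift_algebraMap]
  exact keyabs_aux J x hx hΦ u u' huu' hu hu' hG ξ₀ _ hφ

end Fermat.Agent.S28
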