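import Mathlib
import Fermat.Agent.S28.Defs

/-!
# S28 leaf L0 : basic facts on `ℤ_(ℓ)`, `OBar ℓ`, `kBar ℓ` and series with unit leading coefficient
-/

set_option autoImplicit false

noncomputable section

namespace Fermat.Agent.S28

open ModularCurve Fermat.Agent.S24

/-! ### general helpers on Laurent series -/

theorem basic_order_eq {R : Type*} [CommRing R] {S : LaurentSeries R} {m : ℤ}
    (hm : S.coeff m ≠ 0) (h0 : ∀ i : ℤ, i < m → S.coeff i = 0) : S.order = m := by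
  have hS : S ≠ 0 := HahnSeries.ne_zero_of_coeff_ne_zero hm
  exact le_antisymm (HahnSeries.order_le_of_coeff_ne_zero hm)
    ((HahnSeries.le_order_iff_forall hS).mpr h0)

theorem basic_isUnit_of_lead {R : Type*} [CommRing R] [Nontrivial R] (S : LaurentSeries R)
    (m : ℤ) (hu : IsUnit (S.coeff m)) (h0 : ∀ i : ℤ, i < m → S.coeff i = 0) : IsUnit S := by
  have hm : S.coeff m ≠ 0 := hu.ne_zero
  have ho := basic_order_eq hm h0
  apply HahnSeries.isUnit_of_isUnit_leadingCoeff_AddUnitOrder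
  · rw [HahnSeries.leadingCoeff_eq, ho]; exact hu
  · exact AddGroup.isAddUnit _

theorem basic_mem_range_coeffMap_subtype {K : Type*} [Field K] (A : Subring K)
    (f : LaurentSeries K) :
    f ∈ (coeffMap A.subtype).range ↔ ∀ m : ℤ, f.coeff m ∈ A := by
  constructor
  · rintro ⟨S, rfl⟩ m
    rw [coeffMap_coeff]
    exact (S.coeff m).2
  · intro h
    refine ⟨⟨fun m => ⟨f.coeff m, h m⟩, ?_⟩, ?_⟩
    · refine f.isPWO_support.mono ?_
      intro m hm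
      rw [Function.mem_support] at hm
      rw [HahnSeries.mem_support]
      intro h0
      exact hm (Subtype.ext h0)
    · ext m
      rfl

/-! ### `ℤ_(ℓ)` -/

variable (ℓ : ℕ) [Fact ℓ.Prime]

theorem basic_ne_zero_of_coprime {d : ℕ} (hd : d.Coprime ℓ) : d ≠ 0 := by
  rintro rfl
  rw [Nat.coprime_zero_left] at hd
  exact (Fact.out : ℓ.Prime).one_lt.ne' hd

/-- a natural number prime to `ℓ` is a unit of `ℤ_(ℓ)` -/
theorem basic_isUnit_natCast_zl {d : ℕ} (hd : d.Coprime ℓ) : IsUnit ((d : ℕ) : Zl ℓ) := by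
  have hd0 : d ≠ 0 := basic_ne_zero_of_coprime ℓ hd
  have hmem : ((d : ℚ))⁻¹ ∈ GaloisRep.ratLocalizedAt ℓ := by
    show (((d : ℚ))⁻¹).den.Coprime ℓ
    rw [Rat.inv_natCast_den, if_neg hd0]
    exact hd
  refine IsUnit.of_mul_eq_one (⟨((d : ℚ))⁻¹, hmem⟩ : Zl ℓ) ?_
  apply Subtype.ext
  show ((d : ℕ) : Zl ℓ).1 * ((d : ℚ))⁻¹ = 1
  have : (((d : ℕ) : Zl ℓ) : ℚ) = (d : ℚ) := by simp
  rw [show ((d : ℕ) : Zl ℓ).1 = (d : ℚ) from this]
  exact mul_inv_cancel₀ (by exact_mod_cast hd0)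

omit [Fact ℓ.Prime] in
theorem basic_zl_mul_den (x : Zl ℓ) :
    x * (((x : ℚ).den : ℕ) : Zl ℓ) = (((x : ℚ).num : ℤ) : Zl ℓ) := by
  apply Subtype.ext
  show (x : ℚ) * ((((x : ℚ).den : ℕ) : Zl ℓ) : ℚ) = ((((x : ℚ).num : ℤ) : Zl ℓ) : ℚ)
  have h1 : ((((x : ℚ).den : ℕ) : Zl ℓ) : ℚ) = ((x : ℚ).den : ℚ) := by simp
  have h2 : ((((x : ℚ).num : ℤ) : Zl ℓ) : ℚ) = ((x : ℚ).num : ℚ) := by simp
  rw [h1, h2]
  exact Rat.mul_den_eq_num _

theorem zlRed_surjective : Function.Surjective (zlRed ℓ) := by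
  intro a
  have : NeZero ℓ := ⟨(Fact.out : ℓ.Prime).ne_zero⟩
  refine ⟨((a.val : ℕ) : Zl ℓ), ?_⟩
  rw [map_natCast, ZMod.natCast_zmod_val]

theorem ker_zlRed : RingHom.ker (zlRed ℓ) = Ideal.span {((ℓ : ℕ) : Zl ℓ)} := by
  apply le_antisymm
  · intro x hx
    rw [RingHom.mem_ker] at hx
    have hden := basic_isUnit_natCast_zl ℓ (d := (x : ℚ).den) x.2
    have h1 := congrArg (zlRed ℓ) (basic_zl_mul_den ℓ x)
    rw [map_mul, hx, zero_mul, map_intCast] at h1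
    have h2 : (ℓ : ℤ) ∣ (x : ℚ).num := (ZMod.intCast_zmod_eq_zero_iff_dvd _ _).mp h1.symm
    obtain ⟨k, hk⟩ := h2
    obtain ⟨u, hu⟩ := hden
    rw [Ideal.mem_span_singleton]
    refine ⟨(k : Zl ℓ) * (↑u⁻¹ : Zl ℓ), ?_⟩
    have h3 : x * (u : Zl ℓ) = ((ℓ : ℕ) : Zl ℓ) * (k : Zl ℓ) := by
      rw [hu, basic_zl_mul_den, hk]; push_cast; ring
    calc x = x * (u : Zl ℓ) * (↑u⁻¹ : Zl ℓ) := by rw [mul_assoc, Units.mul_inv, mul_one]
      _ = ((ℓ : ℕ) : Zl ℓ) * ((k : Zl ℓ) * (↑u⁻¹ : Zl ℓ)) := by rw [h3, mul_assoc]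
  · rw [Ideal.span_le]
    intro x hx
    rw [Set.mem_singleton_iff] at hx
    subst hx
    show _ ∈ RingHom.ker (zlRed ℓ)
    rw [RingHom.mem_ker, map_natCast, ZMod.natCast_self]

/-- Ring homs out of `ℤ_(ℓ)` are unique. -/
theorem zl_ringHom_ext {B : Type*} [Semiring B] (f g : Zl ℓ →+* B) : f = g := by
  have hint : f.comp (Int.castRingHom (Zl ℓ)) = g.comp (Int.castRingHom (Zl ℓ)) :=
    RingHom.ext_int _ _
  ext x
  have hden := (basic_isUnit_natCast_zl ℓ (d := (x : ℚ).den) x.2).map f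
  have h1 := congrArg f (basic_zl_mul_den ℓ x)
  have h2 := congrArg g (basic_zl_mul_den ℓ x)
  rw [map_mul] at h1 h2
  have h3 : f (((x : ℚ).num : ℤ) : Zl ℓ) = g (((x : ℚ).num : ℤ) : Zl ℓ) :=
    RingHom.congr_fun hint _
  have h4 : f (((x : ℚ).den : ℕ) : Zl ℓ) = g (((x : ℚ).den : ℕ) : Zl ℓ) := by
    rw [map_natCast, map_natCast]
  rw [← h4] at h2
  exact hden.mul_left_inj.mp (by rw [h1, h2, h3])

/-- `OBar ℓ ∩ ℚ = ℤ_(ℓ)`. -/
theorem mem_zl_of_mem_OBar (c : ℚ) (h : algebraMap ℚ QBar c ∈ OBar ℓ) :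
    c ∈ GaloisRep.ratLocalizedAt ℓ := by
  obtain ⟨d, hd, hint⟩ := h
  have hd0 : d ≠ 0 := basic_ne_zero_of_coprime ℓ hd
  have h1 : (d : QBar) * algebraMap ℚ QBar c = algebraMap ℚ QBar ((d : ℚ) * c) := by
    rw [map_mul, map_natCast]
  rw [h1, isIntegral_algebraMap_iff (algebraMap ℚ QBar).injective] at hint
  obtain ⟨n, hn⟩ := IsIntegrallyClosed.isIntegral_iff.mp hint
  have hn' : (n : ℚ) = (d : ℚ) * c := hn
  have hdq : (d : ℚ) ≠ 0 := by exact_mod_cast hd0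
  have hc : c = Rat.divInt n (d : ℤ) := by
    rw [Rat.divInt_eq_div]; push_cast; field_simp; linarith
  have h2 : ((c.den : ℕ) : ℤ) ∣ (d : ℤ) := by
    rw [hc]; exact Rat.den_dvd n d
  have h3 : c.den ∣ d := by exact_mod_cast h2
  exact Nat.Coprime.coprime_dvd_left h3 hd

instance kBar_charP : CharP (kBar ℓ) ℓ := by
  have hℓ : ℓ.Prime := Fact.out
  obtain ⟨c, hc⟩ := CharP.exists (kBar ℓ)
  have h0 : ((ℓ : ℕ) : kBar ℓ) = 0 := by
    have h1 : redBar ℓ ((ℓ : ℕ) : OBar ℓ) = 0 := by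
      rw [← RingHom.mem_ker, ker_redBar]
      exact natCast_ell_mem_maxBar ℓ
    rwa [map_natCast] at h1
  have hdvd : c ∣ ℓ := (CharP.cast_eq_zero_iff (kBar ℓ) c ℓ).mp h0
  have hc1 : c ≠ 1 := CharP.char_ne_one (kBar ℓ) c
  rcases (Nat.dvd_prime hℓ).mp hdvd with h | h
  · exact absurd h hc1
  · rw [h] at hc; exact hc

/-- The two reductions are compatible. -/
theorem redBar_zlToO (x : Zl ℓ) :
    redBar ℓ (zlToO ℓ x) = ZMod.castHom (dvd_refl ℓ) (kBar ℓ) (zlRed ℓ x) := by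
  have h := zl_ringHom_ext ℓ ((redBar ℓ).comp (zlToO ℓ))
    ((ZMod.castHom (dvd_refl ℓ) (kBar ℓ)).comp (zlRed ℓ))
  exact RingHom.congr_fun h x

/-- `maxBar ℓ ∩ ℤ_(ℓ) = ℓ ℤ_(ℓ)`. -/
theorem zlRed_eq_zero_of_redBar_eq_zero (x : Zl ℓ) (h : redBar ℓ (zlToO ℓ x) = 0) :
    zlRed ℓ x = 0 := by
  rw [redBar_zlToO] at h
  exact (map_eq_zero_iff _ (RingHom.injective (ZMod.castHom (dvd_refl ℓ) (kBar ℓ)))).mp h

theorem mem_OBar_of_pow_eq_one {z : QBar} {n : ℕ} (hn : n ≠ 0) (h : z ^ n = 1) : z ∈ OBar ℓ := by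
  refine ⟨1, Nat.coprime_one_left ℓ, ?_⟩
  rw [Nat.cast_one, one_mul]
  refine IsIntegral.of_pow (Nat.pos_of_ne_zero hn) ?_
  rw [h]
  exact isIntegral_one

theorem isUnit_natCast_OBar {d : ℕ} (hd : d.Coprime ℓ) : IsUnit ((d : ℕ) : OBar ℓ) := by
  have hd0 : d ≠ 0 := basic_ne_zero_of_coprime ℓ hd
  have hdq : (d : QBar) ≠ 0 := by exact_mod_cast hd0
  have hmem : ((d : QBar))⁻¹ ∈ OBar ℓ := by
    refine ⟨d, hd, ?_⟩
    rw [mul_inv_cancel₀ hdq]
    exact isIntegral_one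
  refine IsUnit.of_mul_eq_one (⟨((d : QBar))⁻¹, hmem⟩ : OBar ℓ) ?_
  apply Subtype.ext
  show (((d : ℕ) : OBar ℓ) : QBar) * ((d : QBar))⁻¹ = 1
  have : (((d : ℕ) : OBar ℓ) : QBar) = (d : QBar) := by simp
  rw [this]
  exact mul_inv_cancel₀ hdq

theorem isUnit_one_sub_of_pow_eq_one {n : ℕ} (hn : n.Coprime ℓ) (ζ : OBar ℓ) (hζ : ζ ^ n = 1)
    (h1 : ζ ≠ 1) : IsUnit (1 - ζ) := by
  have hsum : ∑ k ∈ Finset.range n, ζ ^ k = 0 := by
    have h2 : (∑ k ∈ Finset.range n, ζ ^ k) * (ζ - 1) = 0 := by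
      rw [geom_sum_mul, hζ, sub_self]
    rcases mul_eq_zero.mp h2 with h | h
    · exact h
    · exact absurd (sub_eq_zero.mp h) h1
  have hn' : ((n : ℕ) : OBar ℓ) = ∑ k ∈ Finset.range n, (1 - ζ ^ k) := by
    rw [Finset.sum_sub_distrib, hsum, sub_zero]
    simp
  have hdvd : (1 - ζ) ∣ ((n : ℕ) : OBar ℓ) := by
    rw [hn']
    refine Finset.dvd_sum ?_
    intro k _
    have := sub_dvd_pow_sub_pow (1 : OBar ℓ) ζ k
    rwa [one_pow] at this
  exact isUnit_of_dvd_unit hdvd (isUnit_natCast_OBar ℓ hn)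

/-! ### series with unit leading coefficient -/

variable {ℓ}

theorem HasUnitLead.isUnit {S : LaurentSeries (OBar ℓ)} {m : ℤ} (h : HasUnitLead S m) :
    IsUnit S :=
  basic_isUnit_of_lead S m h.1 h.2

theorem HasUnitLead.serRed_ne_zero {S : LaurentSeries (OBar ℓ)} {m : ℤ} (h : HasUnitLead S m) :
    serRed ℓ S ≠ 0 := by
  intro h0
  have h1 : (serRed ℓ S).coeff m = 0 := by rw [h0]; rfl
  rw [serRed_coeff] at h1
  exact (h.1.map (redBar ℓ)).ne_zero h1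

theorem HasUnitLead.order_serRed {S : LaurentSeries (OBar ℓ)} {m : ℤ} (h : HasUnitLead S m) :
    (serRed ℓ S).order = m := by
  apply basic_order_eq
  · rw [serRed_coeff]
    exact (h.1.map (redBar ℓ)).ne_zero
  · intro i hi
    rw [serRed_coeff, h.2 i hi, map_zero]

theorem HasUnitLead.mul {S T : LaurentSeries (OBar ℓ)} {m n : ℤ} (hS : HasUnitLead S m)
    (hT : HasUnitLead T n) : HasUnitLead (S * T) (m + n) := by
  have hSo : S.order = m := basic_order_eq hS.1.ne_zero hS.2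
  have hTo : T.order = n := basic_order_eq hT.1.ne_zero hT.2
  have hSl : S.leadingCoeff = S.coeff m := by rw [HahnSeries.leadingCoeff_eq, hSo]
  have hTl : T.leadingCoeff = T.coeff n := by rw [HahnSeries.leadingCoeff_eq, hTo]
  have hne : S.leadingCoeff * T.leadingCoeff ≠ 0 := by
    rw [hSl, hTl]; exact (hS.1.mul hT.1).ne_zero
  have hc : (S * T).coeff (m + n) = S.coeff m * T.coeff n := by
    rw [← hSo, ← hTo, HahnSeries.coeff_mul_order_add_order, hSl, hTl, hSo, hTo]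
  refine ⟨by rw [hc]; exact hS.1.mul hT.1, ?_⟩
  intro i hi
  apply HahnSeries.coeff_eq_zero_of_lt_order
  rw [HahnSeries.order_mul_of_ne_zero hne, hSo, hTo]
  exact hi

/-- A series over `ℤ_(ℓ)` whose leading coefficient is a unit is a unit of `ℤ_(ℓ)((q))`. -/
theorem isUnit_of_isUnit_leadingCoeff_zl (S : LaurentSeries (Zl ℓ)) (m : ℤ)
    (hu : IsUnit (S.coeff m)) (h0 : ∀ i : ℤ, i < m → S.coeff i = 0) : IsUnit S :=
  basic_isUnit_of_lead S m hu h0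

/-- A series over `ℚ` lies in `ℤ_(ℓ)((q))` iff all its coefficients are in `ℤ_(ℓ)`. -/
theorem mem_range_serZl_iff (f : LaurentSeries ℚ) :
    f ∈ (serZl ℓ).range ↔ ∀ m : ℤ, f.coeff m ∈ GaloisRep.ratLocalizedAt ℓ :=
  basic_mem_range_coeffMap_subtype (GaloisRep.ratLocalizedAt ℓ) f

/-- A series over `QBar` lies in `OBar((s))` iff all its coefficients are in `OBar`. -/
theorem mem_range_serO_iff (f : LaurentSeries QBar) :
    f ∈ (serO ℓ).range ↔ ∀ m : ℤ, f.coeff m ∈ OBar ℓ :=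
  basic_mem_range_coeffMap_subtype (OBar ℓ) f

end Fermat.Agent.S28
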