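import Mathlib
import Fermat.Agent.S28.Defs
import Fermat.Agent.S28.BasicSpec
import Fermat.Agent.S24.Conj

/-!
# S28 leaf L2 : the conjugates of `j(Nτ)` have `ℓ`-integral expansions, distinct mod `ℓ`

Same names and statements as `ConjJNSpec.lean`. Helper names are prefixed `cjn`.
-/

set_option autoImplicit false
set_option linter.unusedSectionVars false

noncomputable section

namespace Fermat.Agent.S28

open UpperHalfPlane ModularCurve Fermat.Agent.S24
open scoped MatrixGroups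

/-- The normal form of the expansion in `exp(2πiτ/N)` of a conjugate of `j(Nτ)`. -/
def cjnSer (a : ℕ) [NeZero a] (ζ : ℂˣ) : LaurentSeries ℂ :=
  qExpand ℂ a (qExpand ℂ a (rotLaurent ζ (jqModC ℂ)))

theorem cjnSer_coeff_mul (a : ℕ) [NeZero a] (ζ : ℂˣ) (k : ℤ) :
    (cjnSer a ζ).coeff ((a : ℤ) * ((a : ℤ) * k)) = (ζ : ℂ) ^ k * (jqModC ℂ).coeff k := by
  rw [cjnSer, qExpand_coeff_mul, qExpand_coeff_mul, rotLaurent_coeff]

theorem cjnSer_coeff_of_not_exists (a : ℕ) [NeZero a] (ζ : ℂˣ) (m : ℤ)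
    (hm : ¬ ∃ k : ℤ, m = (a : ℤ) * ((a : ℤ) * k)) : (cjnSer a ζ).coeff m = 0 := by
  rw [cjnSer]
  by_cases h1 : (a : ℤ) ∣ m
  · obtain ⟨m₁, rfl⟩ := h1
    rw [qExpand_coeff_mul]
    by_cases h2 : (a : ℤ) ∣ m₁
    · obtain ⟨k, rfl⟩ := h2
      exact absurd ⟨k, rfl⟩ hm
    · exact qExpand_coeff_of_not_dvd a _ h2
  · exact qExpand_coeff_of_not_dvd a _ h1

theorem cjnSer_coeff_lead (a : ℕ) [NeZero a] (ζ : ℂˣ) :
    (cjnSer a ζ).coeff (-((a : ℤ) * a)) = ((ζ⁻¹ : ℂˣ) : ℂ) := by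
  have h : -((a : ℤ) * a) = (a : ℤ) * ((a : ℤ) * (-1)) := by ring
  rw [h, cjnSer_coeff_mul, coeff_jqModC_neg_one, mul_one, zpow_neg_one, Units.val_inv_eq_inv_val]

theorem cjnSer_coeff_of_lt (a : ℕ) [NeZero a] (ζ : ℂˣ) {m : ℤ} (hm : m < -((a : ℤ) * a)) :
    (cjnSer a ζ).coeff m = 0 := by
  by_cases h : ∃ k : ℤ, m = (a : ℤ) * ((a : ℤ) * k)
  · obtain ⟨k, rfl⟩ := h
    rw [cjnSer_coeff_mul]
    have ha : (0 : ℤ) < (a : ℤ) * a := by
      have : (0 : ℤ) < a := by exact_mod_cast Nat.pos_of_ne_zero (NeZero.ne a)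
      positivity
    have hk : k < -1 := by
      by_contra hk
      rw [not_lt] at hk
      nlinarith
    rw [coeff_jqModC_of_lt ℂ hk, mul_zero]
  · exact cjnSer_coeff_of_not_exists a ζ m h

/-- The coefficients of `j` over `ℂ` are integers. -/
theorem cjn_coeff_jqModC (k : ℤ) :
    (jqModC ℂ).coeff k = (((jqModC ℤ).coeff k : ℤ) : ℂ) := by
  rw [← coeffMap_jqModC (Int.castRingHom ℂ), coeffMap_coeff]
  rfl

variable (N : ℕ) [NeZero N] (ℓ : ℕ) [Fact ℓ.Prime]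

/-- Normal form of the expansion of a conjugate of `j(Nτ)`. -/
theorem cjn_exists_normalForm (g : SL(2, ℤ)) :
    ∃ (a d' : ℕ) (_ : NeZero a) (ζ : ℂˣ), d' ≠ 0 ∧ a * d' = N ∧ (ζ : ℂ) ^ d' = 1 ∧
      HasCuspExp N ((g • jdHol N : HolRing) : ℍ → ℂ) (cjnSer a ζ) := by
  obtain ⟨a, d', b, ha, hd', had, hτ⟩ := exists_hermite_jdHol N g
  obtain ⟨ζ, hζ, hexp⟩ := conj_hasCuspExp_affine ha hd' b
  haveI : NeZero a := ⟨ha⟩
  haveI : NeZero d' := ⟨hd'⟩
  refine ⟨a, d', ⟨ha⟩, ζ, hd', had, hζ, ?_⟩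
  have hfun : (fun τ => jFun (Fermat.Agent.S23.utGL a b d' • τ)) =
      ((g • jdHol N : HolRing) : ℍ → ℂ) := by
    funext τ
    rw [hτ]
  rw [hfun] at hexp
  have h2 := hexp.qExpand a
  have hN : d' * a = N := by rw [mul_comm, had]
  rw [hN] at h2
  exact h2

/-- The normal form has coefficients in `OBar ℓ`. -/
theorem cjn_exists_series (a : ℕ) [NeZero a] {d' : ℕ} (hd' : d' ≠ 0) (ζ : ℂˣ)
    (hζ : (ζ : ℂ) ^ d' = 1) :
    ∃ S : LaurentSeries (OBar ℓ), coeffMap iotaBar (serO ℓ S) = cjnSer a ζ := by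
  obtain ⟨z, hz⟩ := conj_mem_range_iotaBar_of_pow_eq_one hd' hζ
  have hzd : z ^ d' = 1 := by
    apply iotaBar_injective
    rw [map_pow, hz, hζ, map_one]
  have hz0 : z ≠ 0 := by
    rintro rfl
    rw [zero_pow hd'] at hzd
    exact zero_ne_one hzd
  -- the rotated series over `QBar`
  obtain ⟨R', hR'⟩ : ∃ R' : LaurentSeries QBar, coeffMap iotaBar R' = rotLaurent ζ (jqModC ℂ) := by
    apply conj_exists_coeffMap_eq
    intro m
    rw [rotLaurent_coeff]
    refine Subring.mul_mem _ ⟨z ^ m, ?_⟩ ⟨(jqModC QBar).coeff m, ?_⟩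
    · rw [map_zpow₀, hz]
    · rw [← coeffMap_jqModC iotaBar, coeffMap_coeff]
  have hcoeff : ∀ m : ℤ, R'.coeff m = z ^ m * (((jqModC ℤ).coeff m : ℤ) : QBar) := by
    intro m
    apply iotaBar_injective
    have := congrArg (fun U : LaurentSeries ℂ => U.coeff m) hR'
    simp only [coeffMap_coeff, rotLaurent_coeff] at this
    rw [this, map_mul, map_zpow₀, hz, map_intCast, cjn_coeff_jqModC]
  have hmem : R' ∈ (serO ℓ).range := by
    rw [mem_range_serO_iff]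
    intro m
    rw [hcoeff]
    refine Subring.mul_mem _ ?_ (intCast_mem _ _)
    refine mem_OBar_of_pow_eq_one ℓ hd' ?_
    rw [← zpow_natCast, ← zpow_mul, mul_comm, zpow_mul, zpow_natCast, hzd, one_zpow]
  obtain ⟨R₀, hR₀⟩ := hmem
  refine ⟨qExpand (OBar ℓ) a (qExpand (OBar ℓ) a R₀), ?_⟩
  rw [serO, coeffMap_qExpand, coeffMap_qExpand, coeffMap_qExpand, coeffMap_qExpand, cjnSer]
  change qExpand ℂ a (qExpand ℂ a (coeffMap iotaBar (serO ℓ R₀))) = _
  rw [hR₀, hR']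

/-- every conjugate of `j(Nτ)` has an expansion with coefficients in `OBar ℓ`
(no hypothesis on `ℓ` needed here). -/
theorem exists_intPair_jN (g : SL(2, ℤ)) :
    ∃ S : LaurentSeries (OBar ℓ),
      ((g • jdHol N : HolRing), S) ∈ IntPair N ℓ ∧ ∀ m : ℤ, m < -((N : ℤ) * N) → S.coeff m = 0 := by
  obtain ⟨a, d', ha, ζ, hd', had, hζ, hexp⟩ := cjn_exists_normalForm N g
  obtain ⟨S, hS⟩ := cjn_exists_series ℓ a hd' ζ hζ
  refine ⟨S, ?_, fun m hm => ?_⟩
  · rw [mem_IntPair, hS]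
    exact hexp
  · have haN : (a : ℤ) * a ≤ (N : ℤ) * N := by
      have h1 : a ≤ N := by
        rw [← had]
        exact Nat.le_mul_of_pos_right a (Nat.pos_of_ne_zero hd')
      have h2 : (a : ℤ) ≤ N := by exact_mod_cast h1
      have h3 : (0 : ℤ) ≤ a := by positivity
      nlinarith
    have h0 : (cjnSer a ζ).coeff m = 0 := cjnSer_coeff_of_lt a ζ (by linarith)
    rw [← hS, coeffMap_coeff, serO_coeff] at h0
    have h1 : ((S.coeff m : OBar ℓ) : QBar) = 0 := by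
      apply iotaBar_injective
      rw [h0, map_zero]
    exact Subtype.ext h1

/-- the coefficient map `OBar ℓ → ℂ`. -/
theorem cjn_coeff_eq {S : LaurentSeries (OBar ℓ)} {T : LaurentSeries ℂ}
    (h : coeffMap iotaBar (serO ℓ S) = T) (m : ℤ) :
    iotaBar ((S.coeff m : OBar ℓ) : QBar) = T.coeff m := by
  rw [← h, coeffMap_coeff, serO_coeff]

theorem cjn_eq_zero {x : OBar ℓ} (h : iotaBar (x : QBar) = 0) : x = 0 := by
  apply Subtype.ext
  apply iotaBar_injective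
  rw [h]
  simp

/-- an element of `OBar ℓ` mapping to a root of unity is a unit, and a root of unity. -/
theorem cjn_pow_eq_one {x : OBar ℓ} {ζ : ℂˣ} {d' : ℕ} (hζ : (ζ : ℂ) ^ d' = 1)
    (h : iotaBar (x : QBar) = ((ζ⁻¹ : ℂˣ) : ℂ)) : x ^ d' = 1 := by
  have h1 : iotaBar ((x ^ d' : OBar ℓ) : QBar) = 1 := by
    rw [Subring.coe_pow, map_pow, h, Units.val_inv_eq_inv_val, inv_pow, hζ, inv_one]
  apply Subtype.ext
  apply iotaBar_injective
  rw [h1]
  simp

theorem cjn_isUnit_of_pow_eq_one {x : OBar ℓ} {d' : ℕ} (hd' : d' ≠ 0) (h : x ^ d' = 1) :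
    IsUnit x := by
  obtain ⟨k, rfl⟩ := Nat.exists_eq_succ_of_ne_zero hd'
  exact IsUnit.of_mul_eq_one (x ^ k) (by rw [← pow_succ', h])

/-- the expansions of two different conjugates differ by a series with unit leading coefficient. -/
theorem hasUnitLead_sub_jN (hℓN : ¬ ℓ ∣ N) (g g' : SL(2, ℤ))
    (hgg' : g⁻¹ * g' ∉ CongruenceSubgroup.Gamma0 N) (S S' : LaurentSeries (OBar ℓ))
    (hS : ((g • jdHol N : HolRing), S) ∈ IntPair N ℓ)
    (hS' : ((g' • jdHol N : HolRing), S') ∈ IntPair N ℓ) :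
    ∃ m : ℤ, HasUnitLead (S - S') m := by
  have hℓ : ℓ.Prime := Fact.out
  obtain ⟨a, d₁, ha, ζ, hd₁, had₁, hζ, hexp⟩ := cjn_exists_normalForm N g
  obtain ⟨a', d₂, ha', ζ', hd₂, had₂, hζ', hexp'⟩ := cjn_exists_normalForm N g'
  rw [mem_IntPair] at hS hS'
  have hT : coeffMap iotaBar (serO ℓ S) = cjnSer a ζ := hS.unique hexp
  have hT' : coeffMap iotaBar (serO ℓ S') = cjnSer a' ζ' := hS'.unique hexp'
  have hapos : (0 : ℤ) < a := by exact_mod_cast Nat.pos_of_ne_zero (NeZero.ne a)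
  have ha'pos : (0 : ℤ) < a' := by exact_mod_cast Nat.pos_of_ne_zero (NeZero.ne a')
  rcases lt_trichotomy a a' with hlt | heq | hgt
  · -- the pole of `S'` is deeper
    have hlt' : (a : ℤ) < a' := by exact_mod_cast hlt
    have hord : -((a' : ℤ) * a') < -((a : ℤ) * a) := by nlinarith
    refine ⟨-((a' : ℤ) * a'), ?_, fun i hi => ?_⟩
    · have h1 : S.coeff (-((a' : ℤ) * a')) = 0 := by
        apply cjn_eq_zero
        rw [cjn_coeff_eq ℓ hT, cjnSer_coeff_of_lt a ζ hord]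
      have h2 : (S'.coeff (-((a' : ℤ) * a'))) ^ d₂ = 1 :=
        cjn_pow_eq_one ℓ hζ' (by rw [cjn_coeff_eq ℓ hT', cjnSer_coeff_lead])
      rw [HahnSeries.coeff_sub, h1, zero_sub]
      exact (cjn_isUnit_of_pow_eq_one ℓ hd₂ h2).neg
    · have h1 : S.coeff i = 0 := by
        apply cjn_eq_zero
        rw [cjn_coeff_eq ℓ hT, cjnSer_coeff_of_lt a ζ (lt_trans hi hord)]
      have h2 : S'.coeff i = 0 := by
        apply cjn_eq_zero
        rw [cjn_coeff_eq ℓ hT', cjnSer_coeff_of_lt a' ζ' hi]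
      rw [HahnSeries.coeff_sub, h1, h2, sub_zero]
  · -- same order: the roots of unity differ
    subst heq
    have hd : d₁ = d₂ := by
      have : a * d₁ = a * d₂ := by rw [had₁, had₂]
      exact Nat.eq_of_mul_eq_mul_left (Nat.pos_of_ne_zero (NeZero.ne a)) this
    subst hd
    have hne : ζ ≠ ζ' := by
      rintro rfl
      have h3 : g • jdHol N = g' • jdHol N := Subtype.ext (hexp.eq_of_eq hexp')
      apply hgg'
      apply mem_Gamma0_of_smul_jdHol
      rw [mul_smul, ← h3, inv_smul_smul]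
    refine ⟨-((a : ℤ) * a), ?_, fun i hi => ?_⟩
    · set x := S.coeff (-((a : ℤ) * a)) with hx
      set x' := S'.coeff (-((a : ℤ) * a)) with hx'
      have hxι : iotaBar (x : QBar) = ((ζ⁻¹ : ℂˣ) : ℂ) := by
        rw [cjn_coeff_eq ℓ hT, cjnSer_coeff_lead]
      have hx'ι : iotaBar (x' : QBar) = ((ζ'⁻¹ : ℂˣ) : ℂ) := by
        rw [cjn_coeff_eq ℓ hT', cjnSer_coeff_lead]
      have h1 : x ^ d₁ = 1 := cjn_pow_eq_one ℓ hζ hxι
      have h2 : x' ^ d₁ = 1 := cjn_pow_eq_one ℓ hζ' hx'ι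
      have hxx' : x ≠ x' := by
        intro h
        apply hne
        have h3 : ((ζ⁻¹ : ℂˣ) : ℂ) = ((ζ'⁻¹ : ℂˣ) : ℂ) := by rw [← hxι, ← hx'ι, h]
        exact inv_injective (Units.ext h3)
      obtain ⟨k, hk⟩ : ∃ k, d₁ = k + 1 := Nat.exists_eq_add_one_of_ne_zero hd₁
      -- `w = x' / x`
      set w : OBar ℓ := x' * x ^ k with hw
      have hxk : x * x ^ k = 1 := by rw [← pow_succ', ← hk, h1]
      have hwd : w ^ d₁ = 1 := by
        rw [hw, mul_pow, h2, one_mul, ← pow_mul, mul_comm, pow_mul, h1, one_pow]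
      have hw1 : w ≠ 1 := by
        intro h
        apply hxx'
        have : x' = x' * (x * x ^ k) := by rw [hxk, mul_one]
        rw [this, mul_left_comm, ← hw, h, mul_one]
      have hcop : d₁.Coprime ℓ := by
        rw [Nat.coprime_comm, Nat.Prime.coprime_iff_not_dvd hℓ]
        intro h
        exact hℓN (dvd_trans h ⟨a, by rw [← had₁, mul_comm]⟩)
      have hunit : IsUnit (1 - w) := isUnit_one_sub_of_pow_eq_one ℓ hcop w hwd hw1
      have hfac : x - x' = x * (1 - w) := by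
        rw [hw, mul_sub, mul_one, mul_left_comm, hxk, mul_one]
      rw [HahnSeries.coeff_sub, ← hx, ← hx', hfac]
      exact (cjn_isUnit_of_pow_eq_one ℓ hd₁ h1).mul hunit
    · have h1 : S.coeff i = 0 := by
        apply cjn_eq_zero
        rw [cjn_coeff_eq ℓ hT, cjnSer_coeff_of_lt a ζ hi]
      have h2 : S'.coeff i = 0 := by
        apply cjn_eq_zero
        rw [cjn_coeff_eq ℓ hT', cjnSer_coeff_of_lt a ζ' hi]
      rw [HahnSeries.coeff_sub, h1, h2, sub_zero]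
  · -- the pole of `S` is deeper
    have hgt' : (a' : ℤ) < a := by exact_mod_cast hgt
    have hord : -((a : ℤ) * a) < -((a' : ℤ) * a') := by nlinarith
    refine ⟨-((a : ℤ) * a), ?_, fun i hi => ?_⟩
    · have h1 : S'.coeff (-((a : ℤ) * a)) = 0 := by
        apply cjn_eq_zero
        rw [cjn_coeff_eq ℓ hT', cjnSer_coeff_of_lt a' ζ' hord]
      have h2 : (S.coeff (-((a : ℤ) * a))) ^ d₁ = 1 :=
        cjn_pow_eq_one ℓ hζ (by rw [cjn_coeff_eq ℓ hT, cjnSer_coeff_lead])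
      rw [HahnSeries.coeff_sub, h1, sub_zero]
      exact cjn_isUnit_of_pow_eq_one ℓ hd₁ h2
    · have h1 : S.coeff i = 0 := by
        apply cjn_eq_zero
        rw [cjn_coeff_eq ℓ hT, cjnSer_coeff_of_lt a ζ hi]
      have h2 : S'.coeff i = 0 := by
        apply cjn_eq_zero
        rw [cjn_coeff_eq ℓ hT', cjnSer_coeff_of_lt a' ζ' (lt_trans hi hord)]
      rw [HahnSeries.coeff_sub, h1, h2, sub_zero]

end Fermat.Agent.S28
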