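import Mathlib
import Fermat.Agent.S28.UnitDefs
import Fermat.Agent.S24.Ramanujan

/-!
# S28 leaf L3-B : the conjugates of `u_δ = Δ(δτ)/Δ(τ)` under `SL(2,ℤ)`
-/

set_option autoImplicit false

noncomputable section

namespace Fermat.Agent.S28

open UpperHalfPlane ModularCurve ModularForm Fermat.Agent.S24 Fermat.Agent.S23
open scoped MatrixGroups Manifold ModularForm

/-- weight 12 transformation of `Δ`. -/
theorem ut_discriminant_smul (γ : SL(2, ℤ)) (τ : ℍ) :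
    ModularForm.discriminant (γ • τ) = denom γ τ ^ (12 : ℤ) * ModularForm.discriminant τ := by
  have hγ : (γ : GL (Fin 2) ℝ) ∈ (𝒮ℒ : Subgroup (GL (Fin 2) ℝ)) := ⟨γ, rfl⟩
  have := SlashInvariantForm.slash_action_eqn'' CuspForm.discriminant hγ τ
  simpa using this

/-- entries of the Hermite identity. -/
theorem ut_entries {δ a d' : ℕ} (hδ : δ ≠ 0) (ha : a ≠ 0) (hd' : d' ≠ 0) (b : ℤ)
    (γ β : SL(2, ℤ))
    (h : utGL δ 0 1 * Matrix.SpecialLinearGroup.mapGL ℝ γ =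
      Matrix.SpecialLinearGroup.mapGL ℝ β * utGL a b d') :
    γ 1 0 = β 1 0 * a ∧ γ 1 1 = β 1 0 * b + β 1 1 * d' ∧ (δ : ℤ) * γ 0 0 = β 0 0 * a := by
  have h10 := congrArg (fun M : GL (Fin 2) ℝ => (M : Matrix (Fin 2) (Fin 2) ℝ) 1 0) h
  have h11 := congrArg (fun M : GL (Fin 2) ℝ => (M : Matrix (Fin 2) (Fin 2) ℝ) 1 1) h
  have h00 := congrArg (fun M : GL (Fin 2) ℝ => (M : Matrix (Fin 2) (Fin 2) ℝ) 0 0) h
  simp only [Matrix.GeneralLinearGroup.coe_mul, val_utGL hδ one_ne_zero, val_utGL ha hd',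
    Matrix.mul_apply, Fin.sum_univ_two, unstab_mapGL_apply] at h10 h11 h00
  simp at h10 h11 h00
  refine ⟨by exact_mod_cast h10, by exact_mod_cast h11, by exact_mod_cast h00⟩

/-- the Hermite identity determines `a = gcd(δ, c)`. -/
theorem ut_gcd {δ a d' : ℕ} (hδ : δ ≠ 0) (ha : a ≠ 0) (hd' : d' ≠ 0) (b : ℤ)
    (γ β : SL(2, ℤ))
    (h : utGL δ 0 1 * Matrix.SpecialLinearGroup.mapGL ℝ γ =
      Matrix.SpecialLinearGroup.mapGL ℝ β * utGL a b d') :
    a = Nat.gcd δ (γ 1 0).natAbs := by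
  obtain ⟨h10, -, h00⟩ := ut_entries hδ ha hd' b γ β h
  have hγdet : γ 0 0 * γ 1 1 - γ 0 1 * γ 1 0 = 1 := by
    have := γ.det_coe
    rwa [Matrix.det_fin_two] at this
  have hβdet : β 0 0 * β 1 1 - β 0 1 * β 1 0 = 1 := by
    have := β.det_coe
    rwa [Matrix.det_fin_two] at this
  have hγcop : Nat.Coprime (γ 0 0).natAbs (γ 1 0).natAbs :=
    Int.isCoprime_iff_gcd_eq_one.mp ⟨γ 1 1, -γ 0 1, by linarith⟩
  have hβcop : Nat.Coprime (β 0 0).natAbs (β 1 0).natAbs :=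
    Int.isCoprime_iff_gcd_eq_one.mp ⟨β 1 1, -β 0 1, by linarith⟩
  have e1 : Nat.gcd (δ * (γ 0 0).natAbs) (γ 1 0).natAbs = Nat.gcd δ (γ 1 0).natAbs := by
    rw [mul_comm]
    exact Nat.Coprime.gcd_mul_left_cancel δ hγcop
  have e2 : (δ * (γ 0 0).natAbs) = (β 0 0).natAbs * a := by
    have := congrArg Int.natAbs h00
    rwa [Int.natAbs_mul, Int.natAbs_mul, Int.natAbs_natCast, Int.natAbs_natCast] at this
  have e3 : (γ 1 0).natAbs = (β 1 0).natAbs * a := by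
    have := congrArg Int.natAbs h10
    rwa [Int.natAbs_mul, Int.natAbs_natCast] at this
  rw [← e1, e2, e3, Nat.gcd_mul_right, hβcop, one_mul]

/-- the transformation formula, abstractly from the Hermite identity. -/
theorem ut_transform {δ a d' : ℕ} (hδ : δ ≠ 0) (ha : a ≠ 0) (hd' : d' ≠ 0) (b : ℤ)
    (γ β : SL(2, ℤ))
    (h : utGL δ 0 1 * Matrix.SpecialLinearGroup.mapGL ℝ γ =
      Matrix.SpecialLinearGroup.mapGL ℝ β * utGL a b d') (τ : ℍ) :
    ModularForm.discriminant (utGL δ 0 1 • (γ • τ)) * (ModularForm.discriminant (γ • τ))⁻¹ =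
      ((d' : ℂ)⁻¹) ^ 12 * ModularForm.discriminant (utGL a b d' • τ) *
        (ModularForm.discriminant τ)⁻¹ := by
  obtain ⟨h10, h11, -⟩ := ut_entries hδ ha hd' b γ β h
  set z : ℍ := utGL a b d' • τ with hz
  have e1 : utGL δ 0 1 • (γ • τ) = β • z := by
    show utGL δ 0 1 • ((Matrix.SpecialLinearGroup.mapGL ℝ γ : GL (Fin 2) ℝ) • τ) =
      (Matrix.SpecialLinearGroup.mapGL ℝ β : GL (Fin 2) ℝ) • z
    rw [← mul_smul, h, mul_smul]
  have hd'c : (d' : ℂ) ≠ 0 := by exact_mod_cast hd'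
  have hden : denom β z * (d' : ℂ) = denom γ τ := by
    rw [ModularGroup.denom_apply, ModularGroup.denom_apply, hz, coe_utGL_smul ha hd' b τ, h10, h11]
    push_cast
    field_simp
    ring
  have hγ0 : denom γ τ ≠ 0 := denom_ne_zero γ τ
  have hβ0 : denom β z ≠ 0 := denom_ne_zero β z
  have hΔτ := ModularForm.discriminant_ne_zero τ
  rw [e1, ut_discriminant_smul β z, ut_discriminant_smul γ τ, ← hden]
  have h12 : ∀ w : ℂ, w ^ (12 : ℤ) = w ^ 12 := fun w => by norm_cast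
  rw [h12, h12]
  field_simp

theorem unitHolInv_apply (δ : ℕ) [NeZero δ] (τ : ℍ) :
    (unitHolInv δ : ℍ → ℂ) τ =
      (ModularForm.discriminant (utGL δ 0 1 • τ))⁻¹ * ModularForm.discriminant τ :=
  rfl

/-- existence of the Hermite identity. -/
theorem ut_exists_hermite (δ : ℕ) (hδ : δ ≠ 0) (γ : SL(2, ℤ)) :
    ∃ (a d' : ℕ) (b : ℤ) (β : SL(2, ℤ)), a ≠ 0 ∧ d' ≠ 0 ∧ a * d' = δ ∧
      utGL δ 0 1 * Matrix.SpecialLinearGroup.mapGL ℝ γ =
        Matrix.SpecialLinearGroup.mapGL ℝ β * utGL a b d' := by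
  by_cases hdiv : (δ : ℤ) ∣ γ 1 0
  · obtain ⟨c', hc'⟩ := hdiv
    exact ⟨δ, 1, 0, unstab_conjSL δ γ c' hc', hδ, one_ne_zero, mul_one δ,
      utGL_mul_mapGL δ hδ γ c' hc'⟩
  · obtain ⟨a, d', b', β, ha, hd', had, -, hdecomp⟩ := unstab_exists_hermite_decomp δ hδ γ hdiv
    exact ⟨a, d', b', β, ha, hd', had, hdecomp⟩

theorem exists_unitHol_transform (δ : ℕ) [NeZero δ] (g : SL(2, ℤ)) :
    ∃ (a d' : ℕ) (b : ℤ), a ≠ 0 ∧ d' ≠ 0 ∧ a * d' = δ ∧
      a = Nat.gcd δ ((g⁻¹ : SL(2, ℤ)) 1 0).natAbs ∧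
      (∀ τ : ℍ, ((g • unitHol δ : HolRing) : ℍ → ℂ) τ =
        ((d' : ℂ)⁻¹) ^ 12 * ModularForm.discriminant (Fermat.Agent.S23.utGL a b d' • τ) *
          (ModularForm.discriminant τ)⁻¹) ∧
      (∀ τ : ℍ, ((g • unitHolInv δ : HolRing) : ℍ → ℂ) τ =
        (d' : ℂ) ^ 12 * (ModularForm.discriminant (Fermat.Agent.S23.utGL a b d' • τ))⁻¹ *
          ModularForm.discriminant τ) := by
  have hδ : δ ≠ 0 := NeZero.ne δ
  obtain ⟨a, d', b, β, ha, hd', had, hdecomp⟩ := ut_exists_hermite δ hδ g⁻¹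
  have hmain := ut_transform hδ ha hd' b g⁻¹ β hdecomp
  refine ⟨a, d', b, ha, hd', had, ut_gcd hδ ha hd' b g⁻¹ β hdecomp, fun τ => ?_, fun τ => ?_⟩
  · rw [HolRing.smul_apply, unitHol_apply, div_eq_mul_inv]
    exact hmain τ
  · rw [HolRing.smul_apply, unitHolInv_apply]
    have h1 := hmain τ
    have hd'c : (d' : ℂ) ≠ 0 := by exact_mod_cast hd'
    have hΔ1 := ModularForm.discriminant_ne_zero (utGL δ 0 1 • (g⁻¹ • τ))
    have hΔ2 := ModularForm.discriminant_ne_zero (g⁻¹ • τ)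
    have hΔ3 := ModularForm.discriminant_ne_zero (utGL a b d' • τ)
    have hΔ4 := ModularForm.discriminant_ne_zero τ
    have h2 := congrArg (fun w : ℂ => w⁻¹) h1
    simp only [mul_inv, inv_inv, inv_pow] at h2
    rw [h2]

end Fermat.Agent.S28
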