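import Mathlib
import Fermat.Prelude.Def_ModularCurve_IgusaScheme

/-!
# S28, layer L8: scheme glue

From integrality of the base changes of the two affine charts of the Igusa scheme (and
non-emptiness of the base change of their intersection) we deduce that the base change of the
Igusa scheme is an integral scheme.
-/

set_option autoImplicit false

noncomputable section

open AlgebraicGeometry CategoryTheory CategoryTheory.Limits ModularCurve ModularCurve.IgusaScheme
open scoped TensorProduct

namespace Fermat.Agent.S28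

/-- A space covered by two irreducible open subsets with nonempty intersection is irreducible. -/
theorem glue_irreducibleSpace_of_two_opens {X : Type*} [TopologicalSpace X] (U V : Set X)
    (hUV : ∀ x : X, x ∈ U ∨ x ∈ V) (hU : IsIrreducible U) (hV : IsIrreducible V)
    (hUo : IsOpen U) (hne : (U ∩ V).Nonempty) : IrreducibleSpace X := by
  have key : ∀ u : Set X, IsOpen u → u.Nonempty → (U ∩ u).Nonempty := by
    intro u hu ⟨x, hx⟩
    rcases hUV x with hxU | hxV
    · exact ⟨x, hxU, hx⟩
    · have h1 : (V ∩ u).Nonempty := ⟨x, hxV, hx⟩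
      have h2 : (V ∩ U).Nonempty := by rwa [Set.inter_comm]
      obtain ⟨y, -, hyu, hyU⟩ := hV.2 u U hu hUo h1 h2
      exact ⟨y, hyU, hyu⟩
  obtain ⟨x, hx, -⟩ := hne
  refine { toNonempty := ⟨x⟩, isPreirreducible_univ := ?_ }
  intro u v hu hv hu' hv'
  rw [Set.univ_inter] at hu' hv' ⊢
  obtain ⟨y, -, hy⟩ := hU.2 u v hu hv (key u hu hu') (key v hv hv')
  exact ⟨y, hy⟩

variable (N : ℕ) [NeZero N] (ℓ : ℕ) [Fact ℓ.Prime]

set_option quotPrecheck false in
local notation "ℤℓ" => ↥(GaloisRep.ratLocalizedAt ℓ)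

variable (K : Type) [Field K] [Algebra ↥(GaloisRep.ratLocalizedAt ℓ) K]

/-- The base-change morphism `Spec K ⟶ Spec ℤℓ`. -/
abbrev glueBase : Spec (CommRingCat.of K) ⟶ Spec (CommRingCat.of ℤℓ) :=
  Spec.map (CommRingCat.ofHom (algebraMap ℤℓ K))

/-- The base change of the Igusa scheme. -/
abbrev glueP : Scheme.{0} := pullback (igusaTo N ℓ) (glueBase ℓ K)

/-- The base change of the chart `XFin`. -/
abbrev gluePL : Scheme.{0} :=
  pullback (Spec.map (CommRingCat.ofHom (algebraMap ℤℓ (chartAlgFin N ℓ)))) (glueBase ℓ K)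

/-- The base change of the chart `XInf`. -/
abbrev gluePR : Scheme.{0} :=
  pullback (Spec.map (CommRingCat.ofHom (algebraMap ℤℓ (chartAlgInf N ℓ)))) (glueBase ℓ K)

/-- The base change of the intersection `XMid` of the two charts. -/
abbrev gluePM : Scheme.{0} :=
  pullback (Spec.map (CommRingCat.ofHom (algebraMap ℤℓ (chartAlgMid N ℓ)))) (glueBase ℓ K)

/-- The base change of `ιFin`. -/
def glueJL : gluePL N ℓ K ⟶ glueP N ℓ K :=
  pullback.map _ _ _ _ (ιFin N ℓ) (𝟙 _) (𝟙 _) (by simp) (by simp)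

/-- The base change of `ιInf`. -/
def glueJR : gluePR N ℓ K ⟶ glueP N ℓ K :=
  pullback.map _ _ _ _ (ιInf N ℓ) (𝟙 _) (𝟙 _) (by simp) (by simp)

theorem glue_fFin_toBase :
    Spec.map (CommRingCat.ofHom (algebraMap ℤℓ (chartAlgMid N ℓ))) =
      fFin N ℓ ≫ Spec.map (CommRingCat.ofHom (algebraMap ℤℓ (chartAlgFin N ℓ))) := by
  show _ = Spec.map _ ≫ Spec.map _
  rw [← Spec.map_comp, ← CommRingCat.ofHom_comp]
  rfl

theorem glue_fInf_toBase :
    Spec.map (CommRingCat.ofHom (algebraMap ℤℓ (chartAlgMid N ℓ))) =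
      fInf N ℓ ≫ Spec.map (CommRingCat.ofHom (algebraMap ℤℓ (chartAlgInf N ℓ))) := by
  show _ = Spec.map _ ≫ Spec.map _
  rw [← Spec.map_comp, ← CommRingCat.ofHom_comp]
  rfl

/-- The base change of `fFin`. -/
def glueML : gluePM N ℓ K ⟶ gluePL N ℓ K :=
  pullback.map _ _ _ _ (fFin N ℓ) (𝟙 _) (𝟙 _)
    (by rw [Category.comp_id]; exact glue_fFin_toBase N ℓ) (by simp)

/-- The base change of `fInf`. -/
def glueMR : gluePM N ℓ K ⟶ gluePR N ℓ K :=
  pullback.map _ _ _ _ (fInf N ℓ) (𝟙 _) (𝟙 _)
    (by rw [Category.comp_id]; exact glue_fInf_toBase N ℓ) (by simp)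

instance glueJL_isOpenImmersion : IsOpenImmersion (glueJL N ℓ K) := by
  unfold glueJL; infer_instance

instance glueJR_isOpenImmersion : IsOpenImmersion (glueJR N ℓ K) := by
  unfold glueJR; infer_instance

instance glueML_isOpenImmersion : IsOpenImmersion (glueML N ℓ K) := by
  unfold glueML; infer_instance

theorem glueML_glueJL : glueML N ℓ K ≫ glueJL N ℓ K = glueMR N ℓ K ≫ glueJR N ℓ K := by
  apply pullback.hom_ext
  · simp only [glueML, glueJL, glueMR, glueJR, pullback.map, Category.assoc, pullback.lift_fst,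
      pullback.lift_fst_assoc]
    rw [glue_condition]
  · simp only [glueML, glueJL, glueMR, glueJR, pullback.map, Category.assoc, pullback.lift_snd,
      pullback.lift_snd_assoc]

theorem glue_range_glueJL : Set.range (glueJL N ℓ K) =
    pullback.fst (igusaTo N ℓ) (glueBase ℓ K) ⁻¹' Set.range (ιFin N ℓ) := by
  rw [glueJL, Scheme.Pullback.range_map]
  simp

theorem glue_range_glueJR : Set.range (glueJR N ℓ K) =
    pullback.fst (igusaTo N ℓ) (glueBase ℓ K) ⁻¹' Set.range (ιInf N ℓ) := by
  rw [glueJR, Scheme.Pullback.range_map]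
  simp

theorem glue_mem_range_or (x : glueP N ℓ K) :
    x ∈ Set.range (glueJL N ℓ K) ∨ x ∈ Set.range (glueJR N ℓ K) := by
  rw [glue_range_glueJL, glue_range_glueJR]
  exact mem_range_ιFin_or_mem_range_ιInf N ℓ _

/-- The two pieces of the cover of the base change. -/
def gluePiece : Bool → Scheme.{0}
  | true => gluePL N ℓ K
  | false => gluePR N ℓ K

/-- The two open immersions of the cover of the base change. -/
def glueJ : (b : Bool) → gluePiece N ℓ K b ⟶ glueP N ℓ K
  | true => glueJL N ℓ K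
  | false => glueJR N ℓ K

instance glueJ_isOpenImmersion (b : Bool) : IsOpenImmersion (glueJ N ℓ K b) := by
  cases b
  · exact glueJR_isOpenImmersion N ℓ K
  · exact glueJL_isOpenImmersion N ℓ K

/-- The open cover of the base change of the Igusa scheme by the base changes of the charts. -/
def gluePullbackCover : (glueP N ℓ K).OpenCover :=
  Scheme.Cover.mkOfCovers Bool (gluePiece N ℓ K) (glueJ N ℓ K)
    (fun x => by
      rcases glue_mem_range_or N ℓ K x with ⟨y, hy⟩ | ⟨y, hy⟩
      · exact ⟨true, y, hy⟩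
      · exact ⟨false, y, hy⟩)
    (fun b => glueJ_isOpenImmersion N ℓ K b)

/-- **Layer L8 (glue).** If the base changes of the two charts are domains and the base change
of their intersection is nontrivial, the base change of the Igusa scheme is integral. -/
theorem isIntegral_pullback_igusaTo
    (hFin : IsDomain (chartAlgFin N ℓ ⊗[ℤℓ] K)) (hInf : IsDomain (chartAlgInf N ℓ ⊗[ℤℓ] K))
    (hMid : Nontrivial (chartAlgMid N ℓ ⊗[ℤℓ] K)) :
    IsIntegral (pullback (igusaTo N ℓ) (Spec.map (CommRingCat.ofHom (algebraMap ℤℓ K)))) := by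
  have hL : IsIntegral (gluePL N ℓ K) :=
    IsIntegral.of_isIso (pullbackSpecIso ℤℓ (chartAlgFin N ℓ) K).inv
  have hR : IsIntegral (gluePR N ℓ K) :=
    IsIntegral.of_isIso (pullbackSpecIso ℤℓ (chartAlgInf N ℓ) K).inv
  have hM : Nonempty (gluePM N ℓ K) := by
    have : Nonempty (Spec (CommRingCat.of (chartAlgMid N ℓ ⊗[ℤℓ] K))) :=
      inferInstanceAs (Nonempty (PrimeSpectrum (chartAlgMid N ℓ ⊗[ℤℓ] K)))
    exact ⟨(pullbackSpecIso ℤℓ (chartAlgMid N ℓ) K).inv (Classical.arbitrary _)⟩
  have : ∀ b, IsReduced ((gluePullbackCover N ℓ K).X b) := by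
    rintro (_ | _)
    · exact inferInstanceAs (IsReduced (gluePR N ℓ K))
    · exact inferInstanceAs (IsReduced (gluePL N ℓ K))
  have : IsReduced (glueP N ℓ K) := IsReduced.of_openCover _ (gluePullbackCover N ℓ K)
  have : IrreducibleSpace (glueP N ℓ K) := by
    apply glue_irreducibleSpace_of_two_opens (Set.range (glueJL N ℓ K))
      (Set.range (glueJR N ℓ K))
    · exact glue_mem_range_or N ℓ K
    · rw [← Set.image_univ]
      exact (IrreducibleSpace.isIrreducible_univ _).image _
        (glueJL N ℓ K).continuous.continuousOn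
    · rw [← Set.image_univ]
      exact (IrreducibleSpace.isIrreducible_univ _).image _
        (glueJR N ℓ K).continuous.continuousOn
    · exact (glueJL N ℓ K).isOpenEmbedding.isOpen_range
    · obtain ⟨y⟩ := hM
      refine ⟨(glueML N ℓ K ≫ glueJL N ℓ K) y, ⟨(glueML N ℓ K) y, rfl⟩, ⟨(glueMR N ℓ K) y, ?_⟩⟩
      rw [glueML_glueJL]
      rfl
  exact isIntegral_of_irreducibleSpace_of_isReduced _

end Fermat.Agent.S28
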