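import Mathlib
import Fermat.Agent.S28.Defs
import Fermat.Agent.S24.Degree

/-!
# S28 : the conjugate embeddings of the rational function field `F = ℚ(j(q^d), d ∣ N)`

`conjEmb N g : F →+* QBar((s))`, `s = exp(2πiτ/N)` : the expansion at `i∞` of `f ∘ g⁻¹`
(`Fermat.Agent.S24.degLift` composed with the base change `F → F ⊗ QBar`).
-/

set_option autoImplicit false
set_option linter.unusedSectionVars false

noncomputable section

namespace Fermat.Agent.S28

open UpperHalfPlane ModularCurve Fermat.Agent.S24
open scoped MatrixGroups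

variable (N : ℕ) [NeZero N]

/-- The function field of `X₀(N)` over `ℚ`, inside `ℚ((q))`. -/
abbrev FF : Type := ↥(modularFunctionFieldFull N)

/-- base change `F → F ⊗ QBar ⊆ QBar((q))`. -/
def toBar : FF N →+* ↥(modularFunctionFieldBar N) where
  toFun x := ⟨coeffEmb QBar (x : LaurentSeries ℚ), coeffEmb_mem_laurentBaseChange QBar x.2⟩
  map_one' := Subtype.ext (map_one (coeffEmb QBar))
  map_mul' _ _ := Subtype.ext (map_mul (coeffEmb QBar) _ _)
  map_zero' := Subtype.ext (map_zero (coeffEmb QBar))
  map_add' _ _ := Subtype.ext (map_add (coeffEmb QBar) _ _)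

@[simp] theorem coe_toBar (x : FF N) :
    ((toBar N x : modularFunctionFieldBar N) : LaurentSeries QBar) =
      coeffEmb QBar (x : LaurentSeries ℚ) := rfl

/-- The conjugate embeddings: expansion at `i∞`, in `s = exp(2πiτ/N)`, of `f ∘ g⁻¹`. -/
def conjEmb (g : SL(2, ℤ)) : FF N →+* LaurentSeries QBar := (degLift N g).comp (toBar N)

/-- `j(q^N)` as an element of `F`. -/
def jNFull : FF N := ⟨qExpand ℚ N jq, jqd_mem_full N dvd_rfl⟩

end Fermat.Agent.S28
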