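import Mathlib
import Fermat.Agent.S28.ConjDefs
import Fermat.Agent.S20.LinDisjoint

/-!
# S28 leaf L6a : the field `F = ℚ(j(q^d), d ∣ N)` over `ℚ(j)`

`[F : ℚ(j)] = n = [SL(2,ℤ) : Γ₀(N)]`, `F = ℚ(j)(j(q^N))`, and the `n` conjugate embeddings.
-/

set_option autoImplicit false
set_option linter.unusedSectionVars false
set_option linter.style.haveILetI false

noncomputable section

namespace Fermat.Agent.S28

open UpperHalfPlane ModularCurve ModularCurve.IgusaScheme Fermat.Agent.S24 IntermediateField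
open scoped MatrixGroups

variable (N : ℕ) [NeZero N]

/-! ### the conjugate embeddings -/

theorem ratfield_toBar_jFull : toBar N (jFull N) = jBar N := Subtype.ext rfl

theorem ratfield_toBar_jNFull : toBar N (jNFull N) = jdBar N N dvd_rfl := Subtype.ext rfl

theorem ratfield_degLift_jBar (g : SL(2, ℤ)) :
    degLift N g (jBar N) = qExpand QBar N (coeffEmb QBar jq) := by
  have h := degLift_aeval N g Polynomial.X
  rwa [Polynomial.aeval_X, Polynomial.aeval_X] at h

theorem conjEmb_jFull (g : SL(2, ℤ)) :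
    conjEmb N g (jFull N) = qExpand QBar N (coeffEmb QBar jq) := by
  show degLift N g (toBar N (jFull N)) = _
  rw [ratfield_toBar_jFull, ratfield_degLift_jBar]

/-- `cuspHom N 1` is the `q`-expansion in `s = q^(1/N)`. -/
theorem ratfield_cuspHom_one (r : RBar N) :
    cuspHom N 1 r = qExpand QBar N ((r : modularFunctionFieldBar N) : LaurentSeries QBar) := by
  apply conj_cuspHom_eq
  rw [one_smul, coeffMap_qExpand]
  have h := (hasCuspExp_toHol N r).qExpand N
  rwa [one_mul] at h

/-- `degLift N 1` is the `q`-expansion in `s = q^(1/N)`. -/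
theorem ratfield_degLift_one (y : modularFunctionFieldBar N) :
    degLift N 1 y = qExpand QBar N (y : LaurentSeries QBar) := by
  haveI := isFractionRing_RBar N
  let ψ : modularFunctionFieldBar N →+* LaurentSeries QBar :=
    (qExpand QBar N).comp (modularFunctionFieldBar N).val.toRingHom
  have h : degLift N 1 = ψ := by
    apply IsFractionRing.ringHom_ext (A := RBar N)
    intro r
    show degLift N 1 ((r : modularFunctionFieldBar N)) = _
    rw [degLift_coe, ratfield_cuspHom_one]
    rfl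
  rw [h]
  rfl

theorem conjEmb_one (x : FF N) :
    conjEmb N 1 x = qExpand QBar N (coeffEmb QBar (x : LaurentSeries ℚ)) := by
  show degLift N 1 (toBar N x) = _
  rw [ratfield_degLift_one]
  rfl

theorem ratfield_degLift_mul_of_mem_Gamma0 (g γ : SL(2, ℤ))
    (hγ : γ ∈ CongruenceSubgroup.Gamma0 N) : degLift N (g * γ) = degLift N g := by
  haveI := isFractionRing_RBar N
  apply IsFractionRing.ringHom_ext (A := RBar N)
  intro r
  show degLift N (g * γ) ((r : modularFunctionFieldBar N)) = degLift N g (r : modularFunctionFieldBar N)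
  rw [degLift_coe, degLift_coe, cuspHom_mul_of_mem_Gamma0 N g γ hγ]

theorem conjEmb_mul_of_mem_Gamma0 (g γ : SL(2, ℤ)) (hγ : γ ∈ CongruenceSubgroup.Gamma0 N) :
    conjEmb N (g * γ) = conjEmb N g := by
  unfold conjEmb
  rw [ratfield_degLift_mul_of_mem_Gamma0 N g γ hγ]

theorem ratfield_conjEmb_jNFull (g : SL(2, ℤ)) :
    conjEmb N g (jNFull N) = cuspHom N g ⟨jdBar N N dvd_rfl, jdBar_mem_RBar N N dvd_rfl⟩ := by
  show degLift N g (toBar N (jNFull N)) = _
  rw [ratfield_toBar_jNFull]
  exact degLift_coe N g ⟨jdBar N N dvd_rfl, jdBar_mem_RBar N N dvd_rfl⟩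

/-- the expansion of the conjugate `g` of `j(q^N)` is the one of `g • jdHol N`. -/
theorem hasCuspExp_conjEmb_jNFull (g : SL(2, ℤ)) :
    HasCuspExp N ((g • jdHol N : HolRing) : ℍ → ℂ) (coeffMap iotaBar (conjEmb N g (jNFull N))) := by
  rw [ratfield_conjEmb_jNFull]
  have h := hasCuspExp_cuspHom N g ⟨jdBar N N dvd_rfl, jdBar_mem_RBar N N dvd_rfl⟩
  rwa [toHol_jdBar] at h

theorem mem_Gamma0_of_conjEmb_jNFull_eq (g g' : SL(2, ℤ))
    (h : conjEmb N g (jNFull N) = conjEmb N g' (jNFull N)) :
    g⁻¹ * g' ∈ CongruenceSubgroup.Gamma0 N := by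
  apply mem_Gamma0_of_smul_jdHol
  have h1 := hasCuspExp_conjEmb_jNFull N g
  have h2 := hasCuspExp_conjEmb_jNFull N g'
  rw [h] at h1
  have h3 : g • jdHol N = g' • jdHol N := Subtype.ext (h1.eq_of_eq h2)
  rw [mul_smul, ← h3, inv_smul_smul]

/-- all conjugate embeddings agree on `ℚ(j)`. -/
theorem conjEmb_algebraMap_adjoin (g g' : SL(2, ℤ)) (e : ℚ⟮jFull N⟯) :
    conjEmb N g (algebraMap ℚ⟮jFull N⟯ (FF N) e) = conjEmb N g' (algebraMap ℚ⟮jFull N⟯ (FF N) e) := by
  obtain ⟨r, s, hrs⟩ := (IntermediateField.mem_adjoin_simple_iff ℚ _).mp e.2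
  have he : algebraMap ℚ⟮jFull N⟯ (FF N) e =
      Polynomial.aeval (jFull N) r / Polynomial.aeval (jFull N) s := hrs
  have key : ∀ (h : SL(2, ℤ)) (P : Polynomial ℚ), conjEmb N h (Polynomial.aeval (jFull N) P) =
      Polynomial.aeval (qExpand QBar N (coeffEmb QBar jq)) P := by
    intro h P
    have h1 := Polynomial.aeval_algHom_apply (conjEmb N h).toRatAlgHom (jFull N) P
    rw [RingHom.toRatAlgHom_apply, RingHom.toRatAlgHom_apply, conjEmb_jFull] at h1
    exact h1.symm
  rw [he, map_div₀, map_div₀, key, key, key, key]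

theorem transcendental_jFull : Transcendental ℚ (jFull N) := by
  intro halg
  have h1 : IsAlgebraic ℚ (toBar N (jFull N)) := by
    have := halg.algHom (toBar N).toRatAlgHom
    rwa [RingHom.toRatAlgHom_apply] at this
  rw [ratfield_toBar_jFull] at h1
  exact transcendental_jBar N (h1.extendScalars (algebraMap ℚ QBar).injective)

/-! ### linear disjointness -/

/-- all `ℚ`-module structures are equal. -/
theorem ratfield_linearIndependent_rat_congr {M : Type*} [AddCommGroup M] (m1 m2 : Module ℚ M)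
    {ι : Type*} (v : ι → M) (h : @LinearIndependent ι ℚ M v _ _ m1) :
    @LinearIndependent ι ℚ M v _ _ m2 := by
  have : m1 = m2 := Subsingleton.elim _ _
  subst this
  exact h

/-- independence over `K[x]` from independence of the products `x^k c_i` over `K`. -/
theorem ratfield_linearIndependent_adjoin_of_pow {K A : Type*} [Field K] [CommRing A]
    [Algebra K A] (x : A) {ι : Type*} (c : ι → A)
    (h : LinearIndependent K (fun p : ℕ × ι => x ^ p.1 * c p.2)) :
    LinearIndependent (Algebra.adjoin K {x}) c := by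
  classical
  rw [linearIndependent_iff']
  intro s g hg i hi
  have hex : ∀ j : ι, ∃ P : Polynomial K,
      Polynomial.aeval x P = ((g j : Algebra.adjoin K {x}) : A) := by
    intro j
    have h1 : ((g j : Algebra.adjoin K {x}) : A) ∈ (Polynomial.aeval (R := K) x).range := by
      rw [← Algebra.adjoin_singleton_eq_range_aeval]
      exact (g j).2
    exact h1
  choose P hP using hex
  set D := s.sup (fun j => (P j).natDegree) + 1 with hD
  have hdeg : ∀ j ∈ s, (P j).natDegree < D := fun j hj =>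
    Nat.lt_succ_of_le (Finset.le_sup (f := fun j => (P j).natDegree) hj)
  rw [linearIndependent_iff'] at h
  have hsum : ∑ p ∈ Finset.range D ×ˢ s, (P p.2).coeff p.1 • (x ^ p.1 * c p.2) = 0 := by
    rw [Finset.sum_product_right]
    rw [← hg]
    refine Finset.sum_congr rfl fun j hj => ?_
    have h1 : g j • c j = ((g j : Algebra.adjoin K {x}) : A) * c j := rfl
    rw [h1, ← hP j, Polynomial.aeval_eq_sum_range' (hdeg j hj), Finset.sum_mul]
    refine Finset.sum_congr rfl fun k _ => ?_
    rw [smul_mul_assoc]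
  have hzero := h (Finset.range D ×ˢ s) (fun p => (P p.2).coeff p.1) hsum
  have hPi : P i = 0 := by
    ext k
    rw [Polynomial.coeff_zero]
    by_cases hk : k < D
    · exact hzero (k, i) (Finset.mem_product.2 ⟨Finset.mem_range.2 hk, hi⟩)
    · exact Polynomial.coeff_eq_zero_of_natDegree_lt (lt_of_lt_of_le (hdeg i hi) (not_lt.1 hk))
  apply Subtype.ext
  rw [← hP i, hPi, map_zero]
  rfl

/-- the powers of `j` are `ℚ`-linearly independent. -/
theorem ratfield_linearIndependent_pow :
    LinearIndependent ℚ (fun k : ℕ => (⟨jFull N, Algebra.self_mem_adjoin_singleton ℚ _⟩ :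
      Algebra.adjoin ℚ {jFull N}) ^ k) := by
  set jA : Algebra.adjoin ℚ {jFull N} := ⟨jFull N, Algebra.self_mem_adjoin_singleton ℚ _⟩ with hjA
  have hinj : Function.Injective (Polynomial.aeval (R := ℚ) jA) := by
    rw [← transcendental_iff_injective]
    intro halg
    apply transcendental_jFull N
    have h1 := halg.algHom (Algebra.adjoin ℚ {jFull N}).val
    exact h1
  have h3 := (Polynomial.basisMonomials ℚ).linearIndependent.map'
    (Polynomial.aeval (R := ℚ) jA).toLinearMap (LinearMap.ker_eq_bot.2 hinj)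
  have h4 : ((Polynomial.aeval (R := ℚ) jA).toLinearMap ∘ ⇑(Polynomial.basisMonomials ℚ)) =
      fun k : ℕ => jA ^ k := by
    funext k
    simp [Polynomial.coe_basisMonomials]
  rwa [h4] at h3

open scoped IntermediateField.algebraAdjoinAdjoin in
/-- **linear disjointness**: a family of `F` which is independent over `ℚ(j)` stays independent
over `QBar(j)` in `F ⊗ QBar`. -/
theorem ratfield_linearIndependent_toBar {ι : Type*} (b : ι → FF N)
    (hb : LinearIndependent ℚ⟮jFull N⟯ b) :
    LinearIndependent QBar⟮jBar N⟯ (fun i => toBar N (b i)) := by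
  -- step 1: independence over `ℚ[j]`
  have h1 : LinearIndependent (Algebra.adjoin ℚ {jFull N}) b :=
    (LinearIndependent.iff_fractionRing (Algebra.adjoin ℚ {jFull N}) ℚ⟮jFull N⟯).2 hb
  -- step 2,3: the products `j^k b_i` are independent over `ℚ`
  have h3 := linearIndependent_smul (ratfield_linearIndependent_pow N) h1
  -- step 4: in `ℚ((q))`
  let φ : FF N →ₗ[ℚ] LaurentSeries ℚ :=
    (AddSubgroupClass.subtype (modularFunctionFieldFull N)).toRatLinearMap
  have hφ : ∀ y : FF N, φ y = (y : LaurentSeries ℚ) := fun y => rfl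
  have hφinj : LinearMap.ker φ = ⊥ := by
    rw [LinearMap.ker_eq_bot]
    intro y z hyz
    exact Subtype.ext hyz
  have h4 := h3.map' φ hφinj
  have h5 := Fermat.Agent.S20.linearIndependent_coeffMap (algebraMap ℚ QBar) _
    (ratfield_linearIndependent_rat_congr _ _ _ h4)
  -- step 6: back in `F ⊗ QBar`
  let ψ : modularFunctionFieldBar N →ₗ[QBar] LaurentSeries QBar :=
    { toFun := fun y => (y : LaurentSeries QBar)
      map_add' := fun _ _ => rfl
      map_smul' := fun c y => by
        show ((c • y : modularFunctionFieldBar N) : LaurentSeries QBar) = c • (y : LaurentSeries QBar)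
        rw [Algebra.smul_def, ← HahnSeries.C_mul_eq_smul, ← deg_algebraMap_laurent]
        rfl }
  have h6 : LinearIndependent QBar
      (fun p : ℕ × ι => jBar N ^ p.1 * toBar N (b p.2)) := by
    refine LinearIndependent.of_comp ψ ?_
    convert h5 using 1
    funext p
    have e1 : ((⟨jFull N, Algebra.self_mem_adjoin_singleton ℚ _⟩ : Algebra.adjoin ℚ {jFull N}) ^ p.1 •
        b p.2 : FF N) = jFull N ^ p.1 * b p.2 := by
      rw [Subalgebra.smul_def, SubmonoidClass.coe_pow, smul_eq_mul]
    show ((jBar N ^ p.1 * toBar N (b p.2) : modularFunctionFieldBar N) : LaurentSeries QBar) =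
      coeffEmb QBar (((⟨jFull N, Algebra.self_mem_adjoin_singleton ℚ _⟩ :
        Algebra.adjoin ℚ {jFull N}) ^ p.1 • b p.2 : FF N) : LaurentSeries ℚ)
    rw [e1]
    have e2 : ((jFull N ^ p.1 * b p.2 : FF N) : LaurentSeries ℚ) =
        jq ^ p.1 * (b p.2 : LaurentSeries ℚ) := rfl
    rw [e2, map_mul, map_pow]
    rfl
  -- step 7, 8
  have h7 := ratfield_linearIndependent_adjoin_of_pow (jBar N) (fun i => toBar N (b i)) h6
  exact (LinearIndependent.iff_fractionRing (Algebra.adjoin QBar {jBar N}) QBar⟮jBar N⟯).1 h7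

/-! ### the degree -/

theorem ratfield_rank_le :
    Module.rank ℚ⟮jFull N⟯ (FF N) ≤
      ((Nat.card (SL(2, ℤ) ⧸ CongruenceSubgroup.Gamma0 N) : ℕ) : Cardinal) := by
  apply rank_le
  intro s hs
  have h1 := ratfield_linearIndependent_toBar N (fun i : s => (i : FF N)) hs
  haveI := finiteDimensional_jBar N
  have h2 := h1.fintype_card_le_finrank
  rw [Fintype.card_coe, finrank_jBar] at h2
  exact h2

theorem finiteDimensional_FF : FiniteDimensional ℚ⟮jFull N⟯ (FF N) := by
  rw [FiniteDimensional, ← Module.rank_lt_aleph0_iff]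
  exact lt_of_le_of_lt (ratfield_rank_le N) Cardinal.natCast_lt_aleph0

theorem ratfield_finrank_le :
    Module.finrank ℚ⟮jFull N⟯ (FF N) ≤ Nat.card (SL(2, ℤ) ⧸ CongruenceSubgroup.Gamma0 N) :=
  Module.finrank_le_of_rank_le (ratfield_rank_le N)

theorem ratfield_isIntegral_jNFull : IsIntegral ℚ⟮jFull N⟯ (jNFull N) := by
  haveI := finiteDimensional_FF N
  exact IsIntegral.of_finite _ _

/-- the minimal polynomial of `j(q^N)` over `ℚ(j)` has at least `n` distinct roots. -/
theorem ratfield_le_natDegree_minpoly :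
    Nat.card (SL(2, ℤ) ⧸ CongruenceSubgroup.Gamma0 N) ≤
      (minpoly ℚ⟮jFull N⟯ (jNFull N)).natDegree := by
  classical
  have hfin := finite_quotient_Gamma0 N
  let _ : Fintype (SL(2, ℤ) ⧸ CongruenceSubgroup.Gamma0 N) := Fintype.ofFinite _
  set p := minpoly ℚ⟮jFull N⟯ (jNFull N) with hp
  have hmonic : p.Monic := minpoly.monic (ratfield_isIntegral_jNFull N)
  let φ : ℚ⟮jFull N⟯ →+* LaurentSeries QBar :=
    (conjEmb N 1).comp (algebraMap ℚ⟮jFull N⟯ (FF N))
  have hφ : ∀ g : SL(2, ℤ), (conjEmb N g).comp (algebraMap ℚ⟮jFull N⟯ (FF N)) = φ := by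
    intro g
    refine RingHom.ext fun e => ?_
    exact conjEmb_algebraMap_adjoin N g 1 e
  have hroot : ∀ ξ : SL(2, ℤ) ⧸ CongruenceSubgroup.Gamma0 N,
      conjEmb N ξ.out (jNFull N) ∈ (p.map φ).roots.toFinset := by
    intro ξ
    rw [Multiset.mem_toFinset, Polynomial.mem_roots (Polynomial.map_ne_zero hmonic.ne_zero),
      Polynomial.IsRoot, Polynomial.eval_map, ← hφ ξ.out, ← Polynomial.hom_eval₂,
      ← Polynomial.aeval_def, hp, minpoly.aeval, map_zero]
  have hinj : Function.Injective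
      (fun ξ : SL(2, ℤ) ⧸ CongruenceSubgroup.Gamma0 N => conjEmb N ξ.out (jNFull N)) := by
    intro ξ ξ' h
    have h2 := mem_Gamma0_of_conjEmb_jNFull_eq N _ _ h
    rw [← QuotientGroup.eq, QuotientGroup.out_eq', QuotientGroup.out_eq'] at h2
    exact h2
  calc Nat.card (SL(2, ℤ) ⧸ CongruenceSubgroup.Gamma0 N)
      = Fintype.card (SL(2, ℤ) ⧸ CongruenceSubgroup.Gamma0 N) := Nat.card_eq_fintype_card
    _ ≤ (p.map φ).roots.toFinset.card := by
        rw [← Finset.card_univ]
        exact Finset.card_le_card_of_injOn _ (fun ξ _ => hroot ξ) (fun ξ _ ξ' _ h => hinj h)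
    _ ≤ Multiset.card (p.map φ).roots := Multiset.toFinset_card_le _
    _ ≤ (p.map φ).natDegree := Polynomial.card_roots' _
    _ = p.natDegree := hmonic.natDegree_map φ

theorem ratfield_finrank_adjoin :
    Module.finrank ℚ⟮jFull N⟯ (ℚ⟮jFull N⟯⟮jNFull N⟯) =
      (minpoly ℚ⟮jFull N⟯ (jNFull N)).natDegree :=
  IntermediateField.adjoin.finrank (ratfield_isIntegral_jNFull N)

theorem finrank_FF :
    Module.finrank ℚ⟮jFull N⟯ (FF N) = Nat.card (SL(2, ℤ) ⧸ CongruenceSubgroup.Gamma0 N) := by
  haveI := finiteDimensional_FF N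
  apply le_antisymm (ratfield_finrank_le N)
  calc Nat.card (SL(2, ℤ) ⧸ CongruenceSubgroup.Gamma0 N)
      ≤ (minpoly ℚ⟮jFull N⟯ (jNFull N)).natDegree := ratfield_le_natDegree_minpoly N
    _ = Module.finrank ℚ⟮jFull N⟯ (ℚ⟮jFull N⟯⟮jNFull N⟯) := (ratfield_finrank_adjoin N).symm
    _ ≤ Module.finrank ℚ⟮jFull N⟯ (FF N) :=
        Submodule.finrank_le (ℚ⟮jFull N⟯⟮jNFull N⟯).toSubalgebra.toSubmodule

theorem ratfield_adjoin_eq_top : ℚ⟮jFull N⟯⟮jNFull N⟯ = ⊤ := by
  haveI := finiteDimensional_FF N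
  apply IntermediateField.eq_of_le_of_finrank_eq le_top
  rw [IntermediateField.finrank_top', ratfield_finrank_adjoin, finrank_FF]
  exact le_antisymm
    (by rw [← finrank_FF N, ← ratfield_finrank_adjoin N]
        exact Submodule.finrank_le (ℚ⟮jFull N⟯⟮jNFull N⟯).toSubalgebra.toSubmodule)
    (ratfield_le_natDegree_minpoly N)

/-- `F = ℚ(j)(j(q^N))` with the power basis `1, j_N, …, j_N^(n-1)`. -/
theorem exists_powerBasis_jNFull :
    ∃ pb : PowerBasis ℚ⟮jFull N⟯ (FF N), pb.gen = jNFull N ∧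
      pb.dim = Nat.card (SL(2, ℤ) ⧸ CongruenceSubgroup.Gamma0 N) := by
  haveI := finiteDimensional_FF N
  let pb0 := IntermediateField.adjoin.powerBasis (ratfield_isIntegral_jNFull N)
  let e : ℚ⟮jFull N⟯⟮jNFull N⟯ ≃ₐ[ℚ⟮jFull N⟯] FF N :=
    (IntermediateField.equivOfEq (ratfield_adjoin_eq_top N)).trans IntermediateField.topEquiv
  refine ⟨pb0.map e, ?_, ?_⟩
  · rw [PowerBasis.map_gen]
    rfl
  · rw [PowerBasis.map_dim]
    have h1 : pb0.dim = (minpoly ℚ⟮jFull N⟯ (jNFull N)).natDegree := rfl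
    rw [h1, ← ratfield_finrank_adjoin N, ratfield_adjoin_eq_top N, IntermediateField.finrank_top',
      finrank_FF]

end Fermat.Agent.S28
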