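import Mathlib
import Fermat.Agent.S28.RatField
import Fermat.Agent.S28.ConjJN
import Fermat.Agent.S28.Basic

/-!
# S28 : context-free `conjEmb`-side facts used by both charts (L6c / L6d)

No instances, no algebra structures: only statements about the ring homs
`conjEmb N g : FF N →+* QBar((s))`, `serO ℓ`, `serRed ℓ`, `serZl ℓ`, `serZlRed ℓ`.
All names are prefixed `chartconj_`.
-/

set_option autoImplicit false
set_option linter.unusedSectionVars false

noncomputable section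

namespace Fermat.Agent.S28

open UpperHalfPlane ModularCurve ModularCurve.IgusaScheme Fermat.Agent.S24
open scoped MatrixGroups

variable (N : ℕ) [NeZero N] (ℓ : ℕ) [Fact ℓ.Prime]

/-! ### `h₂` : the conjugates of `j(q^N)` have `ℓ`-integral expansions -/

/-- the expansion of the conjugate `g` of `j(q^N)` has coefficients in `OBar ℓ` and no terms below
`s^(-N²)`. -/
theorem chartconj_exists_serO (g : SL(2, ℤ)) :
    ∃ S : LaurentSeries (OBar ℓ), serO ℓ S = conjEmb N g (jNFull N) ∧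
      ((g • jdHol N : HolRing), S) ∈ IntPair N ℓ ∧
      ∀ m : ℤ, m < -((N : ℤ) * N) → S.coeff m = 0 := by
  obtain ⟨S, hS, hlt⟩ := exists_intPair_jN N ℓ g
  refine ⟨S, ?_, hS, hlt⟩
  rw [mem_IntPair] at hS
  exact coeffMap_iotaBar_injective (hS.unique (hasCuspExp_conjEmb_jNFull N g))

theorem chartconj_mem_range (g : SL(2, ℤ)) : conjEmb N g (jNFull N) ∈ (serO ℓ).range := by
  obtain ⟨S, hS, -, -⟩ := chartconj_exists_serO N ℓ g
  exact ⟨S, hS⟩

/-! ### `h₃` : differences of distinct conjugates are units of `OBar((s))` -/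

theorem chartconj_isUnit_sub (hℓN : ¬ ℓ ∣ N) (g g' : SL(2, ℤ))
    (h : g⁻¹ * g' ∉ CongruenceSubgroup.Gamma0 N) :
    ∃ w : LaurentSeries (OBar ℓ),
      serO ℓ w * (conjEmb N g (jNFull N) - conjEmb N g' (jNFull N)) = 1 := by
  obtain ⟨S, hS, hSp, -⟩ := chartconj_exists_serO N ℓ g
  obtain ⟨S', hS', hSp', -⟩ := chartconj_exists_serO N ℓ g'
  obtain ⟨m, hm⟩ := hasUnitLead_sub_jN N ℓ hℓN g g' h S S' hSp hSp'
  obtain ⟨w, hw⟩ := hm.isUnit.exists_left_inv
  refine ⟨w, ?_⟩
  rw [← hS, ← hS', ← map_sub, ← map_mul, hw, map_one]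

/-- the unit-lead version (gives also the order of the reduction). -/
theorem chartconj_hasUnitLead_sub (hℓN : ¬ ℓ ∣ N) (g g' : SL(2, ℤ))
    (h : g⁻¹ * g' ∉ CongruenceSubgroup.Gamma0 N) :
    ∃ (D : LaurentSeries (OBar ℓ)) (m : ℤ),
      serO ℓ D = conjEmb N g (jNFull N) - conjEmb N g' (jNFull N) ∧ HasUnitLead D m := by
  obtain ⟨S, hS, hSp, -⟩ := chartconj_exists_serO N ℓ g
  obtain ⟨S', hS', hSp', -⟩ := chartconj_exists_serO N ℓ g'
  obtain ⟨m, hm⟩ := hasUnitLead_sub_jN N ℓ hℓN g g' h S S' hSp hSp'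
  exact ⟨S - S', m, by rw [map_sub, hS, hS'], hm⟩

/-! ### `h₁` : `j(s^N)`, its inverse and the constants of `ℤ_(ℓ)` -/

/-- `j(s^N)` over `OBar ℓ`. -/
def chartconjJ : LaurentSeries (OBar ℓ) := qExpand (OBar ℓ) N (jqModC (OBar ℓ))

theorem chartconj_coeffEmb_jq : coeffEmb QBar jq = jqModC QBar := by
  have h : coeffMap (algebraMap ℚ QBar) (jqModC ℚ) = jqModC QBar := coeffMap_jqModC _
  rw [← h]
  rfl

theorem chartconj_serO_J (g : SL(2, ℤ)) :
    serO ℓ (chartconjJ N ℓ) = conjEmb N g (jFull N) := by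
  rw [conjEmb_jFull, chartconjJ, serO, coeffMap_qExpand, coeffMap_jqModC, chartconj_coeffEmb_jq]

theorem chartconj_jFull_mem_range (g : SL(2, ℤ)) : conjEmb N g (jFull N) ∈ (serO ℓ).range :=
  ⟨chartconjJ N ℓ, chartconj_serO_J N ℓ g⟩

theorem chartconj_C_mem_range (c : Zl ℓ) :
    HahnSeries.C (algebraMap ℚ QBar (c : ℚ)) ∈ (serO ℓ).range := by
  refine ⟨HahnSeries.C (zlToO ℓ c), ?_⟩
  rw [serO, HahnSeries.C_apply, HahnSeries.C_apply, coeffMap_single]
  rfl

/-- `j(s^N) = s^(-N) + …` has unit leading coefficient. -/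
theorem chartconj_hasUnitLead_J : HasUnitLead (chartconjJ N ℓ) (-(N : ℤ)) := by
  constructor
  · have h : (chartconjJ N ℓ).coeff (-(N : ℤ)) = 1 := by
      rw [show (-(N : ℤ)) = (N : ℤ) * (-1) by ring, chartconjJ, qExpand_coeff_mul,
        coeff_jqModC_neg_one]
    rw [h]
    exact isUnit_one
  · intro i hi
    by_cases hdvd : (N : ℤ) ∣ i
    · obtain ⟨k, rfl⟩ := hdvd
      rw [chartconjJ, qExpand_coeff_mul]
      apply coeff_jqModC_of_lt
      have hN : (0 : ℤ) < N := by exact_mod_cast Nat.pos_of_ne_zero (NeZero.ne N)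
      nlinarith
    · rw [chartconjJ, qExpand_coeff_of_not_dvd _ _ hdvd]

/-- the inverse of `j(s^N)` in `OBar((s))`. -/
theorem chartconj_exists_inv_J :
    ∃ W : LaurentSeries (OBar ℓ), W * chartconjJ N ℓ = 1 ∧ HasUnitLead W (N : ℤ) := by
  have hJ := chartconj_hasUnitLead_J N ℓ
  obtain ⟨W, hW⟩ := hJ.isUnit.exists_left_inv
  refine ⟨W, hW, ?_⟩
  have hJo : (chartconjJ N ℓ).order = -(N : ℤ) := basic_order_eq hJ.1.ne_zero hJ.2
  have hJl : (chartconjJ N ℓ).leadingCoeff = (chartconjJ N ℓ).coeff (-(N : ℤ)) := by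
    rw [HahnSeries.leadingCoeff_eq, hJo]
  have hJ1 : (chartconjJ N ℓ).leadingCoeff = 1 := by
    rw [hJl, show (-(N : ℤ)) = (N : ℤ) * (-1) by ring, chartconjJ, qExpand_coeff_mul,
      coeff_jqModC_neg_one]
  have hW0 : W ≠ 0 := by
    intro h0
    rw [h0, zero_mul] at hW
    exact zero_ne_one hW
  have hWl : W.leadingCoeff ≠ 0 := HahnSeries.leadingCoeff_ne_zero.mpr hW0
  have hne : W.leadingCoeff * (chartconjJ N ℓ).leadingCoeff ≠ 0 := by
    rw [hJ1, mul_one]; exact hWl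
  have hord : W.order + (chartconjJ N ℓ).order = 0 := by
    rw [← HahnSeries.order_mul_of_ne_zero hne, hW, HahnSeries.order_one]
  have hWo : W.order = (N : ℤ) := by rw [hJo] at hord; linarith
  have hlead : W.leadingCoeff * (chartconjJ N ℓ).leadingCoeff = 1 := by
    have h1 := HahnSeries.leadingCoeff_mul_of_ne_zero hne
    rw [hW, HahnSeries.leadingCoeff_one] at h1
    exact h1.symm
  refine ⟨?_, fun i hi => HahnSeries.coeff_eq_zero_of_lt_order (by rw [hWo]; exact hi)⟩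
  rw [← hWo, ← HahnSeries.leadingCoeff_eq]
  rw [hJ1, mul_one] at hlead
  rw [hlead]
  exact isUnit_one

theorem chartconj_inv_jFull_mem_range (g : SL(2, ℤ)) :
    (conjEmb N g (jFull N))⁻¹ ∈ (serO ℓ).range := by
  obtain ⟨W, hW, -⟩ := chartconj_exists_inv_J N ℓ
  refine ⟨W, ?_⟩
  have h1 : serO ℓ W * conjEmb N g (jFull N) = 1 := by
    rw [← chartconj_serO_J N ℓ g, ← map_mul, hW, map_one]
  exact eq_inv_of_mul_eq_one_left h1

/-! ### transfer `ℚ((q)) ↔ QBar((s))` along `conjEmb N 1` -/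

theorem chartconj_conjEmb_one_coeff_mul (x : FF N) (k : ℤ) :
    (conjEmb N 1 x).coeff ((N : ℤ) * k) = algebraMap ℚ QBar ((x : LaurentSeries ℚ).coeff k) := by
  rw [conjEmb_one, qExpand_coeff_mul, coeffEmb_coeff]

/-- (T1) if the first conjugate of `x` is `ℓ`-integral then so is the `q`-expansion of `x`. -/
theorem chartconj_mem_serZl (x : FF N) (h : conjEmb N 1 x ∈ (serO ℓ).range) :
    ((x : FF N) : LaurentSeries ℚ) ∈ (serZl ℓ).range := by
  rw [mem_range_serO_iff] at h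
  rw [mem_range_serZl_iff]
  intro m
  apply mem_zl_of_mem_OBar
  rw [← chartconj_conjEmb_one_coeff_mul]
  exact h _

/-- the series `S(s^N)` over `OBar ℓ` attached to `S ∈ ℤ_(ℓ)((q))`. -/
def chartconjLift (S : LaurentSeries (Zl ℓ)) : LaurentSeries (OBar ℓ) :=
  qExpand (OBar ℓ) N (coeffMap (zlToO ℓ) S)

theorem chartconj_serO_lift (x : FF N) (S : LaurentSeries (Zl ℓ))
    (hS : serZl ℓ S = ((x : FF N) : LaurentSeries ℚ)) :
    serO ℓ (chartconjLift N ℓ S) = conjEmb N 1 x := by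
  rw [conjEmb_one, chartconjLift, serO, coeffMap_qExpand, coeffMap_coeffMap, ← hS]
  congr 1

theorem chartconj_serRed_lift (S : LaurentSeries (Zl ℓ)) :
    serRed ℓ (chartconjLift N ℓ S) =
      qExpand (kBar ℓ) N (coeffMap (ZMod.castHom (dvd_refl ℓ) (kBar ℓ)) (serZlRed ℓ S)) := by
  rw [chartconjLift, serRed, coeffMap_qExpand, coeffMap_coeffMap, serZlRed, coeffMap_coeffMap]
  congr 1
  apply coeffMap_congr
  ext c
  exact redBar_zlToO ℓ c

/-- (T2) a `q`-expansion which is `0` mod `ℓ` gives a first conjugate which reduces to `0`. -/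
theorem chartconj_exists_red (x : FF N) (S : LaurentSeries (Zl ℓ))
    (hS : serZl ℓ S = ((x : FF N) : LaurentSeries ℚ)) (hred : serZlRed ℓ S = 0) :
    ∃ y : LaurentSeries (OBar ℓ), serO ℓ y = conjEmb N 1 x ∧ serRed ℓ y = 0 :=
  ⟨chartconjLift N ℓ S, chartconj_serO_lift N ℓ x S hS, by
    rw [chartconj_serRed_lift, hred, map_zero, map_zero]⟩

/-- (T3) converse of (T2). -/
theorem chartconj_serZlRed_eq_zero (x : FF N) (y : LaurentSeries (OBar ℓ))
    (hy : serO ℓ y = conjEmb N 1 x) (hred : serRed ℓ y = 0) (S : LaurentSeries (Zl ℓ))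
    (hS : serZl ℓ S = ((x : FF N) : LaurentSeries ℚ)) : serZlRed ℓ S = 0 := by
  have h1 : y = chartconjLift N ℓ S := by
    apply serO_injective
    rw [hy, chartconj_serO_lift N ℓ x S hS]
  rw [h1, chartconj_serRed_lift] at hred
  have h2 := (map_eq_zero_iff _ (qExpand_injective (R := kBar ℓ) N)).mp hred
  ext m
  have h3 := congrArg (fun U : LaurentSeries (kBar ℓ) => U.coeff m) h2
  simp only [coeffMap_coeff, HahnSeries.coeff_zero] at h3
  rw [HahnSeries.coeff_zero]
  exact (map_eq_zero_iff _ (RingHom.injective (ZMod.castHom (dvd_refl ℓ) (kBar ℓ)))).mp h3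

/-- the full transfer: `x` has an `ℓ`-integral first conjugate reducing to `0` iff its
`q`-expansion is `ℓ`-integral and reduces to `0`. -/
theorem chartconj_exists_serZl (x : FF N) (y : LaurentSeries (OBar ℓ))
    (hy : serO ℓ y = conjEmb N 1 x) :
    ∃ S : LaurentSeries (Zl ℓ), serZl ℓ S = ((x : FF N) : LaurentSeries ℚ) ∧
      (serRed ℓ y = 0 → serZlRed ℓ S = 0) := by
  obtain ⟨S, hS⟩ := chartconj_mem_serZl N ℓ x ⟨y, hy⟩
  exact ⟨S, hS, fun hred => chartconj_serZlRed_eq_zero N ℓ x y hy hred S hS⟩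

/-! ### the coset-indexed family of conjugate embeddings -/

section Family

variable {ι : Type*} (e : ι ≃ SL(2, ℤ) ⧸ CongruenceSubgroup.Gamma0 N)

theorem chartconj_out_inv_mul_out_not_mem {i j : ι} (hij : i ≠ j) :
    (e i).out⁻¹ * (e j).out ∉ CongruenceSubgroup.Gamma0 N := by
  intro h
  apply hij
  apply e.injective
  have h1 := (QuotientGroup.eq (s := CongruenceSubgroup.Gamma0 N)).mpr h
  rwa [QuotientGroup.out_eq', QuotientGroup.out_eq'] at h1

/-- `hσ` : the conjugates of `j(q^N)` along a system of coset representatives are distinct. -/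
theorem chartconj_fin_injective :
    Function.Injective fun i : ι => conjEmb N (e i).out (jNFull N) := by
  intro i j h
  by_contra hij
  exact chartconj_out_inv_mul_out_not_mem N e hij
    (mem_Gamma0_of_conjEmb_jNFull_eq N _ _ h)

/-- `h₃` in family form. -/
theorem chartconj_fin_isUnit_sub (hℓN : ¬ ℓ ∣ N) (i j : ι) (hij : i ≠ j) :
    ∃ w : LaurentSeries (OBar ℓ), serO ℓ w *
      (conjEmb N (e i).out (jNFull N) - conjEmb N (e j).out (jNFull N)) = 1 :=
  chartconj_isUnit_sub N ℓ hℓN _ _ (chartconj_out_inv_mul_out_not_mem N e hij)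

/-- the index `i₀` of the trivial coset: its embedding is the `q`-expansion `conjEmb N 1`. -/
theorem chartconj_fin_conjEmb_one :
    conjEmb N (e (e.symm ((1 : SL(2, ℤ)) : SL(2, ℤ) ⧸ CongruenceSubgroup.Gamma0 N))).out =
      conjEmb N 1 := by
  rw [Equiv.apply_symm_apply]
  have h1 : (1 : SL(2, ℤ))⁻¹ *
      (((1 : SL(2, ℤ)) : SL(2, ℤ) ⧸ CongruenceSubgroup.Gamma0 N)).out ∈
        CongruenceSubgroup.Gamma0 N := by
    rw [← QuotientGroup.eq, QuotientGroup.out_eq']
  rw [inv_one, one_mul] at h1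
  have h2 := conjEmb_mul_of_mem_Gamma0 N 1 _ h1
  rwa [one_mul] at h2

theorem chartconj_fin_exists_one : ∃ i₀ : ι, conjEmb N (e i₀).out = conjEmb N 1 :=
  ⟨_, chartconj_fin_conjEmb_one N e⟩

end Family

end Fermat.Agent.S28
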