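import Mathlib
import Fermat.Agent.S28.ConjDefs

/-!
# S28, charts: the base rings `ℤ_(ℓ)[t]`, `t = j` or `t = 1/j`

* `ℤ_(ℓ)` is a valuation ring with fraction field `ℚ`, hence integrally closed;
* for `t : F` transcendental over `ℚ`, `R₀ = Algebra.adjoin ℤ_(ℓ) {t}` is isomorphic to a
  polynomial ring, hence an integrally closed domain;
* if `K₀ = ℚ(t)` then `K₀` is the fraction field of `R₀`.
-/

set_option autoImplicit false
set_option linter.unusedSectionVars false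

noncomputable section

namespace Fermat.Agent.S28

open ModularCurve ModularCurve.IgusaScheme Fermat.Agent.S24 IntermediateField Polynomial

section Zl

variable (ℓ : ℕ) [Fact ℓ.Prime]

instance chartR_faithfulSMul_zl : FaithfulSMul (Zl ℓ) ℚ :=
  (faithfulSMul_iff_algebraMap_injective (Zl ℓ) ℚ).2 Subtype.val_injective

theorem chartR_intCast_mem (n : ℤ) : (n : ℚ) ∈ GaloisRep.ratLocalizedAt ℓ :=
  intCast_mem _ n

instance chartR_isFractionRing_zl : IsFractionRing (Zl ℓ) ℚ := by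
  refine IsFractionRing.of_field (Zl ℓ) ℚ fun z => ?_
  refine ⟨⟨(z.num : ℚ), chartR_intCast_mem ℓ _⟩, ⟨((z.den : ℤ) : ℚ), chartR_intCast_mem ℓ _⟩, ?_⟩
  show z = (z.num : ℚ) / ((z.den : ℤ) : ℚ)
  rw [Int.cast_natCast, Rat.num_div_den]

theorem chartR_mem_or_inv_mem (x : ℚ) :
    x ∈ GaloisRep.ratLocalizedAt ℓ ∨ x⁻¹ ∈ GaloisRep.ratLocalizedAt ℓ := by
  have hℓ : ℓ.Prime := Fact.out
  by_cases h : x.den.Coprime ℓ
  · exact Or.inl h
  · right
    have hdvd : ℓ ∣ x.den := by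
      by_contra hnd
      exact h ((Nat.Prime.coprime_iff_not_dvd hℓ).2 hnd).symm
    have hnum : ¬ (ℓ : ℤ) ∣ x.num := by
      intro hd
      have h1 : ℓ ∣ x.num.natAbs := Int.natCast_dvd.1 hd
      have h2 := Nat.dvd_gcd h1 hdvd
      rw [x.reduced] at h2
      exact hℓ.one_lt.ne' (Nat.dvd_one.1 h2)
    show (x⁻¹).den.Coprime ℓ
    have hx0 : x ≠ 0 := by
      intro h0
      exact hnum (by rw [h0]; simp)
    rw [Rat.den_inv_of_ne_zero hx0]
    refine ((Nat.Prime.coprime_iff_not_dvd hℓ).2 ?_).symm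
    intro hd
    exact hnum (Int.natCast_dvd.2 hd)

instance chartR_valuationRing_zl : ValuationRing (Zl ℓ) := by
  rw [ValuationRing.iff_isInteger_or_isInteger (Zl ℓ) ℚ]
  intro x
  rcases chartR_mem_or_inv_mem ℓ x with h | h
  · exact Or.inl ⟨⟨x, h⟩, rfl⟩
  · exact Or.inr ⟨⟨x⁻¹, h⟩, rfl⟩

theorem chartR_isIntegrallyClosed_zl : IsIntegrallyClosed (Zl ℓ) := inferInstance

end Zl

section Adjoin

variable {N : ℕ} [NeZero N] (ℓ : ℕ) [Fact ℓ.Prime]

theorem chartR_algebraMap_zl_injective :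
    Function.Injective (algebraMap (Zl ℓ) (FF N)) := by
  rw [IsScalarTower.algebraMap_eq (Zl ℓ) ℚ (FF N)]
  exact (algebraMap ℚ (FF N)).injective.comp Subtype.val_injective

theorem chartR_transcendental {t : FF N} (ht : Transcendental ℚ t) : Transcendental (Zl ℓ) t :=
  ht.restrictScalars (R := Zl ℓ) Subtype.val_injective

/-- `ℤ_(ℓ)[t]` is a polynomial ring. -/
def chartREquiv {t : FF N} (ht : Transcendental ℚ t) :
    (Zl ℓ)[X] ≃ₐ[Zl ℓ] Algebra.adjoin (Zl ℓ) {t} :=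
  Polynomial.algEquivOfTranscendental (Zl ℓ) t (chartR_transcendental ℓ ht)

theorem chartR_isIntegrallyClosed {t : FF N} (ht : Transcendental ℚ t) :
    IsIntegrallyClosed (Algebra.adjoin (Zl ℓ) {t}) :=
  IsIntegrallyClosed.of_equiv (chartREquiv ℓ ht).toRingEquiv

/-- elements of `ℤ_(ℓ)[t]` are polynomials in `t`. -/
theorem chartR_exists_aeval {t : FF N} (x : Algebra.adjoin (Zl ℓ) {t}) :
    ∃ P : (Zl ℓ)[X], (x : FF N) = aeval t P := by
  obtain ⟨y, hy⟩ := x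
  rw [Algebra.adjoin_singleton_eq_range_aeval] at hy
  obtain ⟨P, hP⟩ := hy
  exact ⟨P, hP.symm⟩

theorem chartR_aeval_mem (t : FF N) (P : (Zl ℓ)[X]) : aeval t P ∈ Algebra.adjoin (Zl ℓ) {t} := by
  rw [Algebra.adjoin_singleton_eq_range_aeval]
  exact ⟨P, rfl⟩

variable (K₀ : IntermediateField ℚ (FF N))

theorem chartR_aeval_mem_field {t : FF N} (ht : t ∈ K₀) (P : (Zl ℓ)[X]) : aeval t P ∈ K₀ := by
  rw [aeval_def, eval₂_eq_sum_range]
  refine sum_mem fun i _ => mul_mem ?_ (pow_mem ht i)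
  rw [IsScalarTower.algebraMap_apply (Zl ℓ) ℚ (FF N)]
  exact K₀.algebraMap_mem _

theorem chartR_adjoin_le {t : FF N} (ht : t ∈ K₀) (x : Algebra.adjoin (Zl ℓ) {t}) :
    (x : FF N) ∈ K₀ := by
  obtain ⟨P, hP⟩ := chartR_exists_aeval ℓ x
  rw [hP]
  exact chartR_aeval_mem_field ℓ K₀ ht P

/-- the inclusion `ℤ_(ℓ)[t] → K₀`. -/
def chartRToField {t : FF N} (ht : t ∈ K₀) : Algebra.adjoin (Zl ℓ) {t} →+* K₀ :=
  (Algebra.adjoin (Zl ℓ) {t}).val.toRingHom.codRestrict K₀ (chartR_adjoin_le ℓ K₀ ht)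

@[simp] theorem chartRToField_coe {t : FF N} (ht : t ∈ K₀) (x : Algebra.adjoin (Zl ℓ) {t}) :
    ((chartRToField ℓ K₀ ht x : K₀) : FF N) = x := rfl

theorem chartRToField_injective {t : FF N} (ht : t ∈ K₀) :
    Function.Injective (chartRToField ℓ K₀ ht) := by
  intro x y h
  apply Subtype.ext
  have := congrArg (fun z : K₀ => (z : FF N)) h
  exact this

/-- `K₀ = ℚ(t)` is the fraction field of `ℤ_(ℓ)[t]`. -/
theorem chartR_isFractionRing {t : FF N} (ht : t ∈ K₀) (hK : K₀ = ℚ⟮t⟯) :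
    @IsFractionRing (Algebra.adjoin (Zl ℓ) {t}) _ K₀ _ (chartRToField ℓ K₀ ht).toAlgebra := by
  let _ : Algebra (Algebra.adjoin (Zl ℓ) {t}) K₀ := (chartRToField ℓ K₀ ht).toAlgebra
  have : FaithfulSMul (Algebra.adjoin (Zl ℓ) {t}) K₀ :=
    (faithfulSMul_iff_algebraMap_injective _ _).2 (chartRToField_injective ℓ K₀ ht)
  refine IsFractionRing.of_field _ _ fun z => ?_
  have hz : (z : FF N) ∈ ℚ⟮t⟯ := hK ▸ z.2
  obtain ⟨r, s, hrs⟩ := (mem_adjoin_simple_iff ℚ (z : FF N)).1 hz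
  obtain ⟨br, hbrm, hbr⟩ := IsLocalization.integerNormalization_spec (nonZeroDivisors ℤ) r
  obtain ⟨bs, hbsm, hbs⟩ := IsLocalization.integerNormalization_spec (nonZeroDivisors ℤ) s
  set r' := IsLocalization.integerNormalization (nonZeroDivisors ℤ) r
  set s' := IsLocalization.integerNormalization (nonZeroDivisors ℤ) s
  have hbr0 : ((br : ℤ) : ℚ) ≠ 0 := by exact_mod_cast nonZeroDivisors.ne_zero hbrm
  have hbs0 : ((bs : ℤ) : ℚ) ≠ 0 := by exact_mod_cast nonZeroDivisors.ne_zero hbsm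
  -- integer polynomials as polynomials over `ℤ_(ℓ)`
  have key : ∀ (p : ℚ[X]) (p' : ℤ[X]) (b : ℤ), p'.map (algebraMap ℤ ℚ) = b • p →
      aeval t (p'.map (Int.castRingHom (Zl ℓ))) = (b : FF N) * aeval t p := by
    intro p p' b h
    have h1 : aeval t (p'.map (Int.castRingHom (Zl ℓ))) = aeval t (p'.map (algebraMap ℤ ℚ)) := by
      rw [aeval_def, aeval_def, eval₂_map, eval₂_map]
      congr 1
    rw [h1, h, zsmul_eq_mul, map_mul, map_intCast]
  have hr := key r r' br hbr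
  have hs := key s s' bs hbs
  refine ⟨⟨_, chartR_aeval_mem ℓ t ((C ((bs : ℤ) : Zl ℓ)) * r'.map (Int.castRingHom (Zl ℓ)))⟩,
    ⟨_, chartR_aeval_mem ℓ t ((C ((br : ℤ) : Zl ℓ)) * s'.map (Int.castRingHom (Zl ℓ)))⟩, ?_⟩
  apply Subtype.ext
  have hcast : ∀ b : ℤ, (algebraMap (Zl ℓ) (FF N)) (b : Zl ℓ) = (b : FF N) := fun b => by
    rw [map_intCast]
  show (z : FF N) = _
  rw [IntermediateField.coe_div]
  show (z : FF N) = aeval t (C ((bs : ℤ) : Zl ℓ) * r'.map (Int.castRingHom (Zl ℓ))) /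
    aeval t (C ((br : ℤ) : Zl ℓ) * s'.map (Int.castRingHom (Zl ℓ)))
  rw [map_mul, map_mul, aeval_C, aeval_C, hcast, hcast, hr, hs, hrs]
  have h1 : ((br : ℤ) : FF N) ≠ 0 := by
    have : ((br : ℤ) : FF N) = algebraMap ℚ (FF N) ((br : ℤ) : ℚ) := by rw [map_intCast]
    rw [this]
    exact (_root_.map_ne_zero _).2 hbr0
  have h2 : ((bs : ℤ) : FF N) ≠ 0 := by
    have : ((bs : ℤ) : FF N) = algebraMap ℚ (FF N) ((bs : ℤ) : ℚ) := by rw [map_intCast]
    rw [this]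
    exact (_root_.map_ne_zero _).2 hbs0
  by_cases hs0 : aeval t s = 0
  · rw [hs0, mul_zero, mul_zero, div_zero, div_zero]
  · field_simp

end Adjoin

end Fermat.Agent.S28
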