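import Mathlib
import Fermat.Agent.S28.RatFieldSpec
import Fermat.Agent.S28.QEPAbstractSpec
import Fermat.Agent.S28.BasicSpec
import Fermat.Agent.S28.ChartRing
import Fermat.Prelude.Thm_ModularCurve_coeffMap_qExpand

/-!
# S28 : generic instantiation of `qep_abstract` for a chart `ℤ_(ℓ)[t]`, `ℚ(t) = ℚ(j)`

`chartG_main` : for `t ∈ F` transcendental with `ℚ(t) = ℚ(j)`, a power basis of `F / ℚ(j)` with
generator `θ` integral over `ℤ_(ℓ)[t]`, such that the expansions of `t` and of all the conjugates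
of `θ` have coefficients in `OBar ℓ`, differences of distinct conjugates are units, and the
"`h₄`" hypothesis holds: the two conclusions of the `q`-expansion principle for
`chartAlg N ℓ {t}`.
-/

set_option autoImplicit false
set_option linter.unusedSectionVars false

noncomputable section

namespace Fermat.Agent.S28

open UpperHalfPlane ModularCurve ModularCurve.IgusaScheme Fermat.Agent.S24 Polynomial
open scoped MatrixGroups IntermediateField

variable (N : ℕ) [NeZero N] (ℓ : ℕ) [Fact ℓ.Prime]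

/-! ### transfer between `ℚ((q))` and `QBar((s))` -/

/-- `subtype ∘ zlToO = algebraMap ℚ QBar ∘ subtype`. -/
theorem chartG_subtype_comp_zlToO :
    (OBar ℓ).subtype.comp (zlToO ℓ) =
      (algebraMap ℚ QBar).comp (GaloisRep.ratLocalizedAt ℓ).subtype := rfl

/-- the `OBar((s))`-lift of the expansion `x(s^N)` of a series `x` with `ℓ`-integral coefficients. -/
def chartGLift (S : LaurentSeries (Zl ℓ)) : LaurentSeries (OBar ℓ) :=
  qExpand (OBar ℓ) N (coeffMap (zlToO ℓ) S)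

theorem serO_chartGLift (S : LaurentSeries (Zl ℓ)) :
    serO ℓ (chartGLift N ℓ S) = qExpand QBar N (coeffEmb QBar (serZl ℓ S)) := by
  unfold chartGLift serO serZl coeffEmb
  rw [coeffMap_qExpand, coeffMap_coeffMap, coeffMap_coeffMap, chartG_subtype_comp_zlToO]

theorem serRed_chartGLift (S : LaurentSeries (Zl ℓ)) (hS : serZlRed ℓ S = 0) :
    serRed ℓ (chartGLift N ℓ S) = 0 := by
  unfold chartGLift serRed
  rw [coeffMap_qExpand, coeffMap_coeffMap]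
  have h : (redBar ℓ).comp (zlToO ℓ) = (ZMod.castHom (dvd_refl ℓ) (kBar ℓ)).comp (zlRed ℓ) :=
    zl_ringHom_ext ℓ _ _
  rw [h, ← coeffMap_coeffMap]
  have h2 : coeffMap (zlRed ℓ) S = 0 := hS
  rw [h2, map_zero, map_zero]

/-- if `x(s^N)` has coefficients in `OBar ℓ` then `x` has coefficients in `ℤ_(ℓ)`. -/
theorem chartG_mem_range_serZl (x : LaurentSeries ℚ)
    (h : qExpand QBar N (coeffEmb QBar x) ∈ (serO ℓ).range) : x ∈ (serZl ℓ).range := by
  rw [mem_range_serZl_iff]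
  rw [mem_range_serO_iff] at h
  intro m
  apply mem_zl_of_mem_OBar
  have := h ((N : ℤ) * m)
  rwa [qExpand_coeff_mul, coeffEmb_coeff] at this

/-! ### the `K₀`-algebra structure on `QBar((s))` and the conjugate embeddings -/

/-- `QBar((s))` as an algebra over `K₀ = ℚ(j)` through `conjEmb N 1`. -/
abbrev chartGAlgE : Algebra ℚ⟮jFull N⟯ (LaurentSeries QBar) :=
  ((conjEmb N 1).comp (algebraMap ℚ⟮jFull N⟯ (FF N))).toAlgebra

/-- the conjugate embeddings are `K₀`-algebra maps. -/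
def chartGSigma (g : SL(2, ℤ)) :
    @AlgHom ℚ⟮jFull N⟯ (FF N) (LaurentSeries QBar) _ _ _ _ (chartGAlgE N) :=
  letI := chartGAlgE N
  { conjEmb N g with commutes' := fun e => conjEmb_algebraMap_adjoin N g 1 e }

theorem chartGSigma_apply (g : SL(2, ℤ)) (x : FF N) :
    (letI := chartGAlgE N; chartGSigma N g x) = conjEmb N g x := rfl

/-- the expansion of an element of `ℤ_(ℓ)[t]`. -/
theorem chartG_conjEmb_aeval (g : SL(2, ℤ)) (t : FF N) (T : LaurentSeries (OBar ℓ))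
    (hT : serO ℓ T = conjEmb N g t) (P : (Zl ℓ)[X]) :
    conjEmb N g (aeval t P) = serO ℓ (P.eval₂ (HahnSeries.C.comp (zlToO ℓ)) T) := by
  rw [aeval_def, Polynomial.hom_eval₂, Polynomial.hom_eval₂, hT]
  congr 1
  exact zl_ringHom_ext ℓ _ _

set_option synthInstance.maxHeartbeats 400000 in
set_option maxHeartbeats 1000000 in
/-- The generic chart theorem. -/
theorem chartG_main (t : FF N) (ht : Transcendental ℚ t) (htK : t ∈ ℚ⟮jFull N⟯)
    (hK : ℚ⟮jFull N⟯ = ℚ⟮t⟯)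
    (pb : PowerBasis ℚ⟮jFull N⟯ (FF N))
    (hdim : pb.dim = Nat.card (SL(2, ℤ) ⧸ CongruenceSubgroup.Gamma0 N))
    (hθ : IsIntegral (Algebra.adjoin (Zl ℓ) {t}) pb.gen)
    (T : LaurentSeries (OBar ℓ)) (hT : serO ℓ T = conjEmb N 1 t)
    (Θ : SL(2, ℤ) → LaurentSeries (OBar ℓ)) (hΘ : ∀ g, serO ℓ (Θ g) = conjEmb N g pb.gen)
    (h₃ : ∀ g g' : SL(2, ℤ), g⁻¹ * g' ∉ CongruenceSubgroup.Gamma0 N → IsUnit (Θ g - Θ g'))
    (h₄ : ∀ A : (Zl ℓ)[X][X], A.natDegree < pb.dim →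
      serRed ℓ (A.eval₂ (Polynomial.eval₂RingHom (HahnSeries.C.comp (zlToO ℓ)) T) (Θ 1)) = 0 →
      ∃ A' : (Zl ℓ)[X][X], A = C (C ((ℓ : ℕ) : Zl ℓ)) * A') :
    (∀ x : FF N, x ∈ chartAlg N ℓ {t} → ((x : FF N) : LaurentSeries ℚ) ∈ (serZl ℓ).range) ∧
    (∀ x : FF N, x ∈ chartAlg N ℓ {t} → ∀ S : LaurentSeries (Zl ℓ),
      serZl ℓ S = ((x : FF N) : LaurentSeries ℚ) → serZlRed ℓ S = 0 →
      ∃ y : FF N, y ∈ chartAlg N ℓ {t} ∧ x = ((ℓ : ℕ) : FF N) * y) := by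
  classical
  have hℓp : ℓ.Prime := Fact.out
  letI algE : Algebra ℚ⟮jFull N⟯ (LaurentSeries QBar) := chartGAlgE N
  letI algRK : Algebra (Algebra.adjoin (Zl ℓ) {t}) ℚ⟮jFull N⟯ :=
    (chartRToField ℓ ℚ⟮jFull N⟯ htK).toAlgebra
  haveI tower1 : IsScalarTower (Algebra.adjoin (Zl ℓ) {t}) ℚ⟮jFull N⟯ (FF N) :=
    IsScalarTower.of_algebraMap_eq fun _ => rfl
  letI algRE : Algebra (Algebra.adjoin (Zl ℓ) {t}) (LaurentSeries QBar) :=
    ((algebraMap ℚ⟮jFull N⟯ (LaurentSeries QBar)).comp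
      (algebraMap (Algebra.adjoin (Zl ℓ) {t}) ℚ⟮jFull N⟯)).toAlgebra
  haveI tower2 : IsScalarTower (Algebra.adjoin (Zl ℓ) {t}) ℚ⟮jFull N⟯ (LaurentSeries QBar) :=
    IsScalarTower.of_algebraMap_eq fun _ => rfl
  haveI : IsIntegrallyClosed (Algebra.adjoin (Zl ℓ) {t}) := chartR_isIntegrallyClosed ℓ ht
  haveI : IsFractionRing (Algebra.adjoin (Zl ℓ) {t}) ℚ⟮jFull N⟯ :=
    chartR_isFractionRing ℓ ℚ⟮jFull N⟯ htK hK
  haveI hfin := finite_quotient_Gamma0 N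
  -- the algebra map `R₀ → E`
  have halgRE : ∀ r : Algebra.adjoin (Zl ℓ) {t},
      algebraMap (Algebra.adjoin (Zl ℓ) {t}) (LaurentSeries QBar) r = conjEmb N 1 (r : FF N) :=
    fun r => rfl
  -- the family of embeddings
  let e : Fin pb.dim ≃ SL(2, ℤ) ⧸ CongruenceSubgroup.Gamma0 N :=
    (finCongr hdim).trans (Finite.equivFin _).symm
  let σ : Fin pb.dim → (FF N →ₐ[ℚ⟮jFull N⟯] LaurentSeries QBar) :=
    fun i => chartGSigma N (e i).out
  have hσapp : ∀ i x, σ i x = conjEmb N (e i).out x := fun i x => rfl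
  let i₀ : Fin pb.dim := e.symm ((1 : SL(2, ℤ)) : SL(2, ℤ) ⧸ CongruenceSubgroup.Gamma0 N)
  have hi₀ : ∀ x, σ i₀ x = conjEmb N 1 x := by
    intro x
    rw [hσapp]
    have h1 : ((e i₀).out : SL(2, ℤ) ⧸ CongruenceSubgroup.Gamma0 N) =
        ((1 : SL(2, ℤ)) : SL(2, ℤ) ⧸ CongruenceSubgroup.Gamma0 N) := by
      rw [QuotientGroup.out_eq']; exact e.apply_symm_apply _
    have h2 : (1 : SL(2, ℤ))⁻¹ * (e i₀).out ∈ CongruenceSubgroup.Gamma0 N :=
      QuotientGroup.eq.mp h1.symm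
    have h3 := conjEmb_mul_of_mem_Gamma0 N 1 _ h2
    rw [inv_one, one_mul, one_mul] at h3
    rw [h3]
  have hne : ∀ i j, i ≠ j → (e i).out⁻¹ * (e j).out ∉ CongruenceSubgroup.Gamma0 N := by
    intro i j hij hmem
    apply hij
    apply e.injective
    have := QuotientGroup.eq.mpr hmem
    rwa [QuotientGroup.out_eq', QuotientGroup.out_eq'] at this
  have hσ : Function.Injective fun i => σ i pb.gen := by
    intro i j hij
    by_contra hne'
    have h1 : σ i = σ j := pb.algHom_ext hij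
    have h2 : conjEmb N (e i).out (jNFull N) = conjEmb N (e j).out (jNFull N) := by
      rw [← hσapp, ← hσapp, h1]
    exact hne i j hne' (mem_Gamma0_of_conjEmb_jNFull_eq N _ _ h2)
  have h₁ : ∀ r : Algebra.adjoin (Zl ℓ) {t},
      algebraMap (Algebra.adjoin (Zl ℓ) {t}) (LaurentSeries QBar) r ∈ (serO ℓ).range := by
    intro r
    obtain ⟨P, hP⟩ := chartR_exists_aeval ℓ r
    rw [halgRE, hP, chartG_conjEmb_aeval N ℓ 1 t T hT P]
    exact ⟨_, rfl⟩
  have h₂ : ∀ i, σ i pb.gen ∈ (serO ℓ).range := fun i => ⟨Θ (e i).out, by rw [hΘ, hσapp]⟩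
  have h₃' : ∀ i j, i ≠ j → ∃ w : LaurentSeries (OBar ℓ),
      serO ℓ w * (σ i pb.gen - σ j pb.gen) = 1 := by
    intro i j hij
    obtain ⟨u, hu⟩ := h₃ _ _ (hne i j hij)
    refine ⟨((u⁻¹ : (LaurentSeries (OBar ℓ))ˣ) : LaurentSeries (OBar ℓ)), ?_⟩
    rw [hσapp, hσapp, ← hΘ, ← hΘ, ← map_sub, ← map_mul, ← hu, Units.inv_mul, map_one]
  -- `R₀` is a polynomial ring
  let eq := chartREquiv ℓ ht
  have heq : ∀ P : (Zl ℓ)[X], ((eq P : Algebra.adjoin (Zl ℓ) {t}) : FF N) = aeval t P := by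
    intro P
    show (Algebra.adjoin (Zl ℓ) {t}).val (aeval (⟨t, Algebra.self_mem_adjoin_singleton _ t⟩ :
      Algebra.adjoin (Zl ℓ) {t}) P) = _
    rw [← Polynomial.aeval_algHom_apply]
    rfl
  let ψ : (Zl ℓ)[X] →+* LaurentSeries (OBar ℓ) :=
    Polynomial.eval₂RingHom (HahnSeries.C.comp (zlToO ℓ)) T
  have hψ : ((serO ℓ).comp ψ).comp (eq.symm : Algebra.adjoin (Zl ℓ) {t} →+* (Zl ℓ)[X]) =
      algebraMap (Algebra.adjoin (Zl ℓ) {t}) (LaurentSeries QBar) := by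
    refine RingHom.ext fun r => ?_
    obtain ⟨P, rfl⟩ := eq.surjective r
    show serO ℓ (ψ (eq.symm (eq P))) = _
    rw [AlgEquiv.symm_apply_apply, halgRE, heq, chartG_conjEmb_aeval N ℓ 1 t T hT P]
    rfl
  have h₄' : ∀ A : Polynomial (Algebra.adjoin (Zl ℓ) {t}), A.natDegree < pb.dim →
      (∃ y : LaurentSeries (OBar ℓ), serO ℓ y = Polynomial.eval₂
        (algebraMap (Algebra.adjoin (Zl ℓ) {t}) (LaurentSeries QBar)) (σ i₀ pb.gen) A ∧
          serRed ℓ y = 0) →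
      ∃ A' : Polynomial (Algebra.adjoin (Zl ℓ) {t}),
        A = Polynomial.C (((ℓ : ℕ) : Algebra.adjoin (Zl ℓ) {t})) * A' := by
    rintro A hA ⟨y, hy, hy0⟩
    set A₂ : (Zl ℓ)[X][X] := A.map (eq.symm : Algebra.adjoin (Zl ℓ) {t} →+* (Zl ℓ)[X]) with hA₂
    have hdeg : A₂.natDegree = A.natDegree :=
      Polynomial.natDegree_map_eq_of_injective eq.symm.injective A
    have hval : serO ℓ (A₂.eval₂ ψ (Θ 1)) = Polynomial.eval₂
        (algebraMap (Algebra.adjoin (Zl ℓ) {t}) (LaurentSeries QBar)) (σ i₀ pb.gen) A := by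
      rw [Polynomial.hom_eval₂, hA₂, Polynomial.eval₂_map, hψ, hΘ, hi₀]
    have hy' : y = A₂.eval₂ ψ (Θ 1) := serO_injective ℓ (by rw [hy, hval])
    obtain ⟨A', hA'⟩ := h₄ A₂ (by rw [hdeg]; exact hA) (by rw [← hy']; exact hy0)
    refine ⟨A'.map (eq : (Zl ℓ)[X] →+* Algebra.adjoin (Zl ℓ) {t}), ?_⟩
    have h1 : A = A₂.map (eq : (Zl ℓ)[X] →+* Algebra.adjoin (Zl ℓ) {t}) := by
      rw [hA₂, Polynomial.map_map]
      have : (eq : (Zl ℓ)[X] →+* Algebra.adjoin (Zl ℓ) {t}).comp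
          (eq.symm : Algebra.adjoin (Zl ℓ) {t} →+* (Zl ℓ)[X]) = RingHom.id _ := by
        ext r; simp
      rw [this, Polynomial.map_id]
    rw [h1, hA', Polynomial.map_mul, Polynomial.map_C]
    congr 2
    show eq (C ((ℓ : ℕ) : Zl ℓ)) = _
    rw [Polynomial.C_eq_natCast]
    exact map_natCast eq ℓ
  have hℓE : ((ℓ : ℕ) : LaurentSeries QBar) ≠ 0 := by
    rw [← map_natCast (HahnSeries.C : QBar →+* LaurentSeries QBar)]
    intro h
    have h2 := HahnSeries.C_injective (Γ := ℤ) (R := QBar) (h.trans (map_zero _).symm)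
    exact hℓp.ne_zero (by exact_mod_cast h2)
  have hℓk : ((ℓ : ℕ) : LaurentSeries (kBar ℓ)) = 0 := by
    rw [← map_natCast (HahnSeries.C : kBar ℓ →+* LaurentSeries (kBar ℓ)), CharP.cast_eq_zero,
      map_zero]
  obtain ⟨C1, C2⟩ := qep_abstract ℓ (serO ℓ) (serO_injective ℓ) (serRed ℓ) hℓE hℓk pb hθ σ hσ i₀
    h₁ h₂ h₃' h₄'
  have hℓF : ((ℓ : ℕ) : FF N) ≠ 0 := by exact_mod_cast hℓp.ne_zero
  refine ⟨fun x hx => ?_, fun x hx S hS hred => ?_⟩
  · have h := C1 x hx i₀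
    rw [hi₀, conjEmb_one] at h
    exact chartG_mem_range_serZl N ℓ _ h
  · have h := C2 x hx ⟨chartGLift N ℓ S, by rw [serO_chartGLift, hS, hi₀, conjEmb_one],
      serRed_chartGLift N ℓ S hred⟩
    exact ⟨(((ℓ : ℕ) : FF N))⁻¹ * x, h, by rw [mul_inv_cancel_left₀ hℓF]⟩

end Fermat.Agent.S28
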