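import Mathlib
import Fermat.Agent.S28.KeySpec
import Fermat.Agent.S28.RatFieldSpec

/-!
# S28 : hypothesis `h₄` of `qep_abstract` from `key_irreducible` (both charts)

Polynomial-ring form, free of the algebra structures chosen in the chart files.
`A ∈ ℤ_(ℓ)[X][T]` with `deg_T A < n`; if `A(t, x)` (evaluated in `OBar((s))`) reduces to `0` in
`kBar((s))` then all coefficients of `A` are divisible by `ℓ`.  Here `(t, x)` is
`(j(s^N), j(s^(N²)))` for the finite chart and `(1/j(s^N), j(s^(N²))/j(s^N)^N)` for the chart at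
infinity.
-/

set_option autoImplicit false
set_option linter.unusedSectionVars false

noncomputable section

namespace Fermat.Agent.S28

open UpperHalfPlane ModularCurve ModularCurve.IgusaScheme Fermat.Agent.S24
open scoped MatrixGroups

variable (N : ℕ) [NeZero N] (ℓ : ℕ) [Fact ℓ.Prime]

/-- `𝔽_ℓ → kBar ℓ`. -/
def chartH4_iotaK : ZMod ℓ →+* kBar ℓ := ZMod.castHom (dvd_refl ℓ) (kBar ℓ)

/-- `𝔽_ℓ((q)) → kBar((s))`, `q ↦ s^N`. -/
def chartH4_Theta : LaurentSeries (ZMod ℓ) →+* LaurentSeries (kBar ℓ) :=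
  (qExpand (kBar ℓ) N).comp (coeffMap (chartH4_iotaK ℓ))

theorem chartH4_Theta_injective : Function.Injective (chartH4_Theta N ℓ) :=
  (qExpand_injective N).comp (deg_coeffMap_injective _ (RingHom.injective _))

/-- Evaluation `ℤ_(ℓ)[X] → OBar((s))`, `X ↦ t`. -/
def chartH4_psiO (t : LaurentSeries (OBar ℓ)) : Polynomial (Zl ℓ) →+* LaurentSeries (OBar ℓ) :=
  Polynomial.eval₂RingHom ((HahnSeries.C : OBar ℓ →+* LaurentSeries (OBar ℓ)).comp (zlToO ℓ)) t

/-- Evaluation `𝔽_ℓ[X] → 𝔽_ℓ((q))`, `X ↦ t`. -/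
def chartH4_psiF (t : LaurentSeries (ZMod ℓ)) : Polynomial (ZMod ℓ) →+* LaurentSeries (ZMod ℓ) :=
  Polynomial.eval₂RingHom (HahnSeries.C : ZMod ℓ →+* LaurentSeries (ZMod ℓ)) t

theorem chartH4_psiF_eq_aeval (t : LaurentSeries (ZMod ℓ)) :
    chartH4_psiF ℓ t = ((Polynomial.aeval t :
      Polynomial (ZMod ℓ) →ₐ[ZMod ℓ] LaurentSeries (ZMod ℓ)) :
        Polynomial (ZMod ℓ) →+* LaurentSeries (ZMod ℓ)) := by
  apply Polynomial.ringHom_ext
  · intro c
    simp only [chartH4_psiF, Polynomial.coe_eval₂RingHom, Polynomial.eval₂_C, RingHom.coe_coe,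
      Polynomial.aeval_C]
    rw [invRing_algebraMap_eq_single, HahnSeries.C_apply]
  · simp only [chartH4_psiF, Polynomial.coe_eval₂RingHom, Polynomial.eval₂_X, RingHom.coe_coe,
      Polynomial.aeval_X]

theorem chartH4_serRed_C (c : OBar ℓ) :
    serRed ℓ (HahnSeries.C c) = HahnSeries.C (redBar ℓ c) := by
  rw [serRed, HahnSeries.C_apply, coeffMap_single, HahnSeries.C_apply]

theorem chartH4_Theta_C (c : ZMod ℓ) :
    chartH4_Theta N ℓ (HahnSeries.C c) = HahnSeries.C (chartH4_iotaK ℓ c) := by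
  rw [chartH4_Theta, RingHom.comp_apply, HahnSeries.C_apply, coeffMap_single, qExpand_single,
    mul_zero, HahnSeries.C_apply]

theorem chartH4_serRed_psiO (t : LaurentSeries (OBar ℓ)) (tb : LaurentSeries (ZMod ℓ))
    (ht : serRed ℓ t = chartH4_Theta N ℓ tb) :
    (serRed ℓ).comp (chartH4_psiO ℓ t) =
      (chartH4_Theta N ℓ).comp
        ((chartH4_psiF ℓ tb).comp (Polynomial.mapRingHom (zlRed ℓ))) := by
  apply Polynomial.ringHom_ext
  · intro c
    simp only [RingHom.comp_apply, chartH4_psiO, chartH4_psiF, Polynomial.coe_eval₂RingHom,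
      Polynomial.eval₂_C, Polynomial.coe_mapRingHom, Polynomial.map_C]
    rw [chartH4_serRed_C, chartH4_Theta_C, redBar_zlToO]
    rfl
  · simp only [RingHom.comp_apply, chartH4_psiO, chartH4_psiF, Polynomial.coe_eval₂RingHom,
      Polynomial.eval₂_X, Polynomial.coe_mapRingHom, Polynomial.map_X]
    exact ht

/-- Reduction of `A(t, x)`. -/
theorem chartH4_eval (t x : LaurentSeries (OBar ℓ)) (tb xb : LaurentSeries (ZMod ℓ))
    (ht : serRed ℓ t = chartH4_Theta N ℓ tb) (hx : serRed ℓ x = chartH4_Theta N ℓ xb)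
    (A : Polynomial (Polynomial (Zl ℓ))) :
    serRed ℓ (A.eval₂ (chartH4_psiO ℓ t) x) =
      chartH4_Theta N ℓ
        ((A.map (Polynomial.mapRingHom (zlRed ℓ))).eval₂ (chartH4_psiF ℓ tb) xb) := by
  rw [Polynomial.hom_eval₂, chartH4_serRed_psiO N ℓ t tb ht, hx, Polynomial.eval₂_map,
    Polynomial.hom_eval₂]

theorem chartH4_dvd_of_map_eq_zero (A : Polynomial (Polynomial (Zl ℓ)))
    (h : A.map (Polynomial.mapRingHom (zlRed ℓ)) = 0) :
    ∃ A' : Polynomial (Polynomial (Zl ℓ)),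
      A = Polynomial.C (Polynomial.C (((ℓ : ℕ) : Zl ℓ))) * A' := by
  have hdvd : Polynomial.C (Polynomial.C (((ℓ : ℕ) : Zl ℓ))) ∣ A := by
    rw [Polynomial.C_dvd_iff_dvd_coeff]
    intro i
    rw [Polynomial.C_dvd_iff_dvd_coeff]
    intro j
    have h1 : zlRed ℓ ((A.coeff i).coeff j) = 0 := by
      have := congrArg (fun P : Polynomial (Polynomial (ZMod ℓ)) => (P.coeff i).coeff j) h
      simpa [Polynomial.coeff_map] using this
    have h2 : (A.coeff i).coeff j ∈ RingHom.ker (zlRed ℓ) := h1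
    rw [ker_zlRed, Ideal.mem_span_singleton] at h2
    exact h2
  exact hdvd

/-! ### The finite chart -/

theorem chartH4_serRed_jN :
    serRed ℓ (qExpand (OBar ℓ) N (jqModC (OBar ℓ))) = chartH4_Theta N ℓ (jqModC (ZMod ℓ)) := by
  rw [serRed, coeffMap_qExpand, coeffMap_jqModC, chartH4_Theta, RingHom.comp_apply,
    coeffMap_jqModC]

theorem chartH4_serRed_jNN :
    serRed ℓ (qExpand (OBar ℓ) N (qExpand (OBar ℓ) N (jqModC (OBar ℓ)))) =
      chartH4_Theta N ℓ (jqNModC (ZMod ℓ) N) := by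
  rw [serRed, coeffMap_qExpand, coeffMap_qExpand, coeffMap_jqModC, chartH4_Theta,
    RingHom.comp_apply, jqNModC, coeffMap_qExpand, coeffMap_jqModC]

/-- **`h₄` for the finite chart** (polynomial-ring form). -/
theorem chartH4_fin (hℓN : ¬ ℓ ∣ N) (A : Polynomial (Polynomial (Zl ℓ)))
    (hdeg : A.natDegree < Nat.card (SL(2, ℤ) ⧸ CongruenceSubgroup.Gamma0 N))
    (hred : serRed ℓ (A.eval₂ (chartH4_psiO ℓ (qExpand (OBar ℓ) N (jqModC (OBar ℓ))))
      (qExpand (OBar ℓ) N (qExpand (OBar ℓ) N (jqModC (OBar ℓ))))) = 0) :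
    ∃ A' : Polynomial (Polynomial (Zl ℓ)),
      A = Polynomial.C (Polynomial.C (((ℓ : ℕ) : Zl ℓ))) * A' := by
  apply chartH4_dvd_of_map_eq_zero
  rw [chartH4_eval N ℓ _ _ _ _ (chartH4_serRed_jN N ℓ) (chartH4_serRed_jNN N ℓ)] at hred
  have h0 := chartH4_Theta_injective N ℓ (hred.trans (map_zero _).symm)
  rw [chartH4_psiF_eq_aeval] at h0
  exact key_irreducible N ℓ hℓN _
    (lt_of_le_of_lt (Polynomial.natDegree_map_le) hdeg) h0

/-! ### The finite chart, in terms of the function field `FF N` -/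

/-- Evaluation `ℤ_(ℓ)[X] → QBar((s))`, `X ↦ t`. -/
def chartH4_psiQ (t : LaurentSeries QBar) : Polynomial (Zl ℓ) →+* LaurentSeries QBar :=
  Polynomial.eval₂RingHom ((HahnSeries.C : QBar →+* LaurentSeries QBar).comp
    ((algebraMap ℚ QBar).comp (GaloisRep.ratLocalizedAt ℓ).subtype)) t

theorem chartH4_serO_C (c : OBar ℓ) :
    serO ℓ (HahnSeries.C c) = HahnSeries.C (c : QBar) := by
  rw [serO, HahnSeries.C_apply, coeffMap_single, HahnSeries.C_apply]
  rfl

theorem chartH4_serO_psiO (t : LaurentSeries (OBar ℓ)) :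
    (serO ℓ).comp (chartH4_psiO ℓ t) = chartH4_psiQ ℓ (serO ℓ t) := by
  apply Polynomial.ringHom_ext
  · intro c
    simp only [RingHom.comp_apply, chartH4_psiO, chartH4_psiQ, Polynomial.coe_eval₂RingHom,
      Polynomial.eval₂_C]
    rw [chartH4_serO_C]
    rfl
  · simp only [RingHom.comp_apply, chartH4_psiO, chartH4_psiQ, Polynomial.coe_eval₂RingHom,
      Polynomial.eval₂_X]

theorem chartH4_serO_jN :
    serO ℓ (qExpand (OBar ℓ) N (jqModC (OBar ℓ))) = qExpand QBar N (coeffEmb QBar jq) := by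
  rw [serO, coeffMap_qExpand, coeffMap_jqModC, coeffEmb, ← jqModC_rat, coeffMap_jqModC]

theorem chartH4_serO_jNN :
    serO ℓ (qExpand (OBar ℓ) N (qExpand (OBar ℓ) N (jqModC (OBar ℓ)))) =
      qExpand QBar N (coeffEmb QBar (qExpand ℚ N jq)) := by
  rw [serO, coeffMap_qExpand, coeffMap_qExpand, coeffMap_jqModC, coeffEmb, coeffMap_qExpand,
    ← jqModC_rat, coeffMap_jqModC]

/-- `conjEmb N 1` on `ℤ_(ℓ)[j]`. -/
theorem chartH4_conjEmb_comp_aeval :
    (conjEmb N 1).comp ((Polynomial.aeval (jFull N) :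
      Polynomial (Zl ℓ) →ₐ[Zl ℓ] FF N) : Polynomial (Zl ℓ) →+* FF N) =
      chartH4_psiQ ℓ (qExpand QBar N (coeffEmb QBar jq)) := by
  apply Polynomial.ringHom_ext
  · intro c
    simp only [RingHom.comp_apply, chartH4_psiQ, Polynomial.coe_eval₂RingHom, Polynomial.eval₂_C,
      RingHom.coe_coe, Polynomial.aeval_C]
    rw [conjEmb_one]
    have h1 : ((algebraMap (Zl ℓ) (FF N) c : FF N) : LaurentSeries ℚ) =
        HahnSeries.single 0 ((c : ℚ)) := by
      have h2 : algebraMap (Zl ℓ) (FF N) c = algebraMap ℚ (FF N) (c : ℚ) := rfl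
      have h3 : ((modularFunctionFieldFull N).val : FF N →+* LaurentSeries ℚ).comp
          (algebraMap ℚ (FF N)) = algebraMap ℚ (LaurentSeries ℚ) := Subsingleton.elim _ _
      have h4 := RingHom.congr_fun h3 (c : ℚ)
      rw [h2, ← algebraMap_apply_eq_single, ← h4]
      rfl
    rw [h1, coeffEmb, coeffMap_single, qExpand_single, mul_zero, HahnSeries.C_apply]
    rfl
  · simp only [RingHom.comp_apply, chartH4_psiQ, Polynomial.coe_eval₂RingHom, Polynomial.eval₂_X,
      RingHom.coe_coe, Polynomial.aeval_X]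
    rw [conjEmb_one, coe_jFull]

/-- **`h₄` for the finite chart**, in terms of `conjEmb N 1` on `FF N`:
`A ∈ ℤ_(ℓ)[X][T]`, `deg_T A < n`, and the expansion of `A(j, j_N)` lies in `OBar((s))` and
reduces to `0`. -/
theorem chartH4_fin_FF (hℓN : ¬ ℓ ∣ N) (A : Polynomial (Polynomial (Zl ℓ)))
    (hdeg : A.natDegree < Nat.card (SL(2, ℤ) ⧸ CongruenceSubgroup.Gamma0 N))
    (y : LaurentSeries (OBar ℓ))
    (hy : serO ℓ y = conjEmb N 1 (A.eval₂ ((Polynomial.aeval (jFull N) :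
      Polynomial (Zl ℓ) →ₐ[Zl ℓ] FF N) : Polynomial (Zl ℓ) →+* FF N) (jNFull N)))
    (hred : serRed ℓ y = 0) :
    ∃ A' : Polynomial (Polynomial (Zl ℓ)),
      A = Polynomial.C (Polynomial.C (((ℓ : ℕ) : Zl ℓ))) * A' := by
  apply chartH4_fin N ℓ hℓN A hdeg
  have hy' : y = A.eval₂ (chartH4_psiO ℓ (qExpand (OBar ℓ) N (jqModC (OBar ℓ))))
      (qExpand (OBar ℓ) N (qExpand (OBar ℓ) N (jqModC (OBar ℓ)))) := by
    apply serO_injective ℓ
    rw [hy, Polynomial.hom_eval₂, Polynomial.hom_eval₂, chartH4_conjEmb_comp_aeval,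
      chartH4_serO_psiO, chartH4_serO_jN, chartH4_serO_jNN, conjEmb_one]
    rfl
  rw [← hy']
  exact hred

/-! ### The chart at infinity -/

section Inf

/-- `1/j` over any commutative ring. -/
def chartH4_jInv (R : Type*) [CommRing R] : LaurentSeries R :=
  HahnSeries.ofPowerSeries ℤ R (intInvT R)

theorem chartH4_map_intInvT {R S : Type*} [CommRing R] [CommRing S] (f : R →+* S) :
    (intInvT R).map f = intInvT S := by
  rw [intInvT, intInvT, map_mul, PowerSeries.map_X,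
    ← RingHom.comp_apply (PowerSeries.map f) (PowerSeries.map (Int.castRingHom R)),
    ← PowerSeries.map_comp, RingHom.ext_int (f.comp (Int.castRingHom R)) (Int.castRingHom S)]

theorem chartH4_coeffMap_jInv {R S : Type*} [CommRing R] [CommRing S] (f : R →+* S) :
    coeffMap f (chartH4_jInv R) = chartH4_jInv S := by
  rw [chartH4_jInv, coeffMap_ofPowerSeries, chartH4_map_intInvT, chartH4_jInv]

theorem chartH4_jInv_eq_inv {E : Type*} [Field E] : chartH4_jInv E = (jqModC E)⁻¹ :=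
  intInv_jq_inv_eq.symm

/-- The polynomial-level core for the chart at infinity. -/
theorem chartH4_inf_core (hℓN : ¬ ℓ ∣ N) (B : Polynomial (Polynomial (ZMod ℓ)))
    (hdeg : B.natDegree < Nat.card (SL(2, ℤ) ⧸ CongruenceSubgroup.Gamma0 N))
    (h : B.eval₂ (chartH4_psiF ℓ (jqModC (ZMod ℓ))⁻¹)
      ((jqModC (ZMod ℓ))⁻¹ ^ N * jqNModC (ZMod ℓ) N) = 0) : B = 0 := by
  classical
  set J : LaurentSeries (ZMod ℓ) := jqModC (ZMod ℓ) with hJ
  set JN : LaurentSeries (ZMod ℓ) := jqNModC (ZMod ℓ) N with hJN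
  have hJ0 : J ≠ 0 := jqModC_ne_zero_of_nontrivial (ZMod ℓ)
  set m := B.natDegree with hm
  set D := (Finset.range (m + 1)).sup (fun i => (B.coeff i).natDegree) with hD
  have hDle : ∀ i ∈ Finset.range (m + 1), (B.coeff i).natDegree ≤ D := fun i hi =>
    Finset.le_sup (f := fun i => (B.coeff i).natDegree) hi
  set c : ℕ → Polynomial (ZMod ℓ) := fun i =>
    Polynomial.X ^ (N * (m - i)) * Polynomial.reflect D (B.coeff i) with hc
  set P : Polynomial (Polynomial (ZMod ℓ)) :=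
    ∑ i ∈ Finset.range (m + 1), Polynomial.C (c i) * Polynomial.X ^ i with hP
  have hPdeg : P.natDegree ≤ m := by
    apply Polynomial.natDegree_sum_le_of_forall_le
    intro i hi
    have hi' := Finset.mem_range.mp hi
    exact (Polynomial.natDegree_C_mul_X_pow_le _ _).trans (by omega)
  -- evaluation of the coefficients
  have hrefl : ∀ i ∈ Finset.range (m + 1),
      chartH4_psiF ℓ J (Polynomial.reflect D (B.coeff i)) =
        chartH4_psiF ℓ J⁻¹ (B.coeff i) * J ^ D := by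
    intro i hi
    let _ : Invertible J := invertibleOfNonzero hJ0
    have h1 := Polynomial.eval₂_reflect_mul_pow
      (HahnSeries.C : ZMod ℓ →+* LaurentSeries (ZMod ℓ)) J D
      (Polynomial.reflect D (B.coeff i))
      (Polynomial.natDegree_reflect_le.trans (max_le le_rfl (hDle i hi)))
    rw [Polynomial.reflect_reflect, invOf_eq_inv] at h1
    simp only [chartH4_psiF, Polynomial.coe_eval₂RingHom]
    exact h1.symm
  have hPeval : P.eval₂ (chartH4_psiF ℓ J) JN =
      J ^ (D + N * m) * B.eval₂ (chartH4_psiF ℓ J⁻¹) (J⁻¹ ^ N * JN) := by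
    rw [hP, Polynomial.eval₂_finsetSum,
      Polynomial.eval₂_eq_sum_range' (chartH4_psiF ℓ J⁻¹) (Nat.lt_succ_self m), Finset.mul_sum]
    apply Finset.sum_congr rfl
    intro i hi
    have hi' := Finset.mem_range.mp hi
    rw [Polynomial.eval₂_mul, Polynomial.eval₂_C, Polynomial.eval₂_pow, Polynomial.eval₂_X, hc]
    simp only []
    rw [map_mul, map_pow, hrefl i hi]
    have hX : chartH4_psiF ℓ J Polynomial.X = J := by
      simp [chartH4_psiF]
    rw [hX]
    have hpow : J ^ (N * (m - i)) = J ^ (N * m) * (J⁻¹ ^ N) ^ i := by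
      rw [← pow_mul, inv_pow, ← div_eq_mul_inv, eq_div_iff (pow_ne_zero _ hJ0), ← pow_add]
      congr 1
      rw [← Nat.mul_add, Nat.sub_add_cancel (by omega)]
    rw [hpow, mul_pow, pow_add]
    ring
  have hP0 : P = 0 := by
    apply key_irreducible N ℓ hℓN P (lt_of_le_of_lt hPdeg hdeg)
    rw [← chartH4_psiF_eq_aeval, hPeval, h, mul_zero]
  ext1 i
  rw [Polynomial.coeff_zero]
  by_cases hi : i < m + 1
  · have h1 : P.coeff i = c i := by
      rw [hP, Polynomial.finsetSum_coeff]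
      simp only [Polynomial.coeff_C_mul_X_pow]
      rw [Finset.sum_ite_eq (Finset.range (m + 1)) i c, if_pos (Finset.mem_range.mpr hi)]
    rw [hP0, Polynomial.coeff_zero] at h1
    have h2 : Polynomial.reflect D (B.coeff i) = 0 := by
      have h3 := h1.symm
      simp only [hc] at h3
      rcases mul_eq_zero.mp h3 with h4 | h4
      · exact absurd h4 (pow_ne_zero _ Polynomial.X_ne_zero)
      · exact h4
    exact Polynomial.reflect_eq_zero_iff.mp h2
  · exact Polynomial.coeff_eq_zero_of_natDegree_lt (by omega)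

/-- `1/j(s^N)` in `OBar((s))`. -/
def chartH4_wO : LaurentSeries (OBar ℓ) := qExpand (OBar ℓ) N (chartH4_jInv (OBar ℓ))

/-- `j(s^(N²)) / j(s^N)^N` in `OBar((s))`. -/
def chartH4_thetaO : LaurentSeries (OBar ℓ) :=
  chartH4_wO N ℓ ^ N * qExpand (OBar ℓ) N (qExpand (OBar ℓ) N (jqModC (OBar ℓ)))

theorem chartH4_serRed_wO :
    serRed ℓ (chartH4_wO N ℓ) = chartH4_Theta N ℓ ((jqModC (ZMod ℓ))⁻¹) := by
  rw [chartH4_wO, serRed, coeffMap_qExpand, chartH4_coeffMap_jInv, chartH4_Theta,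
    RingHom.comp_apply, ← chartH4_jInv_eq_inv, chartH4_coeffMap_jInv]

theorem chartH4_serRed_thetaO :
    serRed ℓ (chartH4_thetaO N ℓ) =
      chartH4_Theta N ℓ ((jqModC (ZMod ℓ))⁻¹ ^ N * jqNModC (ZMod ℓ) N) := by
  rw [chartH4_thetaO, map_mul, map_pow, chartH4_serRed_wO, chartH4_serRed_jNN, map_mul, map_pow]

/-- **`h₄` for the chart at infinity** (polynomial-ring form). -/
theorem chartH4_inf (hℓN : ¬ ℓ ∣ N) (A : Polynomial (Polynomial (Zl ℓ)))
    (hdeg : A.natDegree < Nat.card (SL(2, ℤ) ⧸ CongruenceSubgroup.Gamma0 N))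
    (hred : serRed ℓ (A.eval₂ (chartH4_psiO ℓ (chartH4_wO N ℓ)) (chartH4_thetaO N ℓ)) = 0) :
    ∃ A' : Polynomial (Polynomial (Zl ℓ)),
      A = Polynomial.C (Polynomial.C (((ℓ : ℕ) : Zl ℓ))) * A' := by
  apply chartH4_dvd_of_map_eq_zero
  rw [chartH4_eval N ℓ _ _ _ _ (chartH4_serRed_wO N ℓ) (chartH4_serRed_thetaO N ℓ)] at hred
  have h0 := chartH4_Theta_injective N ℓ (hred.trans (map_zero _).symm)
  exact chartH4_inf_core N ℓ hℓN _ (lt_of_le_of_lt (Polynomial.natDegree_map_le) hdeg) h0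

/-- `conjEmb N 1` on `ℤ_(ℓ)[u]`, any `u`. -/
theorem chartH4_conjEmb_comp_aeval' (u : FF N) :
    (conjEmb N 1).comp ((Polynomial.aeval u :
      Polynomial (Zl ℓ) →ₐ[Zl ℓ] FF N) : Polynomial (Zl ℓ) →+* FF N) =
      chartH4_psiQ ℓ (conjEmb N 1 u) := by
  apply Polynomial.ringHom_ext
  · intro c
    have h1 := RingHom.congr_fun (chartH4_conjEmb_comp_aeval N ℓ) (Polynomial.C c)
    simp only [RingHom.comp_apply, chartH4_psiQ, Polynomial.coe_eval₂RingHom, Polynomial.eval₂_C,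
      RingHom.coe_coe, Polynomial.aeval_C] at h1 ⊢
    exact h1
  · simp only [RingHom.comp_apply, chartH4_psiQ, Polynomial.coe_eval₂RingHom, Polynomial.eval₂_X,
      RingHom.coe_coe, Polynomial.aeval_X]

theorem chartH4_serO_wO :
    serO ℓ (chartH4_wO N ℓ) = conjEmb N 1 ((jFull N)⁻¹) := by
  rw [map_inv₀, conjEmb_one, coe_jFull, chartH4_wO, serO, coeffMap_qExpand,
    chartH4_coeffMap_jInv, chartH4_jInv_eq_inv, map_inv₀, coeffEmb, ← jqModC_rat, coeffMap_jqModC]

theorem chartH4_serO_thetaO :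
    serO ℓ (chartH4_thetaO N ℓ) = conjEmb N 1 ((jFull N)⁻¹ ^ N * jNFull N) := by
  rw [chartH4_thetaO, map_mul, map_pow, chartH4_serO_wO, chartH4_serO_jNN, map_mul, map_pow,
    conjEmb_one (N := N) (jNFull N)]
  rfl

/-- **`h₄` for the chart at infinity**, in terms of `conjEmb N 1` on `FF N`:
`A ∈ ℤ_(ℓ)[X][T]`, `deg_T A < n`, and the expansion of `A(1/j, j_N/j^N)` lies in `OBar((s))` and
reduces to `0`. -/
theorem chartH4_inf_FF (hℓN : ¬ ℓ ∣ N) (A : Polynomial (Polynomial (Zl ℓ)))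
    (hdeg : A.natDegree < Nat.card (SL(2, ℤ) ⧸ CongruenceSubgroup.Gamma0 N))
    (y : LaurentSeries (OBar ℓ))
    (hy : serO ℓ y = conjEmb N 1 (A.eval₂ ((Polynomial.aeval (jFull N)⁻¹ :
      Polynomial (Zl ℓ) →ₐ[Zl ℓ] FF N) : Polynomial (Zl ℓ) →+* FF N)
        ((jFull N)⁻¹ ^ N * jNFull N)))
    (hred : serRed ℓ y = 0) :
    ∃ A' : Polynomial (Polynomial (Zl ℓ)),
      A = Polynomial.C (Polynomial.C (((ℓ : ℕ) : Zl ℓ))) * A' := by
  apply chartH4_inf N ℓ hℓN A hdeg
  have hy' : y = A.eval₂ (chartH4_psiO ℓ (chartH4_wO N ℓ)) (chartH4_thetaO N ℓ) := by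
    apply serO_injective ℓ
    rw [hy, Polynomial.hom_eval₂, Polynomial.hom_eval₂, chartH4_conjEmb_comp_aeval',
      chartH4_serO_psiO, chartH4_serO_wO, chartH4_serO_thetaO]
  rw [← hy']
  exact hred

end Inf

end Fermat.Agent.S28
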