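import Mathlib
import Fermat.Agent.S28.ChartGeneric
import Fermat.Agent.S28.ChartConj
import Fermat.Agent.S28.ChartH4
import Fermat.Agent.S28.ChartThetaSpec

/-!
# S28 leaf L6c : the `q`-expansion principle for `chartAlgFin`

`chartG_main` with `t = j`, `θ = j(q^N)`.
-/

set_option autoImplicit false
set_option linter.unusedSectionVars false

noncomputable section

namespace Fermat.Agent.S28

open UpperHalfPlane ModularCurve ModularCurve.IgusaScheme Fermat.Agent.S24 Polynomial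
open scoped MatrixGroups IntermediateField

variable (N : ℕ) [NeZero N] (ℓ : ℕ) [Fact ℓ.Prime]

theorem chartFin_both (hℓN : ¬ ℓ ∣ N) :
    (∀ x : FF N, x ∈ chartAlg N ℓ {jFull N} →
      ((x : FF N) : LaurentSeries ℚ) ∈ (serZl ℓ).range) ∧
    (∀ x : FF N, x ∈ chartAlg N ℓ {jFull N} → ∀ S : LaurentSeries (Zl ℓ),
      serZl ℓ S = ((x : FF N) : LaurentSeries ℚ) → serZlRed ℓ S = 0 →
      ∃ y : FF N, y ∈ chartAlg N ℓ {jFull N} ∧ x = ((ℓ : ℕ) : FF N) * y) := by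
  obtain ⟨pb, hgen, hdim⟩ := exists_powerBasis_jNFull N
  choose Θ hΘ1 hΘ2 _ using chartconj_exists_serO N ℓ
  have hΘone : Θ 1 = qExpand (OBar ℓ) N (qExpand (OBar ℓ) N (jqModC (OBar ℓ))) := by
    apply serO_injective
    rw [hΘ1, chartH4_serO_jNN, conjEmb_one]
    rfl
  refine chartG_main N ℓ (jFull N) (transcendental_jFull N)
    (IntermediateField.mem_adjoin_simple_self ℚ _) rfl pb hdim
    (by rw [hgen]; exact isIntegral_jNFull_fin N ℓ)
    (qExpand (OBar ℓ) N (jqModC (OBar ℓ))) (by rw [chartH4_serO_jN, conjEmb_jFull])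
    Θ (fun g => by rw [hΘ1, hgen]) ?_ ?_
  · intro g g' hgg'
    obtain ⟨m, hm⟩ := hasUnitLead_sub_jN N ℓ hℓN g g' hgg' (Θ g) (Θ g') (hΘ2 g) (hΘ2 g')
    exact hm.isUnit
  · intro A hA hred
    rw [hΘone] at hred
    exact chartH4_fin N ℓ hℓN A (by rw [← hdim]; exact hA) hred

theorem chartAlgFin_integral (hℓN : ¬ ℓ ∣ N) (x : FF N) (hx : x ∈ chartAlgFin N ℓ) :
    ((x : FF N) : LaurentSeries ℚ) ∈ (serZl ℓ).range :=
  (chartFin_both N ℓ hℓN).1 x hx

theorem chartAlgFin_div (hℓN : ¬ ℓ ∣ N) (x : FF N) (hx : x ∈ chartAlgFin N ℓ)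
    (S : LaurentSeries (Zl ℓ)) (hS : serZl ℓ S = ((x : FF N) : LaurentSeries ℚ))
    (hred : serZlRed ℓ S = 0) :
    ∃ y : FF N, y ∈ chartAlgFin N ℓ ∧ x = ((ℓ : ℕ) : FF N) * y :=
  (chartFin_both N ℓ hℓN).2 x hx S hS hred

end Fermat.Agent.S28
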