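import Mathlib
import Fermat.Agent.S28.ChartGeneric
import Fermat.Agent.S28.ChartConj
import Fermat.Agent.S28.ChartH4
import Fermat.Agent.S28.ChartThetaSpec

/-!
# S28 leaf L6d : the `q`-expansion principle for `chartAlgInf`

`chartG_main` with `t = 1/j`, `θ = j(q^N) / j^N`.
-/

set_option autoImplicit false
set_option linter.unusedSectionVars false

noncomputable section

namespace Fermat.Agent.S28

open UpperHalfPlane ModularCurve ModularCurve.IgusaScheme Fermat.Agent.S24 Polynomial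
open scoped MatrixGroups IntermediateField

variable (N : ℕ) [NeZero N] (ℓ : ℕ) [Fact ℓ.Prime]

theorem chartInf_transcendental : Transcendental ℚ (jFull N)⁻¹ := by
  intro h
  apply transcendental_jFull N
  have := h.inv
  rwa [inv_inv] at this

theorem chartInf_mem : (jFull N)⁻¹ ∈ ℚ⟮jFull N⟯ :=
  inv_mem (IntermediateField.mem_adjoin_simple_self ℚ _)

theorem chartInf_adjoin_eq : ℚ⟮jFull N⟯ = ℚ⟮(jFull N)⁻¹⟯ := by
  apply le_antisymm
  · rw [IntermediateField.adjoin_simple_le_iff]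
    have := inv_mem (IntermediateField.mem_adjoin_simple_self ℚ (jFull N)⁻¹)
    rwa [inv_inv] at this
  · rw [IntermediateField.adjoin_simple_le_iff]
    exact chartInf_mem N

/-- a power basis of `F / ℚ(j)` generated by `θ = j(q^N) / j^N`. -/
theorem chartInf_exists_powerBasis :
    ∃ pb : PowerBasis ℚ⟮jFull N⟯ (FF N), pb.gen = (jFull N)⁻¹ ^ N * jNFull N ∧
      pb.dim = Nat.card (SL(2, ℤ) ⧸ CongruenceSubgroup.Gamma0 N) := by
  obtain ⟨pb, hgen, hdim⟩ := exists_powerBasis_jNFull N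
  haveI := finiteDimensional_FF N
  set θ : FF N := (jFull N)⁻¹ ^ N * jNFull N with hθ
  have hint : IsIntegral ℚ⟮jFull N⟯ θ := IsIntegral.of_finite _ _
  have hj0 : jFull N ≠ 0 := jFull_ne_zero N
  have hjN : jNFull N = algebraMap ℚ⟮jFull N⟯ (FF N)
      (⟨jFull N, IntermediateField.mem_adjoin_simple_self ℚ _⟩ ^ N) * θ := by
    rw [map_pow, hθ]
    show jNFull N = (jFull N) ^ N * ((jFull N)⁻¹ ^ N * jNFull N)
    rw [← mul_assoc, ← mul_pow, mul_inv_cancel₀ hj0, one_pow, one_mul]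
  have htop : Algebra.adjoin ℚ⟮jFull N⟯ {θ} = ⊤ := by
    rw [eq_top_iff, ← pb.adjoin_gen_eq_top, hgen]
    apply Algebra.adjoin_le
    rintro x hx
    rw [Set.mem_singleton_iff] at hx
    rw [hx, hjN]
    exact mul_mem (Subalgebra.algebraMap_mem _ _) (Algebra.self_mem_adjoin_singleton _ θ)
  refine ⟨PowerBasis.ofAdjoinEqTop hint htop, PowerBasis.ofAdjoinEqTop_gen hint htop, ?_⟩
  rw [← (PowerBasis.ofAdjoinEqTop hint htop).finrank, pb.finrank, hdim]

theorem chartInf_both (hℓN : ¬ ℓ ∣ N) :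
    (∀ x : FF N, x ∈ chartAlg N ℓ {(jFull N)⁻¹} →
      ((x : FF N) : LaurentSeries ℚ) ∈ (serZl ℓ).range) ∧
    (∀ x : FF N, x ∈ chartAlg N ℓ {(jFull N)⁻¹} → ∀ S : LaurentSeries (Zl ℓ),
      serZl ℓ S = ((x : FF N) : LaurentSeries ℚ) → serZlRed ℓ S = 0 →
      ∃ y : FF N, y ∈ chartAlg N ℓ {(jFull N)⁻¹} ∧ x = ((ℓ : ℕ) : FF N) * y) := by
  obtain ⟨pb, hgen, hdim⟩ := chartInf_exists_powerBasis N
  choose S hS1 hS2 _ using chartconj_exists_serO N ℓ
  have hSone : S 1 = qExpand (OBar ℓ) N (qExpand (OBar ℓ) N (jqModC (OBar ℓ))) := by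
    apply serO_injective
    rw [hS1, chartH4_serO_jNN, conjEmb_one]
    rfl
  -- `1/j(s^N)` is a unit of `OBar((s))`
  have hwJ : chartH4_wO N ℓ * chartconjJ N ℓ = 1 := by
    apply serO_injective
    rw [map_mul, chartH4_serO_wO, chartconj_serO_J N ℓ 1, ← map_mul,
      inv_mul_cancel₀ (jFull_ne_zero N), map_one, map_one]
  have hwU : IsUnit (chartH4_wO N ℓ) := IsUnit.of_mul_eq_one _ hwJ
  -- the conjugates of `1/j` are all equal
  have hconj : ∀ g, conjEmb N g (jFull N)⁻¹ = conjEmb N 1 (jFull N)⁻¹ := fun g =>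
    conjEmb_algebraMap_adjoin N g 1 ⟨(jFull N)⁻¹, chartInf_mem N⟩
  refine chartG_main N ℓ (jFull N)⁻¹ (chartInf_transcendental N) (chartInf_mem N)
    (chartInf_adjoin_eq N) pb hdim
    (by rw [hgen]; exact isIntegral_theta_inf N ℓ)
    (chartH4_wO N ℓ) (chartH4_serO_wO N ℓ)
    (fun g => chartH4_wO N ℓ ^ N * S g)
    (fun g => by rw [hgen, map_mul, map_pow, map_mul, map_pow, hS1, chartH4_serO_wO, hconj g])
    ?_ ?_
  · intro g g' hgg'
    obtain ⟨m, hm⟩ := hasUnitLead_sub_jN N ℓ hℓN g g' hgg' (S g) (S g') (hS2 g) (hS2 g')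
    have : chartH4_wO N ℓ ^ N * S g - chartH4_wO N ℓ ^ N * S g' =
        chartH4_wO N ℓ ^ N * (S g - S g') := by ring
    rw [this]
    exact (hwU.pow N).mul hm.isUnit
  · intro A hA hred
    have h1 : chartH4_wO N ℓ ^ N * S 1 = chartH4_thetaO N ℓ := by rw [hSone]; rfl
    rw [h1] at hred
    exact chartH4_inf N ℓ hℓN A (by rw [← hdim]; exact hA) hred

theorem chartAlgInf_integral (hℓN : ¬ ℓ ∣ N) (x : FF N) (hx : x ∈ chartAlgInf N ℓ) :
    ((x : FF N) : LaurentSeries ℚ) ∈ (serZl ℓ).range :=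
  (chartInf_both N ℓ hℓN).1 x hx

theorem chartAlgInf_div (hℓN : ¬ ℓ ∣ N) (x : FF N) (hx : x ∈ chartAlgInf N ℓ)
    (S : LaurentSeries (Zl ℓ)) (hS : serZl ℓ S = ((x : FF N) : LaurentSeries ℚ))
    (hred : serZlRed ℓ S = 0) :
    ∃ y : FF N, y ∈ chartAlgInf N ℓ ∧ x = ((ℓ : ℕ) : FF N) * y :=
  (chartInf_both N ℓ hℓN).2 x hx S hS hred

end Fermat.Agent.S28
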