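import Mathlib
import Fermat.Agent.S28.ChartRing
import Fermat.Agent.S28.RatFieldSpec
import Fermat.Agent.S28.CharpolyConjSpec
import Fermat.Agent.S28.IntInvariantSpec
import Fermat.Agent.S28.ConjJNSpec
import Fermat.Agent.S28.BasicSpec

/-!
# S28, charts: the minimal polynomial of `j(q^N)` over `ℚ(j)` has coefficients in `ℤ_(ℓ)[j]`

with the degree bound `deg_j c_k ≤ N (n - k)`.  Consequences: `j(q^N)` is integral over `ℤ_(ℓ)[j]`
and `j(q^N) / j^N` is integral over `ℤ_(ℓ)[1/j]`.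
-/

set_option autoImplicit false
set_option linter.unusedSectionVars false
set_option maxHeartbeats 400000

noncomputable section

namespace Fermat.Agent.S28

open UpperHalfPlane ModularCurve ModularCurve.IgusaScheme Fermat.Agent.S24 IntermediateField
  Polynomial
open scoped MatrixGroups

variable (N : ℕ) [NeZero N]

/-! ### The conjugate embeddings as `ℚ(j)`-algebra maps -/

/-- `QBar((s))` as an algebra over `ℚ(j)` (through the expansion at `i∞`). -/
@[reducible] def chartEAlgebra : Algebra ℚ⟮jFull N⟯ (LaurentSeries QBar) :=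
  ((conjEmb N 1).comp (algebraMap ℚ⟮jFull N⟯ (FF N))).toAlgebra

attribute [local instance] chartEAlgebra

theorem chartE_algebraMap (e : ℚ⟮jFull N⟯) :
    algebraMap ℚ⟮jFull N⟯ (LaurentSeries QBar) e = conjEmb N 1 (e : FF N) := rfl

/-- the conjugate embeddings are `ℚ(j)`-algebra maps. -/
def chartSigma (g : SL(2, ℤ)) : FF N →ₐ[ℚ⟮jFull N⟯] LaurentSeries QBar :=
  { conjEmb N g with
    commutes' := fun e => conjEmb_algebraMap_adjoin N g 1 e }

@[simp] theorem chartSigma_apply (g : SL(2, ℤ)) (x : FF N) : chartSigma N g x = conjEmb N g x := rfl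

attribute [local instance] Fermat.Agent.S24.degFintypeQuot

theorem chartE_conjEmb_out_injective :
    Function.Injective fun ξ : SL(2, ℤ) ⧸ CongruenceSubgroup.Gamma0 N =>
      conjEmb N ξ.out (jNFull N) := by
  intro ξ ξ' h
  have h1 := mem_Gamma0_of_conjEmb_jNFull_eq N ξ.out ξ'.out h
  rw [← QuotientGroup.out_eq' ξ, ← QuotientGroup.out_eq' ξ']
  exact QuotientGroup.eq.2 h1

/-! ### The orbit polynomial of `j(Nτ)` over the ring of integral pairs -/

section Orbit

variable (ℓ : ℕ) [Fact ℓ.Prime]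

/-- the chosen `ℓ`-integral expansion of the conjugate `ξ.out • j(Nτ)`. -/
def chartPSer (ξ : SL(2, ℤ) ⧸ CongruenceSubgroup.Gamma0 N) : LaurentSeries (OBar ℓ) :=
  (exists_intPair_jN N ℓ ξ.out).choose

theorem chartPSer_mem (ξ : SL(2, ℤ) ⧸ CongruenceSubgroup.Gamma0 N) :
    ((ξ.out • jdHol N : HolRing), chartPSer N ℓ ξ) ∈ IntPair N ℓ :=
  (exists_intPair_jN N ℓ ξ.out).choose_spec.1

theorem chartPSer_coeff (ξ : SL(2, ℤ) ⧸ CongruenceSubgroup.Gamma0 N) (m : ℤ)
    (hm : m < -((N : ℤ) * N)) : (chartPSer N ℓ ξ).coeff m = 0 :=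
  (exists_intPair_jN N ℓ ξ.out).choose_spec.2 m hm

/-- the conjugate as an integral pair. -/
def chartPPair (ξ : SL(2, ℤ) ⧸ CongruenceSubgroup.Gamma0 N) : IntPair N ℓ :=
  ⟨((ξ.out • jdHol N : HolRing), chartPSer N ℓ ξ), chartPSer_mem N ℓ ξ⟩

theorem chartPPair_fst (ξ : SL(2, ℤ) ⧸ CongruenceSubgroup.Gamma0 N) :
    IntPair.fst N ℓ (chartPPair N ℓ ξ) = ξ.out • jdHol N := by
  simp only [IntPair.fst, chartPPair, RingHom.coe_comp, Function.comp_apply, Subring.subtype_apply,
    RingHom.coe_fst]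

theorem chartPPair_snd (ξ : SL(2, ℤ) ⧸ CongruenceSubgroup.Gamma0 N) :
    IntPair.snd N ℓ (chartPPair N ℓ ξ) = chartPSer N ℓ ξ := by
  simp only [IntPair.snd, chartPPair, RingHom.coe_comp, Function.comp_apply, Subring.subtype_apply,
    RingHom.coe_snd]

theorem chartP_serO_eq (g : SL(2, ℤ)) (S : LaurentSeries (OBar ℓ))
    (h : ((g • jdHol N : HolRing), S) ∈ IntPair N ℓ) :
    serO ℓ S = conjEmb N g (jNFull N) := by
  apply deg_coeffMap_injective iotaBar iotaBar_injective
  have h1 : HasCuspExp N ((g • jdHol N : HolRing) : ℍ → ℂ) (coeffMap iotaBar (serO ℓ S)) := h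
  have h2 := hasCuspExp_conjEmb_jNFull N g
  exact HasCuspExp.unique h1 h2

theorem serO_chartPSer (ξ : SL(2, ℤ) ⧸ CongruenceSubgroup.Gamma0 N) :
    serO ℓ (chartPSer N ℓ ξ) = conjEmb N ξ.out (jNFull N) :=
  chartP_serO_eq N ℓ ξ.out _ (chartPSer_mem N ℓ ξ)

/-- the orbit polynomial. -/
def chartPOrb : Polynomial (IntPair N ℓ) :=
  ∏ ξ : SL(2, ℤ) ⧸ CongruenceSubgroup.Gamma0 N, (X - C (chartPPair N ℓ ξ))

/-- `j(q^N)` as an element of `RBar N`. -/
def chartPJN : RBar N := ⟨jdBar N N dvd_rfl, jdBar_mem_RBar N N dvd_rfl⟩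

theorem chartPOrb_map_fst :
    (chartPOrb N ℓ).map (IntPair.fst N ℓ) = degOrbHol (chartPJN N) := by
  rw [chartPOrb, degOrbHol, Polynomial.map_prod]
  refine Finset.prod_congr rfl fun ξ _ => ?_
  rw [Polynomial.map_sub, Polynomial.map_X, Polynomial.map_C, chartPPair_fst, chartPJN,
    toHol_jdBar]

theorem chartPOrb_map_snd :
    ((chartPOrb N ℓ).map (IntPair.snd N ℓ)).map (serO ℓ) =
      ∏ ξ : SL(2, ℤ) ⧸ CongruenceSubgroup.Gamma0 N, (X - C (conjEmb N ξ.out (jNFull N))) := by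
  rw [chartPOrb, Polynomial.map_prod, Polynomial.map_prod]
  refine Finset.prod_congr rfl fun ξ _ => ?_
  rw [Polynomial.map_sub, Polynomial.map_X, Polynomial.map_C, Polynomial.map_sub,
    Polynomial.map_X, Polynomial.map_C, chartPPair_snd, serO_chartPSer]

theorem chartPOrb_coeff_invariant (k : ℕ) (γ : SL(2, ℤ)) :
    γ • IntPair.fst N ℓ ((chartPOrb N ℓ).coeff k) = IntPair.fst N ℓ ((chartPOrb N ℓ).coeff k) := by
  rw [← Polynomial.coeff_map, chartPOrb_map_fst]
  exact smul_degOrbHol_coeff γ (chartPJN N) k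

/-- the coefficients of the orbit polynomial are polynomials in `j` with `ℓ`-integral
coefficients. -/
theorem chartPOrb_exists_poly (k : ℕ) :
    ∃ Q : Polynomial (OBar ℓ),
      (chartPOrb N ℓ).coeff k = Polynomial.eval₂ (constPair N ℓ) (jPair N ℓ) Q :=
  intPair_invariant N ℓ _ (chartPOrb_coeff_invariant N ℓ k)

end Orbit

/-! ### Comparison with the minimal polynomial over `ℚ(j)` -/

section MinPoly

variable (ℓ : ℕ) [Fact ℓ.Prime]

/-- `serO ∘ snd` of a polynomial in `jPair` is the polynomial in `j(s^N)`. -/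
theorem chartP_serO_snd_eval₂ (Q : Polynomial (OBar ℓ)) :
    serO ℓ (IntPair.snd N ℓ (Polynomial.eval₂ (constPair N ℓ) (jPair N ℓ) Q)) =
      qExpand QBar N (Polynomial.eval₂ HahnSeries.C (jqModC QBar) (Q.map (OBar ℓ).subtype)) := by
  rw [Polynomial.hom_eval₂, Polynomial.hom_eval₂, Polynomial.eval₂_map, Polynomial.hom_eval₂]
  have h1 : (serO ℓ).comp ((IntPair.snd N ℓ).comp (constPair N ℓ)) =
      ((qExpand QBar N).comp HahnSeries.C).comp (OBar ℓ).subtype := by
    ext c : 1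
    simp only [RingHom.coe_comp, Function.comp_apply, Subring.subtype_apply, qExpand_C]
    show serO ℓ (HahnSeries.C c) = HahnSeries.C (c : QBar)
    ext m
    rw [serO_coeff]
    by_cases hm : m = 0
    · subst hm; simp
    · simp [HahnSeries.C_apply, HahnSeries.coeff_single_of_ne hm]
  have h2 : serO ℓ (IntPair.snd N ℓ (jPair N ℓ)) = qExpand QBar N (jqModC QBar) := by
    show serO ℓ (qExpand (OBar ℓ) N (jqModC (OBar ℓ))) = _
    rw [serO, ModularCurve.coeffMap_qExpand, coeffMap_jqModC]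
  rw [h1, h2, RingHom.comp_assoc]

/-- an indexing of the cosets by `Fin n`. -/
def chartPEquiv (pb : PowerBasis ℚ⟮jFull N⟯ (FF N))
    (hdim : pb.dim = Nat.card (SL(2, ℤ) ⧸ CongruenceSubgroup.Gamma0 N)) :
    Fin pb.dim ≃ SL(2, ℤ) ⧸ CongruenceSubgroup.Gamma0 N :=
  Fintype.equivOfCardEq (by rw [Fintype.card_fin, hdim, Nat.card_eq_fintype_card])

/-- the minimal polynomial of `j(q^N)` over `ℚ(j)` maps to the orbit polynomial. -/
theorem chartP_minpoly_map :
    (minpoly ℚ⟮jFull N⟯ (jNFull N)).map (algebraMap ℚ⟮jFull N⟯ (LaurentSeries QBar)) =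
      ∏ ξ : SL(2, ℤ) ⧸ CongruenceSubgroup.Gamma0 N, (X - C (conjEmb N ξ.out (jNFull N))) := by
  obtain ⟨pb, hgen, hdim⟩ := exists_powerBasis_jNFull N
  let e := chartPEquiv N pb hdim
  have hσ : Function.Injective fun i : Fin pb.dim => chartSigma N (e i).out pb.gen := by
    intro i i' h
    rw [hgen] at h
    exact e.injective (chartE_conjEmb_out_injective N h)
  have h1 := charpoly_leftMulMatrix_map_eq_prod pb (fun i => chartSigma N (e i).out) hσ pb.gen
  rw [charpoly_leftMulMatrix, hgen] at h1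
  rw [h1]
  exact Fintype.prod_equiv e _ _ fun i => rfl

/-- the coefficients of the minimal polynomial, as series. -/
theorem chartP_coeffEmb_minpoly_coeff (k : ℕ) (Q : Polynomial (OBar ℓ))
    (hQ : (chartPOrb N ℓ).coeff k = Polynomial.eval₂ (constPair N ℓ) (jPair N ℓ) Q) :
    coeffEmb QBar ((((minpoly ℚ⟮jFull N⟯ (jNFull N)).coeff k : ℚ⟮jFull N⟯) : FF N) :
        LaurentSeries ℚ) =
      Polynomial.eval₂ HahnSeries.C (jqModC QBar) (Q.map (OBar ℓ).subtype) := by
  apply qExpand_injective (R := QBar) (N := N)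
  rw [← chartP_serO_snd_eval₂, ← hQ, ← conjEmb_one, ← chartE_algebraMap, ← Polynomial.coeff_map,
    chartP_minpoly_map, ← chartPOrb_map_snd N ℓ, Polynomial.coeff_map, Polynomial.coeff_map]

end MinPoly

/-! ### Series vanishing below a bound -/

section Vanish

variable {R : Type*} [CommRing R]

/-- all coefficients of index `< b` vanish. -/
def ChartVanishBelow (S : LaurentSeries R) (b : ℤ) : Prop := ∀ m : ℤ, m < b → S.coeff m = 0

theorem ChartVanishBelow.mul {S T : LaurentSeries R} {a b : ℤ} (hS : ChartVanishBelow S a)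
    (hT : ChartVanishBelow T b) : ChartVanishBelow (S * T) (a + b) := by
  intro m hm
  rw [HahnSeries.coeff_mul]
  apply Finset.sum_eq_zero
  intro ij hij
  rw [Finset.mem_antidiagonal] at hij
  obtain ⟨hi, hj, hsum⟩ := hij
  exfalso
  have h1 : a ≤ ij.1 := by
    by_contra h
    exact hi (hS _ (not_le.1 h))
  have h2 : b ≤ ij.2 := by
    by_contra h
    exact hj (hT _ (not_le.1 h))
  omega

theorem ChartVanishBelow.sub {S T : LaurentSeries R} {a : ℤ} (hS : ChartVanishBelow S a)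
    (hT : ChartVanishBelow T a) : ChartVanishBelow (S - T) a := by
  intro m hm
  rw [HahnSeries.coeff_sub, hS m hm, hT m hm, sub_zero]

theorem ChartVanishBelow.mono {S : LaurentSeries R} {a b : ℤ} (hS : ChartVanishBelow S a)
    (hab : b ≤ a) : ChartVanishBelow S b := fun m hm => hS m (lt_of_lt_of_le hm hab)

theorem chartVanishBelow_zero (a : ℤ) : ChartVanishBelow (0 : LaurentSeries R) a := fun _ _ => rfl

theorem chartVanishBelow_one : ChartVanishBelow (1 : LaurentSeries R) 0 := by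
  intro m hm
  rw [HahnSeries.coeff_one, if_neg hm.ne]

/-- the coefficients of `∏ (X - C (S ξ))`, `S ξ` vanishing below `-B`. -/
theorem chartVanishBelow_prod_coeff {ι : Type*} [DecidableEq ι] (S : ι → LaurentSeries R) (B : ℤ)
    (_hB : 0 ≤ B) (hS : ∀ ξ, ChartVanishBelow (S ξ) (-B)) (s : Finset ι) :
    ∀ k : ℕ, ChartVanishBelow ((∏ ξ ∈ s, (X - C (S ξ))).coeff k) (-B * ((s.card : ℤ) - k)) := by
  induction s using Finset.induction_on with
  | empty =>
    intro k
    rw [Finset.prod_empty, Polynomial.coeff_one]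
    split_ifs with hk
    · subst hk
      simpa using chartVanishBelow_one (R := R)
    · exact chartVanishBelow_zero _
  | insert a s ha ih =>
    intro k
    rw [Finset.prod_insert ha, Finset.card_insert_of_notMem ha, sub_mul]
    have h2 : ChartVanishBelow ((C (S a) * ∏ ξ ∈ s, (X - C (S ξ))).coeff k)
        (-B * (((s.card + 1 : ℕ) : ℤ) - k)) := by
      rw [Polynomial.coeff_C_mul]
      have := (hS a).mul (ih k)
      refine this.mono ?_
      push_cast
      nlinarith
    rcases k with _ | k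
    · rw [Polynomial.coeff_sub, Polynomial.coeff_X_mul_zero, zero_sub]
      intro m hm
      rw [HahnSeries.coeff_neg, h2 m hm, neg_zero]
    · rw [Polynomial.coeff_sub, Polynomial.coeff_X_mul]
      refine ChartVanishBelow.sub ((ih k).mono ?_) h2
      push_cast
      nlinarith

end Vanish

/-! ### The coefficients are polynomials in `j` over `ℤ_(ℓ)` of bounded degree -/

section Coeff

variable (ℓ : ℕ) [Fact ℓ.Prime]

/-- the value of `P(j)` at the index `-deg P` is the leading coefficient. -/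
theorem chartP_coeff_eval₂_jq {E : Type*} [Field E] (P : Polynomial E) :
    (Polynomial.eval₂ HahnSeries.C (jqModC E) P).coeff (-(P.natDegree : ℤ)) = P.leadingCoeff := by
  rw [Polynomial.eval₂_eq_sum_range, HahnSeries.coeff_sum, Finset.sum_range_succ]
  rw [Finset.sum_eq_zero, zero_add, HahnSeries.C_mul_eq_smul, HahnSeries.coeff_smul,
    coeff_jqModC_pow_self, smul_eq_mul, mul_one, Polynomial.leadingCoeff]
  intro i hi
  have hi' := Finset.mem_range.1 hi
  rw [HahnSeries.C_mul_eq_smul, HahnSeries.coeff_smul, coeff_jqModC_pow_of_lt E (by omega),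
    smul_zero]

/-- `serO` of a polynomial in `j` with `ℓ`-integral coefficients. -/
theorem chartP_serO_eval₂ (Q : Polynomial (OBar ℓ)) :
    serO ℓ (Polynomial.eval₂ HahnSeries.C (jqModC (OBar ℓ)) Q) =
      Polynomial.eval₂ HahnSeries.C (jqModC QBar) (Q.map (OBar ℓ).subtype) := by
  rw [Polynomial.hom_eval₂, Polynomial.eval₂_map]
  have h1 : (serO ℓ).comp HahnSeries.C = HahnSeries.C.comp (OBar ℓ).subtype := by
    ext c : 1
    simp only [RingHom.coe_comp, Function.comp_apply, Subring.subtype_apply]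
    ext m
    rw [serO_coeff]
    by_cases hm : m = 0
    · subst hm; simp
    · simp [HahnSeries.C_apply, HahnSeries.coeff_single_of_ne hm]
  rw [h1, serO, coeffMap_jqModC]

/-- the degree bound. -/
theorem chartP_natDegree_le (k : ℕ) (Q : Polynomial (OBar ℓ))
    (hQ : (chartPOrb N ℓ).coeff k = Polynomial.eval₂ (constPair N ℓ) (jPair N ℓ) Q) :
    Q.natDegree ≤
      N * (Nat.card (SL(2, ℤ) ⧸ CongruenceSubgroup.Gamma0 N) - k) := by
  classical
  set n := Nat.card (SL(2, ℤ) ⧸ CongruenceSubgroup.Gamma0 N) with hn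
  set P := Q.map (OBar ℓ).subtype with hP
  have hdeg : P.natDegree = Q.natDegree :=
    Polynomial.natDegree_map_eq_of_injective Subtype.val_injective Q
  -- the coefficient vanishes below `-N² (n - k)`
  have hvan : ChartVanishBelow (IntPair.snd N ℓ ((chartPOrb N ℓ).coeff k))
      (-((N : ℤ) * N) * ((n : ℤ) - k)) := by
    have h1 := chartVanishBelow_prod_coeff (fun ξ => chartPSer N ℓ ξ) ((N : ℤ) * N)
      (by positivity) (fun ξ => chartPSer_coeff N ℓ ξ) Finset.univ k
    have h2 : ((chartPOrb N ℓ).map (IntPair.snd N ℓ)) =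
        ∏ ξ : SL(2, ℤ) ⧸ CongruenceSubgroup.Gamma0 N, (X - C (chartPSer N ℓ ξ)) := by
      rw [chartPOrb, Polynomial.map_prod]
      refine Finset.prod_congr rfl fun ξ _ => ?_
      rw [Polynomial.map_sub, Polynomial.map_X, Polynomial.map_C, chartPPair_snd]
    rw [← Polynomial.coeff_map, h2]
    rwa [Finset.card_univ, ← Nat.card_eq_fintype_card] at h1
  by_contra hlt
  push Not at hlt
  have hP0 : P.leadingCoeff ≠ 0 := by
    rw [Ne, Polynomial.leadingCoeff_eq_zero]
    intro h0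
    rw [← hdeg, h0, Polynomial.natDegree_zero] at hlt
    omega
  apply hP0
  rw [← chartP_coeff_eval₂_jq, ← qExpand_coeff_mul (N := N), ← chartP_serO_snd_eval₂, ← hQ,
    serO_coeff, hvan, ZeroMemClass.coe_zero]
  rw [hdeg]
  have hN : (0 : ℤ) < N := by exact_mod_cast Nat.pos_of_ne_zero (NeZero.ne N)
  rcases le_total k n with h | h
  · have h4 : ((N * (n - k) : ℕ) : ℤ) < Q.natDegree := by exact_mod_cast hlt
    rw [Nat.cast_mul, Nat.cast_sub h] at h4
    nlinarith
  · have h4 : (0 : ℤ) < Q.natDegree := by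
      have : 0 < Q.natDegree := lt_of_le_of_lt (Nat.zero_le _) hlt
      exact_mod_cast this
    have h5 : (n : ℤ) ≤ k := by exact_mod_cast h
    nlinarith [mul_pos hN hN, mul_pos hN h4]

end Coeff

/-! ### The main statement -/

section Main

variable (ℓ : ℕ) [Fact ℓ.Prime]

/-- `ℤ_(ℓ) → QBar`. -/
def chartPPhi : Zl ℓ →+* QBar := (algebraMap ℚ QBar).comp (GaloisRep.ratLocalizedAt ℓ).subtype

theorem chartPPhi_injective : Function.Injective (chartPPhi ℓ) :=
  (algebraMap ℚ QBar).injective.comp Subtype.val_injective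

/-- the expansion of a polynomial in `j` with coefficients in `ℤ_(ℓ)`, over `QBar`. -/
theorem chartP_coeffEmb_aeval (Q : Polynomial (Zl ℓ)) :
    coeffEmb QBar ((aeval (jFull N) Q : FF N) : LaurentSeries ℚ) =
      Polynomial.eval₂ HahnSeries.C (jqModC QBar) (Q.map (chartPPhi ℓ)) := by
  have h1 : coeffEmb QBar ((aeval (jFull N) Q : FF N) : LaurentSeries ℚ) =
      ((coeffEmb QBar).comp (SubringClass.subtype (modularFunctionFieldFull N)))
        (Polynomial.eval₂ (algebraMap (Zl ℓ) (FF N)) (jFull N) Q) := rfl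
  rw [h1, Polynomial.hom_eval₂, Polynomial.eval₂_map]
  have h2 : ((coeffEmb QBar).comp (SubringClass.subtype (modularFunctionFieldFull N))).comp
      (algebraMap (Zl ℓ) (FF N)) = HahnSeries.C.comp (chartPPhi ℓ) := by
    ext r : 1
    simp only [RingHom.coe_comp, Function.comp_apply]
    show coeffEmb QBar (((algebraMap ℚ (FF N) (r : ℚ) : FF N)) : LaurentSeries ℚ) = _
    have : ((algebraMap ℚ (FF N) (r : ℚ) : FF N) : LaurentSeries ℚ) = HahnSeries.C (r : ℚ) := by
      rw [HahnSeries.C_eq_algebraMap]; rfl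
    rw [this, HahnSeries.C_apply, HahnSeries.C_apply, coeffEmb, coeffMap_single]
    rfl
  have h3 : ((coeffEmb QBar).comp (SubringClass.subtype (modularFunctionFieldFull N))) (jFull N) =
      jqModC QBar := by
    show coeffEmb QBar jq = _
    rw [← jqModC_rat, coeffEmb, coeffMap_jqModC]
  rw [h2, h3]

/-- **The coefficients of the minimal polynomial of `j(q^N)` over `ℚ(j)`** are polynomials in `j`
with coefficients in `ℤ_(ℓ)`, of degree `≤ N (n - k)`. -/
theorem chartP_exists_coeff (k : ℕ) :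
    ∃ Q : Polynomial (Zl ℓ),
      Q.natDegree ≤ N * (Nat.card (SL(2, ℤ) ⧸ CongruenceSubgroup.Gamma0 N) - k) ∧
      (((minpoly ℚ⟮jFull N⟯ (jNFull N)).coeff k : ℚ⟮jFull N⟯) : FF N) = aeval (jFull N) Q := by
  obtain ⟨Q₀, hQ₀⟩ := chartPOrb_exists_poly N ℓ k
  have hdeg := chartP_natDegree_le N ℓ k Q₀ hQ₀
  have hser := chartP_coeffEmb_minpoly_coeff N ℓ k Q₀ hQ₀
  set P := Q₀.map (OBar ℓ).subtype with hP
  set c : LaurentSeries ℚ :=
    ((((minpoly ℚ⟮jFull N⟯ (jNFull N)).coeff k : ℚ⟮jFull N⟯) : FF N) : LaurentSeries ℚ) with hc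
  let A : Subring QBar := OBar ℓ ⊓ (algebraMap ℚ QBar).range
  have hA : ∀ m : ℤ, (Polynomial.aeval (jqModC QBar) P).coeff m ∈ A := by
    intro m
    have h1 : Polynomial.aeval (jqModC QBar) P =
        Polynomial.eval₂ HahnSeries.C (jqModC QBar) P := by
      rw [Polynomial.aeval_def]
      congr 1
      ext c : 1
      rw [algebraMap_laurentSeries_eq_single, HahnSeries.C_apply]
    rw [h1]
    refine ⟨?_, ?_⟩
    · rw [hP, ← chartP_serO_eval₂, serO_coeff]
      exact Subtype.mem _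
    · rw [← hser, coeffEmb_coeff]
      exact ⟨c.coeff m, rfl⟩
  have hcoef := coeff_mem_of_aeval_jq A P hA
  have hlift : P ∈ Polynomial.lifts (chartPPhi ℓ) := by
    rw [Polynomial.lifts_iff_coeff_lifts]
    intro i
    obtain ⟨h1, r, hr⟩ := hcoef i
    have hr' : algebraMap ℚ QBar r ∈ OBar ℓ := by rw [hr]; exact h1
    exact ⟨⟨r, mem_zl_of_mem_OBar ℓ r hr'⟩, hr⟩
  obtain ⟨Q, hQ⟩ := (Polynomial.mem_lifts P).1 hlift
  refine ⟨Q, ?_, ?_⟩
  · have h1 : Q.natDegree = P.natDegree := by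
      rw [← hQ]
      exact (Polynomial.natDegree_map_eq_of_injective (chartPPhi_injective ℓ) Q).symm
    have h2 : P.natDegree = Q₀.natDegree :=
      Polynomial.natDegree_map_eq_of_injective Subtype.val_injective Q₀
    rw [h1, h2]
    exact hdeg
  · apply Subtype.ext
    apply deg_coeffMap_injective (algebraMap ℚ QBar) (algebraMap ℚ QBar).injective
    show coeffEmb QBar c = coeffEmb QBar ((aeval (jFull N) Q : FF N) : LaurentSeries ℚ)
    rw [chartP_coeffEmb_aeval, hQ, hser]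

end Main

/-! ### Integrality of `j(q^N)` over `ℤ_(ℓ)[j]` and of `j(q^N)/j^N` over `ℤ_(ℓ)[1/j]` -/

section Integral

variable (ℓ : ℕ) [Fact ℓ.Prime]

theorem chartP_natDegree_minpoly :
    (minpoly ℚ⟮jFull N⟯ (jNFull N)).natDegree =
      Nat.card (SL(2, ℤ) ⧸ CongruenceSubgroup.Gamma0 N) := by
  obtain ⟨pb, hgen, hdim⟩ := exists_powerBasis_jNFull N
  rw [← hgen, pb.natDegree_minpoly, hdim]

theorem chartP_isIntegral_field : IsIntegral ℚ⟮jFull N⟯ (jNFull N) := by
  have := finiteDimensional_FF N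
  exact Algebra.IsIntegral.isIntegral _

/-- a monic polynomial over a subalgebra from a monic polynomial with coefficients in it. -/
theorem chartP_isIntegral_of_coeff_mem {R₀ : Subalgebra (Zl ℓ) (FF N)} {x : FF N}
    (p : Polynomial (FF N)) (hp : p.Monic) (hx : p.eval x = 0) (hc : ∀ i, p.coeff i ∈ R₀) :
    IsIntegral R₀ x := by
  have hlifts : p ∈ Polynomial.lifts (algebraMap R₀ (FF N)) :=
    (Polynomial.lifts_iff_coeff_lifts p).2 fun i => ⟨⟨p.coeff i, hc i⟩, rfl⟩
  obtain ⟨q, hq, -, hqm⟩ := Polynomial.lifts_and_natDegree_eq_and_monic hlifts hp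
  exact ⟨q, hqm, by rw [Polynomial.eval₂_eq_eval_map, hq, hx]⟩

/-- **`j(q^N)` is integral over `ℤ_(ℓ)[j]`.** -/
theorem chartP_isIntegral_jNFull :
    IsIntegral (Algebra.adjoin (Zl ℓ) {jFull N}) (jNFull N) := by
  set χ := minpoly ℚ⟮jFull N⟯ (jNFull N) with hχ
  refine chartP_isIntegral_of_coeff_mem N ℓ (χ.map (algebraMap ℚ⟮jFull N⟯ (FF N)))
    ((minpoly.monic (chartP_isIntegral_field N)).map _) ?_ ?_
  · rw [Polynomial.eval_map, ← Polynomial.aeval_def]
    exact minpoly.aeval _ _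
  · intro i
    obtain ⟨Q, -, hQ⟩ := chartP_exists_coeff N ℓ i
    rw [Polynomial.coeff_map]
    show ((χ.coeff i : ℚ⟮jFull N⟯) : FF N) ∈ _
    rw [hQ]
    exact chartR_aeval_mem ℓ (jFull N) Q

/-- `Q(j) / j^D ∈ ℤ_(ℓ)[1/j]` when `deg Q ≤ D`. -/
theorem chartP_aeval_mul_inv_pow_mem (Q : Polynomial (Zl ℓ)) (D : ℕ) (hD : Q.natDegree ≤ D) :
    aeval (jFull N) Q * ((jFull N)⁻¹) ^ D ∈ Algebra.adjoin (Zl ℓ) {(jFull N)⁻¹} := by
  rw [Polynomial.aeval_eq_sum_range' (Nat.lt_succ_of_le hD), Finset.sum_mul]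
  refine Subalgebra.sum_mem _ fun i hi => ?_
  have hi' : i ≤ D := Nat.lt_succ_iff.1 (Finset.mem_range.1 hi)
  have h1 : (jFull N) ^ i * ((jFull N)⁻¹) ^ D = ((jFull N)⁻¹) ^ (D - i) := by
    obtain ⟨e, rfl⟩ := Nat.exists_eq_add_of_le hi'
    rw [Nat.add_sub_cancel_left, pow_add, ← mul_assoc, ← mul_pow,
      mul_inv_cancel₀ (jFull_ne_zero N), one_pow, one_mul]
  rw [Algebra.smul_def, mul_assoc, h1]
  exact Subalgebra.mul_mem _ (Subalgebra.algebraMap_mem _ _)
    (Subalgebra.pow_mem _ (Algebra.self_mem_adjoin_singleton (Zl ℓ) ((jFull N)⁻¹)) _)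

/-- **`j(q^N) / j^N` is integral over `ℤ_(ℓ)[1/j]`.** -/
theorem chartP_isIntegral_theta :
    IsIntegral (Algebra.adjoin (Zl ℓ) {(jFull N)⁻¹}) (((jFull N)⁻¹) ^ N * jNFull N) := by
  set χ := minpoly ℚ⟮jFull N⟯ (jNFull N) with hχ
  set p := χ.map (algebraMap ℚ⟮jFull N⟯ (FF N)) with hp
  have hpm : p.Monic := (minpoly.monic (chartP_isIntegral_field N)).map _
  have hpd : p.natDegree = Nat.card (SL(2, ℤ) ⧸ CongruenceSubgroup.Gamma0 N) := by
    rw [hp, (minpoly.monic (chartP_isIntegral_field N)).natDegree_map, chartP_natDegree_minpoly]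
  have hp0 : p.eval (jNFull N) = 0 := by
    rw [hp, Polynomial.eval_map, ← Polynomial.aeval_def]
    exact minpoly.aeval _ _
  refine chartP_isIntegral_of_coeff_mem N ℓ (p.scaleRoots (((jFull N)⁻¹) ^ N))
    ((Polynomial.monic_scaleRoots_iff _).2 hpm) ?_ ?_
  · have := Polynomial.scaleRoots_eval₂_mul (p := p) (RingHom.id (FF N)) (jNFull N)
      (((jFull N)⁻¹) ^ N)
    rw [Polynomial.eval₂_id, Polynomial.eval₂_id, RingHom.id_apply, hp0, mul_zero] at this
    exact this
  · intro i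
    obtain ⟨Q, hQd, hQ⟩ := chartP_exists_coeff N ℓ i
    rw [Polynomial.coeff_scaleRoots, hpd, ← pow_mul, hp, Polynomial.coeff_map]
    show ((χ.coeff i : ℚ⟮jFull N⟯) : FF N) * _ ∈ _
    rw [hQ]
    exact chartP_aeval_mul_inv_pow_mem N ℓ Q _ hQd

end Integral

/-! ### The chart at infinity: `1/j` generates the same field -/

section Inv

theorem chartP_transcendental_inv : Transcendental ℚ ((jFull N)⁻¹) := by
  intro h
  apply transcendental_jFull N
  have := h.inv
  rwa [inv_inv] at this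

theorem chartP_inv_mem : (jFull N)⁻¹ ∈ ℚ⟮jFull N⟯ :=
  inv_mem (mem_adjoin_simple_self ℚ (jFull N))

theorem chartP_adjoin_inv_eq : ℚ⟮jFull N⟯ = ℚ⟮(jFull N)⁻¹⟯ := by
  apply le_antisymm
  · rw [adjoin_simple_le_iff]
    have h : (jFull N)⁻¹ ∈ ℚ⟮(jFull N)⁻¹⟯ := mem_adjoin_simple_self ℚ _
    have := inv_mem h
    rwa [inv_inv] at this
  · rw [adjoin_simple_le_iff]
    exact chartP_inv_mem N

end Inv

end Fermat.Agent.S28
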