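import Mathlib
import Fermat.Agent.S28.ChartFinSpec
import Fermat.Agent.S28.ChartInfSpec

/-!
# S28 leaf L6e : the reduced `q`-expansion maps of the chart algebras

From `chartAlgFin_integral` / `chartAlgFin_div` (and the `Inf` versions): every `x` in the chart
algebra `B` is `serZl ℓ S` for a unique `S ∈ ℤ_(ℓ)((q))`; put `ρ x = serZlRed ℓ S`.
-/

set_option autoImplicit false
set_option linter.unusedSectionVars false
open ModularCurve ModularCurve.IgusaScheme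
noncomputable section

namespace Fermat.Agent.S28

/-- abstract form: a subalgebra of the function field whose elements have `ℓ`-integral
`q`-expansions, with the divisibility property, has a reduced `q`-expansion map. -/
theorem chartRed_exists (N : ℕ) [NeZero N] (ℓ : ℕ) [Fact ℓ.Prime]
    (B : Subalgebra (Zl ℓ) (FF N))
    (hint : ∀ x : FF N, x ∈ B → ((x : FF N) : LaurentSeries ℚ) ∈ (serZl ℓ).range)
    (hdiv : ∀ x : FF N, x ∈ B → ∀ S : LaurentSeries (Zl ℓ),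
      serZl ℓ S = ((x : FF N) : LaurentSeries ℚ) → serZlRed ℓ S = 0 →
      ∃ y : FF N, y ∈ B ∧ x = ((ℓ : ℕ) : FF N) * y) :
    ∃ ρ : ↥B →+* LaurentSeries (ZMod ℓ),
      (∀ (x : ↥B) (S : LaurentSeries (Zl ℓ)),
        serZl ℓ S = (((x : ↥B) : FF N) : LaurentSeries ℚ) → ρ x = serZlRed ℓ S) ∧
      (∀ r : Zl ℓ, ρ (algebraMap (Zl ℓ) ↥B r) = HahnSeries.C (zlRed ℓ r)) ∧
      RingHom.ker ρ ≤ Ideal.map (algebraMap (Zl ℓ) ↥B) (RingHom.ker (zlRed ℓ)) := by
  classical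
  -- the inclusion `B → ℚ((q))`
  let ι : ↥B →+* LaurentSeries ℚ :=
    { toFun := fun x => (((x : ↥B) : FF N) : LaurentSeries ℚ)
      map_one' := rfl
      map_mul' := fun _ _ => rfl
      map_zero' := rfl
      map_add' := fun _ _ => rfl }
  have hι : ∀ x : ↥B, ι x = (((x : ↥B) : FF N) : LaurentSeries ℚ) := fun _ => rfl
  -- lift to the range of `serZl`
  let φ : ↥B →+* (serZl ℓ).range :=
    ι.codRestrict (serZl ℓ).range (fun x => hint x x.2)
  let e : LaurentSeries (Zl ℓ) ≃+* (serZl ℓ).range :=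
    RingEquiv.ofBijective (serZl ℓ).rangeRestrict
      ⟨fun a b hab => serZl_injective ℓ
          (congrArg (fun z : (serZl ℓ).range => (z : LaurentSeries ℚ)) hab),
        (serZl ℓ).rangeRestrict_surjective⟩
  let ψ : ↥B →+* LaurentSeries (Zl ℓ) := (e.symm : (serZl ℓ).range →+* _).comp φ
  have hψ : ∀ x : ↥B, serZl ℓ (ψ x) = (((x : ↥B) : FF N) : LaurentSeries ℚ) := by
    intro x
    have h1 : e (ψ x) = φ x := e.apply_symm_apply (φ x)
    have h2 := congrArg (fun z : (serZl ℓ).range => (z : LaurentSeries ℚ)) h1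
    exact h2
  have huniq : ∀ (x : ↥B) (S : LaurentSeries (Zl ℓ)),
      serZl ℓ S = (((x : ↥B) : FF N) : LaurentSeries ℚ) → ψ x = S := by
    intro x S hS
    exact serZl_injective ℓ ((hψ x).trans hS.symm)
  refine ⟨(serZlRed ℓ).comp ψ, ?_, ?_, ?_⟩
  · intro x S hS
    rw [RingHom.comp_apply, huniq x S hS]
  · intro r
    have hC : serZl ℓ (HahnSeries.C r) =
        (((algebraMap (Zl ℓ) ↥B r : ↥B) : FF N) : LaurentSeries ℚ) := by
      have h1 : serZl ℓ (HahnSeries.C r) = HahnSeries.C ((r : Zl ℓ) : ℚ) := by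
        unfold serZl
        rw [HahnSeries.C_apply, HahnSeries.C_apply, coeffMap_single]
        rfl
      rw [h1]
      rfl
    rw [RingHom.comp_apply, huniq _ _ hC]
    unfold serZlRed
    rw [HahnSeries.C_apply, HahnSeries.C_apply, coeffMap_single]
  · intro x hx
    rw [RingHom.mem_ker, RingHom.comp_apply] at hx
    obtain ⟨y, hyB, hxy⟩ := hdiv x x.2 (ψ x) (hψ x) hx
    have hℓmem : ((ℓ : ℕ) : Zl ℓ) ∈ RingHom.ker (zlRed ℓ) := by
      rw [RingHom.mem_ker, map_natCast]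
      exact ZMod.natCast_self ℓ
    have hx' : x = algebraMap (Zl ℓ) ↥B ((ℓ : ℕ) : Zl ℓ) * ⟨y, hyB⟩ := by
      apply Subtype.ext
      rw [map_natCast]
      push_cast
      exact hxy
    rw [hx']
    exact Ideal.mul_mem_right _ _ (Ideal.mem_map_of_mem _ hℓmem)

theorem exists_redFin (N : ℕ) [NeZero N] (ℓ : ℕ) [Fact ℓ.Prime] (hℓN : ¬ ℓ ∣ N) :
    ∃ ρ : ↥(chartAlgFin N ℓ) →+* LaurentSeries (ZMod ℓ),
      (∀ r : Zl ℓ, ρ (algebraMap (Zl ℓ) ↥(chartAlgFin N ℓ) r) = HahnSeries.C (zlRed ℓ r)) ∧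
      RingHom.ker ρ ≤ Ideal.map (algebraMap (Zl ℓ) ↥(chartAlgFin N ℓ)) (RingHom.ker (zlRed ℓ)) ∧
      ρ (jChartFin N ℓ) ≠ 0 := by
  obtain ⟨ρ, hρ, hC, hker⟩ := chartRed_exists N ℓ (chartAlgFin N ℓ)
    (fun x hx => chartAlgFin_integral N ℓ hℓN x hx)
    (fun x hx S hS hred => chartAlgFin_div N ℓ hℓN x hx S hS hred)
  refine ⟨ρ, hC, hker, ?_⟩
  obtain ⟨S, hS⟩ := chartAlgFin_integral N ℓ hℓN (jFull N) (jChartFin N ℓ).2
  have hS' : serZl ℓ S = (((jChartFin N ℓ : ↥(chartAlgFin N ℓ)) : FF N) : LaurentSeries ℚ) := hS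
  rw [hρ _ S hS']
  intro h0
  have h1 := congrArg (fun T : LaurentSeries (ZMod ℓ) => T.coeff (-1 : ℤ)) h0
  simp only [serZlRed_coeff, HahnSeries.coeff_zero] at h1
  have h2 : ((S.coeff (-1 : ℤ) : Zl ℓ) : ℚ) = 1 := by
    have h3 := congrArg (fun T : LaurentSeries ℚ => T.coeff (-1 : ℤ)) hS
    simp only [serZl_coeff] at h3
    rw [h3]
    exact coeff_jq_neg_one
  have h4 : S.coeff (-1 : ℤ) = 1 := Subtype.ext h2
  rw [h4, map_one] at h1
  exact one_ne_zero h1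

theorem exists_redInf (N : ℕ) [NeZero N] (ℓ : ℕ) [Fact ℓ.Prime] (hℓN : ¬ ℓ ∣ N) :
    ∃ ρ : ↥(chartAlgInf N ℓ) →+* LaurentSeries (ZMod ℓ),
      (∀ r : Zl ℓ, ρ (algebraMap (Zl ℓ) ↥(chartAlgInf N ℓ) r) = HahnSeries.C (zlRed ℓ r)) ∧
      RingHom.ker ρ ≤ Ideal.map (algebraMap (Zl ℓ) ↥(chartAlgInf N ℓ)) (RingHom.ker (zlRed ℓ)) := by
  obtain ⟨ρ, -, hC, hker⟩ := chartRed_exists N ℓ (chartAlgInf N ℓ)
    (fun x hx => chartAlgInf_integral N ℓ hℓN x hx)
    (fun x hx S hS hred => chartAlgInf_div N ℓ hℓN x hx S hS hred)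
  exact ⟨ρ, hC, hker⟩

end Fermat.Agent.S28
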