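import Mathlib
import Fermat.Agent.S28.ChartPoly

/-!
# S28 : integrality of the chart generators (`h_θ` of `qep_abstract` for both charts)

* `isIntegral_jNFull_fin` : `j(q^N)` is integral over `ℤ_(ℓ)[j]`;
* `isIntegral_theta_inf` : `j(q^N) / j^N` is integral over `ℤ_(ℓ)[1/j]`.

Both are proved in `ChartPoly.lean`.
-/

set_option autoImplicit false
set_option linter.unusedSectionVars false

noncomputable section

namespace Fermat.Agent.S28

open UpperHalfPlane ModularCurve ModularCurve.IgusaScheme Fermat.Agent.S24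
open scoped MatrixGroups

variable (N : ℕ) [NeZero N] (ℓ : ℕ) [Fact ℓ.Prime]

theorem isIntegral_jNFull_fin :
    IsIntegral (Algebra.adjoin (Zl ℓ) {jFull N}) (jNFull N) :=
  chartP_isIntegral_jNFull N ℓ

theorem isIntegral_theta_inf :
    IsIntegral (Algebra.adjoin (Zl ℓ) {(jFull N)⁻¹}) ((jFull N)⁻¹ ^ N * jNFull N) :=
  chartP_isIntegral_theta N ℓ

end Fermat.Agent.S28
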