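import Mathlib
import Fermat.Agent.S24.Invariant

/-!
# S28 layer L1 : the integral invariant theorem

A holomorphic function on `ℍ`, invariant under `SL(2, ℤ)`, with a `q`-expansion (finite pole
order at `i∞`) whose coefficients lie in a ring `A` (embedded in `ℂ` by `ι`), is a polynomial in `j`
with coefficients in `A`.  Generalisation of `Fermat.Agent.S24.exists_poly_of_invariant`
(which is the case `A = Qbar`).
-/

set_option autoImplicit false

noncomputable section

namespace Fermat.Agent.S28

open UpperHalfPlane ModularCurve Fermat.Agent.S24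
open scoped MatrixGroups Manifold ModularForm Real

variable {A : Type*} [CommRing A]

theorem invRing_algebraMap_eq_single (c : A) :
    algebraMap A (LaurentSeries A) c = HahnSeries.single 0 c := by
  have h1 : algebraMap A (PowerSeries A) c = PowerSeries.C c := by simp
  rw [HahnSeries.algebraMap_apply', h1, HahnSeries.ofPowerSeries_C]
  rfl

theorem invRing_coeffMap_injective (ι : A →+* ℂ) (hι : Function.Injective ι) :
    Function.Injective (coeffMap ι) := by
  intro x y hxy
  ext k
  have := congrArg (fun z => z.coeff k) hxy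
  simp only [coeffMap_coeff] at this
  exact hι this

theorem invRing_aux (ι : A →+* ℂ) (hι : Function.Injective ι) (n : ℕ) : ∀ (h : HolRing)
    (_ : ∀ γ : SL(2, ℤ), γ • h = h) (S : LaurentSeries A)
    (_ : HasCuspExp 1 (h : ℍ → ℂ) (coeffMap ι S))
    (_ : ∀ m : ℤ, m < -(n : ℤ) → S.coeff m = 0),
    ∃ P : Polynomial A, S = Polynomial.aeval (jqModC A) P ∧
      h = Polynomial.aeval jHol (P.map ι) := by
  induction n with
  | zero =>
    intro h hinv S hS hn
    set c : A := S.coeff 0 with hc
    set S' : LaurentSeries A := S - HahnSeries.C c with hS'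
    have hS'coeff : ∀ m : ℤ, m ≤ 0 → S'.coeff m = 0 := by
      intro m hm
      rcases hm.lt_or_eq with hlt | rfl
      · have h1 : S.coeff m = 0 := hn m (by simpa using hlt)
        simp [hS', h1, HahnSeries.C_apply, HahnSeries.coeff_single_of_ne hlt.ne]
      · simp [hS', hc, HahnSeries.C_apply]
    set g : ℍ → ℂ := (h : ℍ → ℂ) + -(fun _ => ι c) with hg
    have hexp : HasCuspExp 1 g (coeffMap ι S') := by
      have h1 := HasCuspExp.const (h := 1) (ι c)
      have h2 := hS.add h1.neg
      have h3 : coeffMap ι S' = coeffMap ι S + -HahnSeries.C (ι c) := by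
        rw [hS', map_sub, sub_eq_add_neg, HahnSeries.C_apply, coeffMap_single, HahnSeries.C_apply]
      rw [h3]
      exact h2
    have hzero := hexp.isZeroAtImInfty (fun m hm => by
      rw [coeffMap_coeff, hS'coeff m hm, map_zero])
    have hmd : MDiff g :=
      h.2.add (mdifferentiable_const).neg
    have hinv' : ∀ (γ : SL(2, ℤ)) (τ : ℍ), g (γ • τ) = g τ := by
      intro γ τ
      have := congrArg (fun g : HolRing => (g : ℍ → ℂ) τ) (hinv γ⁻¹)
      simp only [HolRing.inv_smul_apply] at this
      show (h : ℍ → ℂ) (γ • τ) + -(ι c) = (h : ℍ → ℂ) τ + -(ι c)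
      rw [this]
    have hf0 := inv_eq_zero_of_isZeroAtImInfty _ hmd hinv' hzero
    have hexp0 := hexp
    rw [hf0] at hexp0
    have h0exp : HasCuspExp 1 (0 : ℍ → ℂ) (0 : LaurentSeries ℂ) := by
      have := HasCuspExp.const (h := 1) (0 : ℂ)
      rw [map_zero] at this
      exact this
    have hS'0 : S' = 0 := by
      apply invRing_coeffMap_injective ι hι
      rw [map_zero]
      exact hexp0.unique h0exp
    refine ⟨Polynomial.C c, ?_, ?_⟩
    · rw [Polynomial.aeval_C, invRing_algebraMap_eq_single]
      have : S = HahnSeries.C c := by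
        rw [hS', sub_eq_zero] at hS'0
        exact hS'0
      rw [this, HahnSeries.C_apply]
    · rw [Polynomial.map_C, Polynomial.aeval_C]
      apply Subtype.ext
      funext τ
      have h1 := congrFun hf0 τ
      simp only [hg, Pi.add_apply, Pi.neg_apply, Pi.zero_apply] at h1
      have h2 : (h : ℍ → ℂ) τ = ι c := by linear_combination h1
      rw [h2]
      rfl
  | succ n ih =>
    intro h hinv S hS hn
    set c : A := S.coeff (-((n + 1 : ℕ) : ℤ)) with hc
    set J : LaurentSeries A := jqModC A with hJ
    set S' : LaurentSeries A := S - HahnSeries.C c * J ^ (n + 1) with hS'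
    set h' : HolRing := h - HolRing.C (ι c) * jHol ^ (n + 1) with hh'
    have hinv' : ∀ γ : SL(2, ℤ), γ • h' = h' := by
      intro γ
      rw [hh', smul_sub, smul_mul', smul_pow', hinv γ, jHol_smul, HolRing.C_smul]
    have hcoeff : ∀ m : ℤ, (HahnSeries.C c * J ^ (n + 1)).coeff m = c * (J ^ (n + 1)).coeff m := by
      intro m
      rw [HahnSeries.C_mul_eq_smul, HahnSeries.coeff_smul, smul_eq_mul]
    have hS'coeff : ∀ m : ℤ, m < -(n : ℤ) → S'.coeff m = 0 := by
      intro m hm
      have hm' : m ≤ -((n + 1 : ℕ) : ℤ) := by push_cast; omega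
      rcases hm'.lt_or_eq with hlt | rfl
      · rw [hS', HahnSeries.coeff_sub, hcoeff, hn m hlt, hJ, coeff_jqModC_pow_of_lt A hlt]
        simp
      · rw [hS', HahnSeries.coeff_sub, hcoeff, hJ, coeff_jqModC_pow_self]
        simp [hc]
    have hexp : HasCuspExp 1 (h' : ℍ → ℂ) (coeffMap ι S') := by
      have h1 := HasCuspExp.const (h := 1) (ι c)
      have h2 := (hasCuspExp_jFun.pow' (n + 1))
      have h3 := hS.add (h1.mul h2).neg
      have h4 : coeffMap ι S' =
          coeffMap ι S + -(HahnSeries.C (ι c) * jqModC ℂ ^ (n + 1)) := by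
        rw [hS', map_sub, map_mul, map_pow, hJ, coeffMap_jqModC, sub_eq_add_neg,
          HahnSeries.C_apply, coeffMap_single, HahnSeries.C_apply]
      rw [h4]
      exact h3
    obtain ⟨P', hP', hP'h⟩ := ih h' hinv' S' hexp hS'coeff
    refine ⟨P' + Polynomial.C c * Polynomial.X ^ (n + 1), ?_, ?_⟩
    · rw [map_add, map_mul, map_pow, Polynomial.aeval_X, Polynomial.aeval_C, ← hP',
        invRing_algebraMap_eq_single, hS', ← HahnSeries.C_apply]
      ring
    · rw [Polynomial.map_add, Polynomial.map_mul, Polynomial.map_pow, Polynomial.map_X,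
        Polynomial.map_C, map_add, map_mul, map_pow, Polynomial.aeval_X, Polynomial.aeval_C,
        ← hP'h, hh']
      rw [HolRing.algebraMap_eq]
      ring

/-- (S28-L1) The integral invariant theorem: an `SL(2, ℤ)`-invariant holomorphic function whose
`q`-expansion has coefficients in `A` is a polynomial in `j` with coefficients in `A`. -/
theorem exists_poly_of_invariant_ring (ι : A →+* ℂ) (hι : Function.Injective ι) (h : HolRing)
    (hinv : ∀ γ : SL(2, ℤ), γ • h = h) (S : LaurentSeries A)
    (hS : HasCuspExp 1 (h : ℍ → ℂ) (coeffMap ι S)) :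
    ∃ P : Polynomial A, S = Polynomial.aeval (jqModC A) P ∧
      h = Polynomial.aeval jHol (P.map ι) := by
  apply invRing_aux ι hι (-S.order).toNat h hinv S hS
  intro m hm
  apply HahnSeries.coeff_eq_zero_of_lt_order
  have := Int.self_le_toNat (-S.order)
  omega

/-- Function-level form of the conclusion. -/
theorem exists_poly_of_invariant_ring' (ι : A →+* ℂ) (hι : Function.Injective ι) (h : HolRing)
    (hinv : ∀ γ : SL(2, ℤ), γ • h = h) (S : LaurentSeries A)
    (hS : HasCuspExp 1 (h : ℍ → ℂ) (coeffMap ι S)) :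
    ∃ P : Polynomial A, S = Polynomial.aeval (jqModC A) P ∧
      ∀ τ : ℍ, (h : ℍ → ℂ) τ = (P.map ι).eval (jFun τ) := by
  obtain ⟨P, hP1, hP2⟩ := exists_poly_of_invariant_ring ι hι h hinv S hS
  refine ⟨P, hP1, fun τ => ?_⟩
  set ev : HolRing →+* ℂ := (Pi.evalRingHom (fun _ : ℍ => ℂ) τ).comp HolRing.subtype with hev
  have h1 : (h : ℍ → ℂ) τ = ev h := rfl
  have h2 : ev.comp (algebraMap ℂ HolRing) = RingHom.id ℂ := by
    ext c
    rfl
  rw [h1, hP2, Polynomial.aeval_def, Polynomial.hom_eval₂, h2, Polynomial.eval₂_id]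
  rfl

end Fermat.Agent.S28
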