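import Mathlib
import Fermat.Agent.S28.Defs
import Fermat.Agent.S24.Degree
import Fermat.Agent.S28.InvariantRing

/-!
# S28 leaf L1 : the integral invariant theorem

(a) Algebra: if `Q ∈ E[X]` and all coefficients of the Laurent series `Q(j)` lie in a subring `A`
then `Q ∈ A[X]`; same for `1/j`.

(b) An `SL(2,ℤ)`-invariant holomorphic function whose expansion in `s = exp(2πiτ/N)` has
coefficients in `OBar ℓ` is `Q(j)` with `Q ∈ OBar[X]`.
-/

set_option autoImplicit false

noncomputable section

namespace Fermat.Agent.S28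

open UpperHalfPlane ModularCurve Fermat.Agent.S24
open scoped MatrixGroups

/-! ### (a) for `j` : induction from the top -/

section AlgTop

variable {E : Type*} [Field E]

theorem intInv_coeff_jq_pow_mem (A : Subring E) (d : ℕ) (m : ℤ) :
    ((jqModC E) ^ d).coeff m ∈ A := by
  have h : (jqModC E) ^ d = coeffMap (Int.castRingHom E) ((jqModC ℤ) ^ d) := by
    rw [map_pow, coeffMap_jqModC]
  rw [h, coeffMap_coeff, eq_intCast]
  exact intCast_mem A _

theorem intInv_coeff_algebraMap_mul (c : E) (x : LaurentSeries E) (m : ℤ) :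
    (algebraMap E (LaurentSeries E) c * x).coeff m = c * x.coeff m := by
  rw [invRing_algebraMap_eq_single, ← HahnSeries.C_apply, HahnSeries.C_mul_eq_smul,
    HahnSeries.coeff_smul, smul_eq_mul]

theorem intInv_coeff_aeval_of_lt (Q : Polynomial E) (n : ℕ) (hQ : Q.natDegree ≤ n) (m : ℤ)
    (hm : m < -(n : ℤ)) : (Polynomial.aeval (jqModC E) Q).coeff m = 0 := by
  rw [Polynomial.aeval_eq_sum_range' (Nat.lt_succ_of_le hQ), HahnSeries.coeff_sum]
  apply Finset.sum_eq_zero
  intro i hi
  have hi' := Finset.mem_range.mp hi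
  rw [Algebra.smul_def, intInv_coeff_algebraMap_mul, coeff_jqModC_pow_of_lt E (by omega), mul_zero]

theorem intInv_aeval_jq_aux (A : Subring E) (n : ℕ) :
    ∀ Q : Polynomial E, Q.natDegree ≤ n →
      (∀ m : ℤ, (Polynomial.aeval (jqModC E) Q).coeff m ∈ A) → ∀ i : ℕ, Q.coeff i ∈ A := by
  induction n with
  | zero =>
    intro Q hQ h i
    have hQ' := Polynomial.eq_C_of_natDegree_le_zero hQ
    have h0 := h 0
    rw [hQ', Polynomial.aeval_C, invRing_algebraMap_eq_single, HahnSeries.coeff_single_same] at h0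
    rw [hQ', Polynomial.coeff_C]
    split_ifs
    · exact h0
    · exact A.zero_mem
  | succ n ih =>
    intro Q hQ h i
    set c := Q.coeff (n + 1) with hc
    set Q' := Q - Polynomial.C c * Polynomial.X ^ (n + 1) with hQ'
    have hdeg : Q'.natDegree ≤ n := by
      rw [Polynomial.natDegree_le_iff_coeff_eq_zero]
      intro k hk
      rw [hQ', Polynomial.coeff_sub, Polynomial.coeff_C_mul, Polynomial.coeff_X_pow]
      by_cases hk' : k = n + 1
      · subst hk'; simp [hc]
      · have : Q.coeff k = 0 := Polynomial.coeff_eq_zero_of_natDegree_lt (by omega)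
        simp [hk', this]
    have hQeq : Q = Q' + Polynomial.C c * Polynomial.X ^ (n + 1) := by rw [hQ']; ring
    have haev : Polynomial.aeval (jqModC E) Q =
        Polynomial.aeval (jqModC E) Q' +
          algebraMap E (LaurentSeries E) c * (jqModC E) ^ (n + 1) := by
      conv_lhs => rw [hQeq]
      rw [map_add, map_mul, map_pow, Polynomial.aeval_X, Polynomial.aeval_C]
    have hcA : c ∈ A := by
      have h1 := h (-((n + 1 : ℕ) : ℤ))
      rw [haev, HahnSeries.coeff_add, intInv_coeff_algebraMap_mul, coeff_jqModC_pow_self,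
        intInv_coeff_aeval_of_lt Q' n hdeg _ (by push_cast; omega), zero_add,
        mul_one] at h1
      exact h1
    have h' : ∀ m : ℤ, (Polynomial.aeval (jqModC E) Q').coeff m ∈ A := by
      intro m
      have h1 := h m
      rw [haev, HahnSeries.coeff_add, intInv_coeff_algebraMap_mul] at h1
      have h2 : c * ((jqModC E) ^ (n + 1)).coeff m ∈ A :=
        A.mul_mem hcA (intInv_coeff_jq_pow_mem A _ _)
      have := A.sub_mem h1 h2
      simpa using this
    have hi := ih Q' hdeg h' i
    rw [hQeq, Polynomial.coeff_add, Polynomial.coeff_C_mul, Polynomial.coeff_X_pow]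
    refine A.add_mem hi ?_
    split_ifs
    · simpa using hcA
    · simp

theorem coeff_mem_of_aeval_jq {E : Type*} [Field E] (A : Subring E) (Q : Polynomial E)
    (h : ∀ m : ℤ, (Polynomial.aeval (jqModC E) Q).coeff m ∈ A) : ∀ i : ℕ, Q.coeff i ∈ A :=
  intInv_aeval_jq_aux A Q.natDegree Q le_rfl h

end AlgTop

/-! ### (a) for `1/j` : induction from the bottom, in power series -/

section AlgBot

variable {E : Type*} [Field E]

/-- The inverse of the unit part of `j`. -/
def intInvJNumInv : PowerSeries ℤ := jNum.invOfUnit 1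

theorem intInv_jNum_mul_inv : jNum * intInvJNumInv = 1 :=
  PowerSeries.mul_invOfUnit _ _ (by rw [constantCoeff_jNum]; rfl)

/-- `1/j` as a power series: `X * (unit part)⁻¹`. -/
def intInvT (E : Type*) [CommRing E] : PowerSeries E :=
  PowerSeries.X * intInvJNumInv.map (Int.castRingHom E)

theorem intInv_jq_inv_eq : (jqModC E)⁻¹ = HahnSeries.ofPowerSeries ℤ E (intInvT E) := by
  apply inv_eq_of_mul_eq_one_right
  rw [jqModC, intInvT, map_mul, HahnSeries.ofPowerSeries_X]
  have h1 : HahnSeries.ofPowerSeries ℤ E (jNum.map (Int.castRingHom E)) *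
      HahnSeries.ofPowerSeries ℤ E (intInvJNumInv.map (Int.castRingHom E)) = 1 := by
    rw [← map_mul, ← map_mul, intInv_jNum_mul_inv, map_one, map_one]
  calc HahnSeries.single (-1 : ℤ) (1 : E) *
        HahnSeries.ofPowerSeries ℤ E (jNum.map (Int.castRingHom E)) *
        (HahnSeries.single (1 : ℤ) (1 : E) *
          HahnSeries.ofPowerSeries ℤ E (intInvJNumInv.map (Int.castRingHom E)))
      = (HahnSeries.single (-1 : ℤ) (1 : E) * HahnSeries.single (1 : ℤ) (1 : E)) *
        (HahnSeries.ofPowerSeries ℤ E (jNum.map (Int.castRingHom E)) *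
          HahnSeries.ofPowerSeries ℤ E (intInvJNumInv.map (Int.castRingHom E))) := by ring
    _ = 1 := by
      rw [h1, HahnSeries.single_mul_single, mul_one, mul_one]
      rfl

theorem intInv_aeval_inv_eq (Q : Polynomial E) :
    Polynomial.aeval (jqModC E)⁻¹ Q =
      HahnSeries.ofPowerSeries ℤ E (Polynomial.aeval (intInvT E) Q) := by
  rw [intInv_jq_inv_eq, Polynomial.aeval_def, Polynomial.aeval_def, Polynomial.hom_eval₂]
  rfl

theorem intInv_coeff_map_mem (A : Subring E) (p : PowerSeries ℤ) (j : ℕ) :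
    PowerSeries.coeff j (p.map (Int.castRingHom E)) ∈ A := by
  rw [PowerSeries.coeff_map, eq_intCast]
  exact intCast_mem A _

theorem intInv_aeval_T_aux (A : Subring E) (n : ℕ) :
    ∀ Q : Polynomial E, Q.natDegree ≤ n →
      (∀ m : ℕ, PowerSeries.coeff m (Polynomial.aeval (intInvT E) Q) ∈ A) →
      ∀ i : ℕ, Q.coeff i ∈ A := by
  induction n with
  | zero =>
    intro Q hQ h i
    have hQ' := Polynomial.eq_C_of_natDegree_le_zero hQ
    have h0 := h 0
    rw [hQ', Polynomial.aeval_C] at h0
    have h1 : PowerSeries.coeff 0 (algebraMap E (PowerSeries E) (Q.coeff 0)) = Q.coeff 0 := by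
      simp
    rw [h1] at h0
    rw [hQ', Polynomial.coeff_C]
    split_ifs
    · exact h0
    · exact A.zero_mem
  | succ n ih =>
    intro Q hQ h i
    set c := Q.coeff 0 with hc
    set Q1 := Q.divX with hQ1
    set w : PowerSeries E := intInvJNumInv.map (Int.castRingHom E) with hw
    set w' : PowerSeries E := jNum.map (Int.castRingHom E) with hw'
    have hww' : w * w' = 1 := by
      rw [hw, hw', ← map_mul, mul_comm, intInv_jNum_mul_inv, map_one]
    have hdeg : Q1.natDegree ≤ n := by
      rw [hQ1, Polynomial.natDegree_divX_eq_natDegree_tsub_one]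
      omega
    have hQeq : Q = Q1 * Polynomial.X + Polynomial.C c := (Polynomial.divX_mul_X_add Q).symm
    set G : PowerSeries E := Polynomial.aeval (intInvT E) Q1 * w with hG
    have haev : Polynomial.aeval (intInvT E) Q = G * PowerSeries.X + PowerSeries.C c := by
      conv_lhs => rw [hQeq]
      rw [map_add, map_mul, Polynomial.aeval_X, Polynomial.aeval_C, hG, intInvT]
      have : algebraMap E (PowerSeries E) c = PowerSeries.C c := rfl
      rw [this]
      ring
    have hcA : c ∈ A := by
      have h0 := h 0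
      rw [haev, map_add, PowerSeries.coeff_zero_mul_X, zero_add,
        PowerSeries.coeff_zero_C] at h0
      exact h0
    have hGA : ∀ m : ℕ, PowerSeries.coeff m G ∈ A := by
      intro m
      have h1 := h (m + 1)
      rw [haev, map_add, PowerSeries.coeff_succ_mul_X, PowerSeries.coeff_C,
        if_neg (Nat.succ_ne_zero m), add_zero] at h1
      exact h1
    have hQ1eq : Polynomial.aeval (intInvT E) Q1 = G * w' := by
      rw [hG, mul_assoc, hww', mul_one]
    have h' : ∀ m : ℕ, PowerSeries.coeff m (Polynomial.aeval (intInvT E) Q1) ∈ A := by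
      intro m
      rw [hQ1eq, PowerSeries.coeff_mul]
      refine A.sum_mem fun x _ => A.mul_mem (hGA _) ?_
      rw [hw']
      exact intInv_coeff_map_mem A _ _
    have hi := ih Q1 hdeg h'
    rcases i with _ | i
    · exact hcA
    · have := hi i
      rwa [hQ1, Polynomial.coeff_divX] at this

theorem coeff_mem_of_aeval_jq_inv {E : Type*} [Field E] (A : Subring E) (Q : Polynomial E)
    (h : ∀ m : ℤ, (Polynomial.aeval (jqModC E)⁻¹ Q).coeff m ∈ A) : ∀ i : ℕ, Q.coeff i ∈ A := by
  apply intInv_aeval_T_aux A Q.natDegree Q le_rfl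
  intro m
  have h1 := h (m : ℤ)
  rwa [intInv_aeval_inv_eq, HahnSeries.ofPowerSeries_apply_coeff] at h1

end AlgBot

/-! ### (b) pairs -/

variable (N : ℕ) [NeZero N] (ℓ : ℕ)

/-- The pair `(j, j(s^N))`. -/
theorem jPair_mem : ((jHol, qExpand (OBar ℓ) N (jqModC (OBar ℓ))) :
    HolRing × LaurentSeries (OBar ℓ)) ∈ IntPair N ℓ := by
  rw [mem_IntPair]
  show HasCuspExp N (jHol : ℍ → ℂ)
    (coeffMap iotaBar (serO ℓ (qExpand (OBar ℓ) N (jqModC (OBar ℓ)))))
  rw [serO, coeffMap_qExpand, coeffMap_qExpand, coeffMap_jqModC, coeffMap_jqModC]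
  have := hasCuspExp_jFun.qExpand N
  rwa [one_mul] at this

/-- `j` as an element of `IntPair`. -/
def jPair : IntPair N ℓ := ⟨(jHol, qExpand (OBar ℓ) N (jqModC (OBar ℓ))), jPair_mem N ℓ⟩

theorem constPair_mem (c : OBar ℓ) : ((HolRing.C (iotaBar (c : QBar)), HahnSeries.C c) :
    HolRing × LaurentSeries (OBar ℓ)) ∈ IntPair N ℓ := by
  rw [mem_IntPair]
  show HasCuspExp N (HolRing.C (iotaBar (c : QBar)) : ℍ → ℂ)
    (coeffMap iotaBar (serO ℓ (HahnSeries.C c)))
  rw [HahnSeries.C_apply, serO, coeffMap_single, coeffMap_single, ← HahnSeries.C_apply]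
  exact HasCuspExp.const (h := N) (iotaBar (c : QBar))

/-- Constants as elements of `IntPair`. -/
def constPair : OBar ℓ →+* IntPair N ℓ where
  toFun c := ⟨(HolRing.C (iotaBar (c : QBar)), HahnSeries.C c), constPair_mem N ℓ c⟩
  map_one' := by
    apply Subtype.ext
    simp
  map_mul' a b := by
    apply Subtype.ext
    simp
  map_zero' := by
    apply Subtype.ext
    simp
  map_add' a b := by
    apply Subtype.ext
    simp

/-- Two pairs with the same function are equal. -/
theorem IntPair.ext_fst {p p' : IntPair N ℓ} (h : IntPair.fst N ℓ p = IntPair.fst N ℓ p') :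
    p = p' := by
  have hp := p.2
  have hp' := p'.2
  rw [mem_IntPair] at hp hp'
  have h1 : (p : HolRing × LaurentSeries (OBar ℓ)).1 = (p' : HolRing × LaurentSeries (OBar ℓ)).1 := h
  rw [h1] at hp
  have h2 := hp.unique hp'
  have h3 : (p : HolRing × LaurentSeries (OBar ℓ)).2 = (p' : HolRing × LaurentSeries (OBar ℓ)).2 :=
    serO_injective ℓ (deg_coeffMap_injective iotaBar iotaBar_injective h2)
  exact Subtype.ext (Prod.ext h1 h3)

/-- Two pairs with the same expansion are equal. -/
theorem IntPair.ext_snd {p p' : IntPair N ℓ} (h : IntPair.snd N ℓ p = IntPair.snd N ℓ p') :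
    p = p' := by
  have hp := p.2
  have hp' := p'.2
  rw [mem_IntPair] at hp hp'
  have h2 : (p : HolRing × LaurentSeries (OBar ℓ)).2 = (p' : HolRing × LaurentSeries (OBar ℓ)).2 := h
  rw [h2] at hp
  have hf := hp.eq_of_eq hp'
  exact Subtype.ext (Prod.ext (Subtype.ext hf) h2)

/-- **Integral invariant theorem.** -/
theorem intPair_invariant (p : IntPair N ℓ)
    (hinv : ∀ γ : SL(2, ℤ), γ • IntPair.fst N ℓ p = IntPair.fst N ℓ p) :
    ∃ Q : Polynomial (OBar ℓ), p = Polynomial.eval₂ (constPair N ℓ) (jPair N ℓ) Q := by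
  set f : HolRing := IntPair.fst N ℓ p with hf
  set S : LaurentSeries (OBar ℓ) := IntPair.snd N ℓ p with hS
  have hexp : HasCuspExp N (f : ℍ → ℂ) (coeffMap iotaBar (serO ℓ S)) := p.2
  have hper : ∀ τ : ℍ, (f : ℍ → ℂ) (ModularGroup.T • τ) = (f : ℍ → ℂ) τ := by
    intro τ
    rw [← HolRing.inv_smul_apply, hinv]
  obtain ⟨S₁, hS₁, hS₁'⟩ := hexp.exists_of_periodic hper
  set ι : OBar ℓ →+* ℂ := iotaBar.comp (OBar ℓ).subtype with hι
  have hιinj : Function.Injective ι := iotaBar_injective.comp Subtype.val_injective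
  have hcontr : coeffMap ι (degContract N S) = S₁ := by
    ext m
    rw [coeffMap_coeff, degContract_coeff]
    have := congrArg (fun U : LaurentSeries ℂ => U.coeff ((N : ℤ) * m)) hS₁'
    simp only [qExpand_coeff_mul, coeffMap_coeff, serO_coeff] at this
    exact this
  obtain ⟨P, -, hP2⟩ := exists_poly_of_invariant_ring ι hιinj f hinv (degContract N S)
    (by rw [hcontr]; exact hS₁)
  refine ⟨P, IntPair.ext_fst N ℓ ?_⟩
  rw [Polynomial.hom_eval₂]
  show f = _
  rw [hP2, Polynomial.aeval_def, Polynomial.eval₂_map]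
  rfl

end Fermat.Agent.S28
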