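import Mathlib
import Fermat.Agent.S28.CharpolyConj

/-!
# S28 leaf L6b : the abstract `q`-expansion principle (pure algebra)

See the statement of `qep_abstract` at the end of the file.  Helper lemmas are prefixed `qep_`.
-/

set_option autoImplicit false

noncomputable section

namespace Fermat.Agent.S28

open Polynomial

/-- coefficients of a product of monic linear factors with roots in the range of a ring hom
are in the range of that ring hom -/
theorem qep_coeff_prod_mem_range {B E : Type*} [CommRing B] [CommRing E] (φ : B →+* E)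
    {n : ℕ} (a : Fin n → E) (ha : ∀ i, a i ∈ φ.range) (k : ℕ) :
    (∏ i : Fin n, (X - C (a i))).coeff k ∈ φ.range := by
  choose b hb using ha
  have h : (∏ i : Fin n, (X - C (a i))) = (∏ i : Fin n, (X - C (b i))).map φ := by
    rw [Polynomial.map_prod]
    refine Finset.prod_congr rfl fun i _ => ?_
    rw [Polynomial.map_sub, Polynomial.map_X, Polynomial.map_C, hb]
  rw [h, Polynomial.coeff_map]
  exact ⟨_, rfl⟩

/-- `eval₂` of a polynomial whose coefficients and point are in the range of a ring hom -/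
theorem qep_eval₂_mem_range {R B E : Type*} [CommRing R] [CommRing B] [CommRing E]
    (f : R →+* E) (φ : B →+* E) (hf : ∀ r, f r ∈ φ.range) {a : E} (ha : a ∈ φ.range)
    (g : R[X]) : Polynomial.eval₂ f a g ∈ φ.range := by
  rw [Polynomial.eval₂_eq_sum_range]
  exact Subring.sum_mem _ fun k _ => Subring.mul_mem _ (hf _) (Subring.pow_mem _ ha k)


theorem qep_coeff_sum_monomial {R : Type*} [CommRing R] (n : ℕ) (r : ℕ → R) (k : ℕ) :
    (∑ m ∈ Finset.range n, Polynomial.monomial m (r m)).coeff k = if k < n then r k else 0 := by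
  rw [Polynomial.finsetSum_coeff]
  simp only [Polynomial.coeff_monomial]
  rw [Finset.sum_ite_eq' (Finset.range n) k r]
  simp only [Finset.mem_range]

theorem qep_natDegree_sum_monomial_lt {R : Type*} [CommRing R] {n : ℕ} (hn : 0 < n)
    (r : ℕ → R) : (∑ m ∈ Finset.range n, Polynomial.monomial m (r m)).natDegree < n := by
  by_cases h0 : (∑ m ∈ Finset.range n, Polynomial.monomial m (r m)) = 0
  · rw [h0, Polynomial.natDegree_zero]; exact hn
  · rw [Polynomial.natDegree_lt_iff_degree_lt h0, Polynomial.degree_lt_iff_coeff_zero]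
    intro m hm
    rw [qep_coeff_sum_monomial, if_neg (not_lt.mpr hm)]

section setting

variable {R₀ K₀ F E : Type*} [CommRing R₀] [IsDomain R₀] [IsIntegrallyClosed R₀]
    [Field K₀] [Algebra R₀ K₀] [IsFractionRing R₀ K₀]
    [Field F] [Algebra K₀ F] [Algebra R₀ F] [IsScalarTower R₀ K₀ F]
    [Field E] [Algebra K₀ E] [Algebra R₀ E] [IsScalarTower R₀ K₀ E]

/-- the minimal polynomial of the generator splits over `E` with the conjugates as roots -/
theorem qep_map_minpoly_eq_prod (pb : PowerBasis K₀ F)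
    (σ : Fin pb.dim → (F →ₐ[K₀] E)) (hσ : Function.Injective fun i => σ i pb.gen) :
    (minpoly K₀ pb.gen).map (algebraMap K₀ E) = ∏ i : Fin pb.dim, (X - C (σ i pb.gen)) := by
  rw [← charpoly_leftMulMatrix pb, charpoly_leftMulMatrix_map_eq_prod pb σ hσ pb.gen]

/-- the conjugates of `minpolyDiv` -/
theorem qep_minpolyDiv_map (pb : PowerBasis K₀ F) (hθ : IsIntegral R₀ pb.gen)
    (σ : Fin pb.dim → (F →ₐ[K₀] E)) (hσ : Function.Injective fun i => σ i pb.gen)
    (i : Fin pb.dim) :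
    (minpolyDiv R₀ pb.gen).map (σ i : F →+* E) =
      ∏ j ∈ Finset.univ.erase i, (X - C (σ j pb.gen)) := by
  have h1 := congrArg (Polynomial.map (σ i : F →+* E)) (minpolyDiv_spec R₀ pb.gen)
  rw [Polynomial.map_mul, Polynomial.map_sub, Polynomial.map_X, Polynomial.map_C,
    Polynomial.map_map] at h1
  have h2 : ((σ i : F →+* E).comp (algebraMap R₀ F)) = algebraMap R₀ E := by
    ext r
    simp only [RingHom.comp_apply, RingHom.coe_coe]
    rw [IsScalarTower.algebraMap_apply R₀ K₀ F, AlgHom.commutes,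
      ← IsScalarTower.algebraMap_apply R₀ K₀ E]
  rw [h2, IsScalarTower.algebraMap_eq R₀ K₀ E, ← Polynomial.map_map,
    ← minpoly.isIntegrallyClosed_eq_field_fractions' K₀ hθ, qep_map_minpoly_eq_prod pb σ hσ,
    ← Finset.mul_prod_erase Finset.univ _ (Finset.mem_univ i), mul_comm] at h1
  exact mul_left_cancel₀ (Polynomial.X_sub_C_ne_zero _) h1


/-- Euler's polynomial: for `x` integral there is `g ∈ R₀[T]` of degree `< n` with
`g(σ i θ) = σ i x * ∏_{j ≠ i} (σ i θ - σ j θ)` for all `i` -/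
theorem qep_exists_poly (pb : PowerBasis K₀ F) (hθ : IsIntegral R₀ pb.gen)
    (σ : Fin pb.dim → (F →ₐ[K₀] E)) (hσ : Function.Injective fun i => σ i pb.gen)
    {x : F} (hx : IsIntegral R₀ x) :
    ∃ g : R₀[X], g.natDegree < pb.dim ∧ ∀ i,
      Polynomial.eval₂ (algebraMap R₀ E) (σ i pb.gen) g =
        σ i x * ∏ j ∈ Finset.univ.erase i, (σ i pb.gen - σ j pb.gen) := by
  classical
  have : FiniteDimensional K₀ F := pb.finite
  have hbint : ∀ k, IsIntegral R₀ ((minpolyDiv R₀ pb.gen).coeff k) := fun k =>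
    adjoin_le_integralClosure hθ (coeff_minpolyDiv_mem_adjoin pb.gen k)
  have hr : ∀ k, ∃ r : R₀, algebraMap R₀ K₀ r =
      Algebra.trace K₀ F (x * (minpolyDiv R₀ pb.gen).coeff k) := fun k =>
    IsIntegrallyClosed.isIntegral_iff.mp (Algebra.isIntegral_trace (hx.mul (hbint k)))
  choose r hr using hr
  have hdeg : (minpolyDiv R₀ pb.gen).natDegree < pb.dim := by
    have h1 := natDegree_minpolyDiv_lt hθ
    have h2 : (minpoly R₀ pb.gen).natDegree = pb.dim := by
      rw [← pb.natDegree_minpoly, minpoly.isIntegrallyClosed_eq_field_fractions' K₀ hθ,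
        (minpoly.monic hθ).natDegree_map]
    omega
  refine ⟨∑ m ∈ Finset.range pb.dim, Polynomial.monomial m (r m),
    qep_natDegree_sum_monomial_lt pb.dim_pos r, fun i => ?_⟩
  have hG : (∑ m ∈ Finset.range pb.dim, Polynomial.monomial m (r m)).map (algebraMap R₀ E) =
      ∑ i' : Fin pb.dim, C (σ i' x) * (minpolyDiv R₀ pb.gen).map (σ i' : F →+* E) := by
    ext k
    rw [Polynomial.coeff_map, qep_coeff_sum_monomial, Polynomial.finsetSum_coeff]
    simp only [Polynomial.coeff_C_mul, Polynomial.coeff_map, RingHom.coe_coe]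
    have h3 : ∑ i' : Fin pb.dim, σ i' x * σ i' ((minpolyDiv R₀ pb.gen).coeff k) =
        algebraMap R₀ E (r k) := by
      rw [IsScalarTower.algebraMap_apply R₀ K₀ E, hr k,
        algebraMap_trace_eq_sum_conj pb σ hσ]
      exact Finset.sum_congr rfl fun i' _ => (map_mul _ _ _).symm
    split_ifs with hk
    · exact h3.symm
    · rw [Polynomial.coeff_eq_zero_of_natDegree_lt (lt_of_lt_of_le hdeg (not_lt.mp hk))]
      simp
  rw [← Polynomial.eval_map, hG, Polynomial.eval_finsetSum]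
  rw [Finset.sum_eq_single i]
  · rw [Polynomial.eval_mul, Polynomial.eval_C, qep_minpolyDiv_map pb hθ σ hσ i,
      Polynomial.eval_prod]
    simp only [Polynomial.eval_sub, Polynomial.eval_X, Polynomial.eval_C]
  · intro i' _ hi'
    rw [Polynomial.eval_mul, qep_minpolyDiv_map pb hθ σ hσ i', Polynomial.eval_prod,
      Finset.prod_eq_zero (Finset.mem_erase.mpr ⟨hi'.symm, Finset.mem_univ i⟩), mul_zero]
    simp only [Polynomial.eval_sub, Polynomial.eval_X, Polynomial.eval_C, sub_self]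
  · intro h; exact absurd (Finset.mem_univ i) h


/-- the product of the differences `σ i θ - σ j θ`, `j ≠ i`, is inverted by an element of `EO` -/
theorem qep_exists_inv {EO : Type*} [CommRing EO] (ι : EO →+* E) {n : ℕ} (a : Fin n → E)
    (h₃ : ∀ i j, i ≠ j → ∃ w : EO, ι w * (a i - a j) = 1) (i : Fin n) :
    ∃ W : EO, ι W * ∏ j ∈ Finset.univ.erase i, (a i - a j) = 1 := by
  classical
  have h : ∀ j, ∃ w : EO, j ≠ i → ι w * (a i - a j) = 1 := by
    intro j
    by_cases hj : j = i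
    · exact ⟨0, fun h => absurd hj h⟩
    · obtain ⟨w, hw⟩ := h₃ i j (Ne.symm hj)
      exact ⟨w, fun _ => hw⟩
  choose w hw using h
  refine ⟨∏ j ∈ Finset.univ.erase i, w j, ?_⟩
  rw [map_prod, ← Finset.prod_mul_distrib]
  exact Finset.prod_eq_one fun j hj => hw j (Finset.mem_erase.mp hj).1

/-- the product of the differences lies in the range of `ι` -/
theorem qep_prod_mem_range {EO : Type*} [CommRing EO] (ι : EO →+* E) {n : ℕ} (a : Fin n → E)
    (h₂ : ∀ i, a i ∈ ι.range) (i : Fin n) :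
    ∏ j ∈ Finset.univ.erase i, (a i - a j) ∈ ι.range :=
  Subring.prod_mem _ fun j _ => Subring.sub_mem _ (h₂ i) (h₂ j)

/-- (C1) -/
theorem qep_conj_mem_range {EO : Type*} [CommRing EO] (ι : EO →+* E)
    (pb : PowerBasis K₀ F) (hθ : IsIntegral R₀ pb.gen)
    (σ : Fin pb.dim → (F →ₐ[K₀] E)) (hσ : Function.Injective fun i => σ i pb.gen)
    (h₁ : ∀ r : R₀, algebraMap R₀ E r ∈ ι.range)
    (h₂ : ∀ i, σ i pb.gen ∈ ι.range)
    (h₃ : ∀ i j, i ≠ j → ∃ w : EO, ι w * (σ i pb.gen - σ j pb.gen) = 1)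
    {x : F} (hx : IsIntegral R₀ x) (i : Fin pb.dim) : σ i x ∈ ι.range := by
  obtain ⟨g, -, hg⟩ := qep_exists_poly pb hθ σ hσ hx
  obtain ⟨W, hW⟩ := qep_exists_inv ι (fun i => σ i pb.gen) h₃ i
  have h : σ i x = Polynomial.eval₂ (algebraMap R₀ E) (σ i pb.gen) g * ι W := by
    rw [hg i, mul_assoc, mul_comm _ (ι W), hW, mul_one]
  rw [h]
  exact Subring.mul_mem _ (qep_eval₂_mem_range _ ι h₁ (h₂ i) g) ⟨W, rfl⟩


omit [IsDomain R₀] [IsIntegrallyClosed R₀] [IsFractionRing R₀ K₀] in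
/-- descent of `ℓ`-power denominators -/
theorem qep_descent (ℓ : ℕ) {EO Ek : Type*} [CommRing EO] [CommRing Ek] (ι : EO →+* E)
    (red : EO →+* Ek) (hℓE : ((ℓ : ℕ) : E) ≠ 0) (hℓk : ((ℓ : ℕ) : Ek) = 0)
    (h₅ : ∀ c : R₀, (∃ y : EO, ι y = algebraMap R₀ E c ∧ red y = 0) →
      ∃ c' : R₀, c = ((ℓ : ℕ) : R₀) * c')
    (m : ℕ) (c : K₀) (r : R₀) (hr : algebraMap R₀ K₀ r = ((ℓ : ℕ) : K₀) ^ m * c) (u : EO)
    (hu : ι u = algebraMap K₀ E c) : ∃ r' : R₀, algebraMap R₀ K₀ r' = c := by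
  have hℓK : ((ℓ : ℕ) : K₀) ≠ 0 := by
    intro h
    apply hℓE
    rw [← map_natCast (algebraMap K₀ E), h, map_zero]
  induction m generalizing r with
  | zero => exact ⟨r, by rw [hr, pow_zero, one_mul]⟩
  | succ m ih =>
    have h1 : ι (((ℓ : ℕ) : EO) ^ (m + 1) * u) = algebraMap R₀ E r := by
      rw [IsScalarTower.algebraMap_apply R₀ K₀ E, hr, map_mul, map_mul, map_pow, map_pow, hu,
        map_natCast, map_natCast]
    have h2 : red (((ℓ : ℕ) : EO) ^ (m + 1) * u) = 0 := by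
      rw [map_mul, map_pow, map_natCast, hℓk, pow_succ, mul_zero, zero_mul]
    obtain ⟨r₁, hr₁⟩ := h₅ r ⟨_, h1, h2⟩
    refine ih r₁ ?_
    apply mul_left_cancel₀ hℓK
    rw [← map_natCast (algebraMap R₀ K₀), ← map_mul, ← hr₁, hr, pow_succ, map_natCast]
    ring

omit [IsDomain R₀] in
/-- an element all of whose conjugates are in `EO` and which is integral after multiplication
by `ℓ` is integral -/
theorem qep_isIntegral_of_conj (ℓ : ℕ) {EO Ek : Type*} [CommRing EO] [CommRing Ek]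
    (ι : EO →+* E) (red : EO →+* Ek) (hℓE : ((ℓ : ℕ) : E) ≠ 0) (hℓk : ((ℓ : ℕ) : Ek) = 0)
    (pb : PowerBasis K₀ F)
    (σ : Fin pb.dim → (F →ₐ[K₀] E)) (hσ : Function.Injective fun i => σ i pb.gen)
    (h₅ : ∀ c : R₀, (∃ y : EO, ι y = algebraMap R₀ E c ∧ red y = 0) →
      ∃ c' : R₀, c = ((ℓ : ℕ) : R₀) * c')
    {z : F} (hx : IsIntegral R₀ (((ℓ : ℕ) : F) * z)) (hz : ∀ i, σ i z ∈ ι.range) :
    IsIntegral R₀ z := by
  have hinj : Function.Injective (algebraMap K₀ E) := (algebraMap K₀ E).injective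
  have hχx := charpoly_leftMulMatrix_map_eq_prod pb σ hσ (((ℓ : ℕ) : F) * z)
  have hχz := charpoly_leftMulMatrix_map_eq_prod pb σ hσ z
  -- relation between the two characteristic polynomials
  have hrel : (Matrix.charpoly (Algebra.leftMulMatrix pb.basis (((ℓ : ℕ) : F) * z))).comp
      (C ((ℓ : ℕ) : K₀) * X) =
      C (((ℓ : ℕ) : K₀) ^ pb.dim) * Matrix.charpoly (Algebra.leftMulMatrix pb.basis z) := by
    apply Polynomial.map_injective (algebraMap K₀ E) hinj
    have hL : ((Matrix.charpoly (Algebra.leftMulMatrix pb.basis (((ℓ : ℕ) : F) * z))).comp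
        (C ((ℓ : ℕ) : K₀) * X)).map (algebraMap K₀ E) =
        (∏ i : Fin pb.dim, (X - C (σ i (((ℓ : ℕ) : F) * z)))).comp (C ((ℓ : ℕ) : E) * X) := by
      rw [Polynomial.map_comp, hχx, Polynomial.map_mul, Polynomial.map_C, Polynomial.map_X,
        map_natCast]
    have hR : (C (((ℓ : ℕ) : K₀) ^ pb.dim) *
        Matrix.charpoly (Algebra.leftMulMatrix pb.basis z)).map (algebraMap K₀ E) =
        C (((ℓ : ℕ) : E) ^ pb.dim) * ∏ i : Fin pb.dim, (X - C (σ i z)) := by
      rw [Polynomial.map_mul, Polynomial.map_C, hχz, map_pow, map_natCast]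
    rw [hL, hR, Polynomial.prod_comp, C_pow]
    have h : ∀ i : Fin pb.dim, (X - C (σ i (((ℓ : ℕ) : F) * z))).comp (C ((ℓ : ℕ) : E) * X) =
        C ((ℓ : ℕ) : E) * (X - C (σ i z)) := by
      intro i
      rw [Polynomial.sub_comp, Polynomial.X_comp, Polynomial.C_comp, map_mul (σ i),
        map_natCast (σ i), C_mul, mul_sub]
    rw [Finset.prod_congr rfl fun i _ => h i, Finset.prod_mul_distrib, Finset.prod_const,
      Finset.card_univ, Fintype.card_fin]
  -- coefficients of the characteristic polynomial of `ℓ z` are in `R₀`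
  have hcx : ∀ k, ∃ s : R₀, algebraMap R₀ K₀ s =
      (Matrix.charpoly (Algebra.leftMulMatrix pb.basis (((ℓ : ℕ) : F) * z))).coeff k := by
    intro k
    apply IsIntegrallyClosed.isIntegral_iff.mp
    rw [← isIntegral_algebraMap_iff hinj (R := R₀), ← Polynomial.coeff_map, hχx]
    have h := qep_coeff_prod_mem_range (algebraMap (integralClosure R₀ E) E)
      (fun i => σ i (((ℓ : ℕ) : F) * z))
      (fun i => ⟨⟨_, hx.map ((σ i).restrictScalars R₀)⟩, rfl⟩) k
    obtain ⟨b, hb⟩ := h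
    rw [← hb]
    exact b.2
  -- coefficients of the characteristic polynomial of `z` are in `R₀`
  have hcz : ∀ k, ∃ s : R₀, algebraMap R₀ K₀ s =
      (Matrix.charpoly (Algebra.leftMulMatrix pb.basis z)).coeff k := by
    intro k
    obtain ⟨s, hs⟩ := hcx k
    obtain ⟨u, hu⟩ := qep_coeff_prod_mem_range ι (fun i => σ i z) hz k
    have h1 := congrArg (fun P => Polynomial.coeff P k) hrel
    simp only [Polynomial.comp_C_mul_X_coeff, Polynomial.coeff_C_mul] at h1
    refine qep_descent ℓ ι red hℓE hℓk h₅ pb.dim _ (s * ((ℓ : ℕ) : R₀) ^ k) ?_ u ?_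
    · rw [map_mul, hs, map_pow, map_natCast, h1]
    · rw [hu, ← hχz, Polynomial.coeff_map]
  have hlift : Matrix.charpoly (Algebra.leftMulMatrix pb.basis z) ∈
      Polynomial.lifts (algebraMap R₀ K₀) := by
    rw [Polynomial.lifts_iff_coeff_lifts]
    intro k
    obtain ⟨s, hs⟩ := hcz k
    exact ⟨s, hs⟩
  obtain ⟨q, hq, -, hqm⟩ := Polynomial.lifts_and_natDegree_eq_and_monic hlift
    (Matrix.charpoly_monic _)
  refine ⟨q, hqm, ?_⟩
  have h0 : Polynomial.aeval z (Matrix.charpoly (Algebra.leftMulMatrix pb.basis z)) = 0 := by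
    apply (injective_iff_map_eq_zero (Algebra.leftMulMatrix pb.basis)).mp
      (Algebra.leftMulMatrix_injective pb.basis)
    rw [← Polynomial.aeval_algHom_apply, Matrix.aeval_self_charpoly]
  rw [← hq, Polynomial.aeval_def, Polynomial.eval₂_map, ← IsScalarTower.algebraMap_eq] at h0
  exact h0

end setting

theorem qep_abstract (ℓ : ℕ) [Fact ℓ.Prime]
    {R₀ K₀ F E EO Ek : Type*} [CommRing R₀] [IsDomain R₀] [IsIntegrallyClosed R₀]
    [Field K₀] [Algebra R₀ K₀] [IsFractionRing R₀ K₀]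
    [Field F] [Algebra K₀ F] [Algebra R₀ F] [IsScalarTower R₀ K₀ F]
    [Field E] [Algebra K₀ E] [Algebra R₀ E] [IsScalarTower R₀ K₀ E]
    [CommRing EO] [CommRing Ek]
    (ι : EO →+* E) (hι : Function.Injective ι) (red : EO →+* Ek)
    (hℓE : ((ℓ : ℕ) : E) ≠ 0) (hℓk : ((ℓ : ℕ) : Ek) = 0)
    (pb : PowerBasis K₀ F) (hθ : IsIntegral R₀ pb.gen)
    (σ : Fin pb.dim → (F →ₐ[K₀] E)) (hσ : Function.Injective fun i => σ i pb.gen)
    (i₀ : Fin pb.dim)
    (h₁ : ∀ r : R₀, algebraMap R₀ E r ∈ ι.range)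
    (h₂ : ∀ i, σ i pb.gen ∈ ι.range)
    (h₃ : ∀ i j, i ≠ j → ∃ w : EO, ι w * (σ i pb.gen - σ j pb.gen) = 1)
    (h₄ : ∀ A : Polynomial R₀, A.natDegree < pb.dim →
      (∃ y : EO, ι y = Polynomial.eval₂ (algebraMap R₀ E) (σ i₀ pb.gen) A ∧ red y = 0) →
      ∃ A' : Polynomial R₀, A = Polynomial.C ((ℓ : ℕ) : R₀) * A') :
    (∀ x : F, IsIntegral R₀ x → ∀ i, σ i x ∈ ι.range) ∧
    (∀ x : F, IsIntegral R₀ x → (∃ y : EO, ι y = σ i₀ x ∧ red y = 0) →
      IsIntegral R₀ ((((ℓ : ℕ) : F))⁻¹ * x)) := by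
  have _ := hι
  refine ⟨fun x hx i => qep_conj_mem_range ι pb hθ σ hσ h₁ h₂ h₃ hx i, ?_⟩
  rintro x hx ⟨y, hy, hy0⟩
  -- `ℓ ≠ 0` in `F`
  have hℓF : ((ℓ : ℕ) : F) ≠ 0 := by
    intro h
    apply hℓE
    rw [← map_natCast (σ i₀), h, map_zero]
  -- the constant case of `h₄`
  have h₅ : ∀ c : R₀, (∃ y : EO, ι y = algebraMap R₀ E c ∧ red y = 0) →
      ∃ c' : R₀, c = ((ℓ : ℕ) : R₀) * c' := by
    rintro c ⟨y, hy, hy0⟩
    obtain ⟨A', hA'⟩ := h₄ (C c) (by rw [Polynomial.natDegree_C]; exact pb.dim_pos)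
      ⟨y, by rw [hy, Polynomial.eval₂_C], hy0⟩
    refine ⟨A'.coeff 0, ?_⟩
    have h := congrArg (fun P => Polynomial.coeff P 0) hA'
    simpa only [Polynomial.coeff_C_zero, Polynomial.coeff_C_mul] using h
  obtain ⟨g, hgdeg, hg⟩ := qep_exists_poly pb hθ σ hσ hx
  obtain ⟨d, hd⟩ := qep_prod_mem_range ι (fun i => σ i pb.gen) h₂ i₀
  obtain ⟨g', hg'⟩ := h₄ g hgdeg ⟨y * d, by rw [map_mul, hy, hd, hg i₀], by
    rw [map_mul, hy0, zero_mul]⟩
  refine qep_isIntegral_of_conj ℓ ι red hℓE hℓk pb σ hσ h₅ ?_ ?_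
  · rw [mul_inv_cancel_left₀ hℓF]
    exact hx
  · intro i
    obtain ⟨W, hW⟩ := qep_exists_inv ι (fun i => σ i pb.gen) h₃ i
    have h1 := hg i
    rw [hg', Polynomial.eval₂_mul, Polynomial.eval₂_C, map_natCast] at h1
    have h2 : σ i ((((ℓ : ℕ) : F))⁻¹ * x) =
        Polynomial.eval₂ (algebraMap R₀ E) (σ i pb.gen) g' * ι W := by
      have h3 : σ i x =
          ((ℓ : ℕ) : E) * Polynomial.eval₂ (algebraMap R₀ E) (σ i pb.gen) g' * ι W := by
        rw [h1, mul_assoc, mul_comm _ (ι W), hW, mul_one]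
      rw [map_mul, map_inv₀, map_natCast, h3, mul_assoc, inv_mul_cancel_left₀ hℓE]
    rw [h2]
    exact Subring.mul_mem _ (qep_eval₂_mem_range _ ι h₁ (h₂ i) g') ⟨W, rfl⟩

end Fermat.Agent.S28
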