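import Mathlib

/-!
# S28, layer L7: base change of a chart algebra is a domain
-/

set_option autoImplicit false

open scoped TensorProduct

namespace Fermat.Agent.S28

section

variable {k K : Type*} [Field k] [Field K]

/-- Coefficientwise application of a ring homomorphism to Laurent series. -/
noncomputable def tdMapHom (i : k →+* K) : LaurentSeries k →+* LaurentSeries K where
  toFun x := x.map i
  map_one' := HahnSeries.map_one i.toMonoidWithZeroHom
  map_mul' x y := HahnSeries.map_mul (i : k →ₙ+* K)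
  map_zero' := HahnSeries.map_zero i.toMonoidWithZeroHom.toZeroHom
  map_add' x y := HahnSeries.map_add i.toAddMonoidHom

theorem tdMapHom_apply (i : k →+* K) (x : LaurentSeries k) : tdMapHom i x = x.map i := rfl

theorem tdMapHom_coeff (i : k →+* K) (x : LaurentSeries k) (n : ℤ) :
    (tdMapHom i x).coeff n = i (x.coeff n) := by
  rw [tdMapHom_apply, HahnSeries.map_coeff]

theorem tdMapHom_C (i : k →+* K) (a : k) : tdMapHom i (HahnSeries.C a) = HahnSeries.C (i a) := by
  rw [tdMapHom_apply]
  exact HahnSeries.map_C a i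

theorem td_algebraMap {R : Type*} [CommRing R] [Algebra R K] (r : R) :
    algebraMap R (LaurentSeries K) r = HahnSeries.C (algebraMap R K r) := by
  rw [HahnSeries.algebraMap_apply', PowerSeries.algebraMap_apply, HahnSeries.ofPowerSeries_C]

theorem tdMapHom_injective (i : k →+* K) : Function.Injective (tdMapHom i) := by
  intro x y h
  ext n
  have := congrArg (fun z : LaurentSeries K => z.coeff n) h
  simp only [tdMapHom_coeff] at this
  exact i.injective this

end

section

variable {R B k K : Type*} [CommRing R] [CommRing B] [Algebra R B] [Field k] [Field K]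
  [Algebra R K]

/-- The `R`-algebra map `B → K((q))`. -/
noncomputable def tdLeft (π : R →+* k) (i : k →+* K) (hi : ∀ r, i (π r) = algebraMap R K r)
    (ρ : B →+* LaurentSeries k) (hρ : ∀ r, ρ (algebraMap R B r) = HahnSeries.C (π r)) :
    B →ₐ[R] LaurentSeries K where
  toRingHom := (tdMapHom i).comp ρ
  commutes' r := by
    show tdMapHom i (ρ (algebraMap R B r)) = _
    rw [hρ, tdMapHom_C, hi, td_algebraMap]

/-- The `R`-algebra map `K → K((q))`. -/
noncomputable def tdRight (R K : Type*) [CommRing R] [Field K] [Algebra R K] :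
    K →ₐ[R] LaurentSeries K where
  toRingHom := HahnSeries.C
  commutes' r := by
    show HahnSeries.C (algebraMap R K r) = _
    rw [td_algebraMap]

/-- The comparison map `B ⊗[R] K → K((q))`. -/
noncomputable def tdPhi (π : R →+* k) (i : k →+* K) (hi : ∀ r, i (π r) = algebraMap R K r)
    (ρ : B →+* LaurentSeries k) (hρ : ∀ r, ρ (algebraMap R B r) = HahnSeries.C (π r)) :
    B ⊗[R] K →ₐ[R] LaurentSeries K :=
  Algebra.TensorProduct.productMap (tdLeft π i hi ρ hρ) (tdRight R K)

theorem tdPhi_tmul (π : R →+* k) (i : k →+* K) (hi : ∀ r, i (π r) = algebraMap R K r)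
    (ρ : B →+* LaurentSeries k) (hρ : ∀ r, ρ (algebraMap R B r) = HahnSeries.C (π r))
    (b : B) (c : K) :
    tdPhi π i hi ρ hρ (b ⊗ₜ c) = tdMapHom i (ρ b) * HahnSeries.C c := by
  rw [tdPhi, Algebra.TensorProduct.productMap_apply_tmul]
  rfl

theorem tdPhi_tmul_coeff (π : R →+* k) (i : k →+* K) (hi : ∀ r, i (π r) = algebraMap R K r)
    (ρ : B →+* LaurentSeries k) (hρ : ∀ r, ρ (algebraMap R B r) = HahnSeries.C (π r))
    (b : B) (c : K) (n : ℤ) :
    (tdPhi π i hi ρ hρ (b ⊗ₜ c)).coeff n = i ((ρ b).coeff n) * c := by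
  rw [tdPhi_tmul, HahnSeries.C_apply, HahnSeries.coeff_mul_single_zero, tdMapHom_coeff]

/-- Elements of the extended ideal `(ker π) B` die in the tensor product. -/
theorem td_tmul_eq_zero_of_mem (π : R →+* k) (i : k →+* K)
    (hi : ∀ r, i (π r) = algebraMap R K r) (b : B)
    (hb : b ∈ Ideal.map (algebraMap R B) (RingHom.ker π)) (c : K) :
    (b ⊗ₜ[R] c : B ⊗[R] K) = 0 := by
  let J : Ideal B :=
    { carrier := {b | ∀ c : K, (b ⊗ₜ[R] c : B ⊗[R] K) = 0}
      add_mem' := by
        intro x y hx hy c
        rw [TensorProduct.add_tmul, hx c, hy c, add_zero]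
      zero_mem' := fun c => TensorProduct.zero_tmul _ _
      smul_mem' := by
        intro a x hx c
        have : ((a • x) ⊗ₜ[R] c : B ⊗[R] K) = (a ⊗ₜ[R] (1 : K)) * (x ⊗ₜ[R] c) := by
          rw [Algebra.TensorProduct.tmul_mul_tmul, one_mul, smul_eq_mul]
        rw [this, hx c, mul_zero] }
  have hJ : Ideal.map (algebraMap R B) (RingHom.ker π) ≤ J := by
    rw [Ideal.map_le_iff_le_comap]
    intro r hr c
    rw [RingHom.mem_ker] at hr
    have h1 : (algebraMap R B r ⊗ₜ[R] c : B ⊗[R] K) = (1 : B) ⊗ₜ[R] (r • c) := by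
      rw [Algebra.algebraMap_eq_smul_one, TensorProduct.smul_tmul]
    rw [h1, Algebra.smul_def, ← hi, hr, map_zero, zero_mul, TensorProduct.tmul_zero]
  exact hJ hb c

end

/-- **L7a.** -/
theorem isDomain_tensor_of_qRed {R B k K : Type*} [CommRing R] [CommRing B] [Algebra R B]
    [Field k] [Field K] [Algebra R K] (π : R →+* k) (hπ : Function.Surjective π) (i : k →+* K)
    (hi : ∀ r, i (π r) = algebraMap R K r) (ρ : B →+* LaurentSeries k)
    (hρ : ∀ r, ρ (algebraMap R B r) = HahnSeries.C (π r))
    (hker : RingHom.ker ρ ≤ Ideal.map (algebraMap R B) (RingHom.ker π)) :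
    IsDomain (B ⊗[R] K) := by
  classical
  let _ : Algebra k K := i.toAlgebra
  have hsmul : ∀ (a : k) (c : K), a • c = i a * c := fun a c => rfl
  let e := Module.Basis.ofVectorSpace k K
  set Φ := tdPhi π i hi ρ hρ with hΦ
  -- every element is a finite sum `∑ b m ⊗ e m`
  let Ψ : (Module.Basis.ofVectorSpaceIndex k K →₀ B) →ₗ[R] B ⊗[R] K :=
    Finsupp.lsum R (fun m => (TensorProduct.mk R B K).flip (e m))
  have hΨ : ∀ β, Ψ β = β.sum fun m b => b ⊗ₜ[R] e m := by
    intro β
    rfl
  have hsurj : Function.Surjective Ψ := by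
    rw [← LinearMap.range_eq_top, eq_top_iff, ← TensorProduct.span_tmul_eq_top, Submodule.span_le]
    rintro _ ⟨b, c, rfl⟩
    -- choose lifts of the coordinates of `c`
    choose g hg using hπ
    refine ⟨(e.repr c).sum fun m a => Finsupp.single m (g a • b), ?_⟩
    rw [Finsupp.sum, map_sum]
    have h1 : ∀ m ∈ (e.repr c).support,
        Ψ (Finsupp.single m (g (e.repr c m) • b)) = b ⊗ₜ[R] ((e.repr c m) • e m) := by
      intro m _
      rw [hΨ, Finsupp.sum_single_index (h := fun m b => b ⊗ₜ[R] e m)
        (TensorProduct.zero_tmul _ _), TensorProduct.smul_tmul,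
        Algebra.smul_def, ← hi, hg, hsmul]
    rw [Finset.sum_congr rfl h1, ← TensorProduct.tmul_sum]
    congr 1
    exact e.linearCombination_repr c
  have hinj : Function.Injective Φ := by
    rw [injective_iff_map_eq_zero]
    intro t ht
    obtain ⟨β, rfl⟩ := hsurj t
    have hcoeff : ∀ n : ℤ, (β.sum fun m b => ((ρ b).coeff n) • e m) = 0 := by
      intro n
      have h2 := congrArg (fun z : LaurentSeries K => z.coeff n) ht
      simp only [HahnSeries.coeff_zero] at h2
      rw [hΨ, Finsupp.sum, map_sum] at h2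
      rw [Finsupp.sum]
      rw [← h2]
      have : (∑ m ∈ β.support, Φ (β m ⊗ₜ[R] e m)).coeff n =
          ∑ m ∈ β.support, (Φ (β m ⊗ₜ[R] e m)).coeff n :=
        map_sum (HahnSeries.coeff.addMonoidHom n) _ _
      rw [this]
      refine Finset.sum_congr rfl fun m _ => ?_
      rw [hΦ, tdPhi_tmul_coeff, hsmul]
    have hzero : ∀ m ∈ β.support, ρ (β m) = 0 := by
      intro m hm
      ext n
      have hli := e.linearIndependent
      rw [linearIndependent_iff'] at hli
      have := hli β.support (fun m => (ρ (β m)).coeff n) (by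
        have := hcoeff n
        rwa [Finsupp.sum] at this) m hm
      simpa using this
    rw [hΨ, Finsupp.sum]
    apply Finset.sum_eq_zero
    intro m hm
    exact td_tmul_eq_zero_of_mem π i hi (β m) (hker (hzero m hm)) (e m)
  exact hinj.isDomain Φ.toRingHom

/-- **L7b.** -/
theorem nontrivial_tensor_away_of_qRed {R B B' k K : Type*} [CommRing R] [CommRing B]
    [Algebra R B] [CommRing B'] [Algebra R B'] [Algebra B B'] [IsScalarTower R B B']
    [Field k] [Field K] [Algebra R K] (π : R →+* k) (i : k →+* K)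
    (hi : ∀ r, i (π r) = algebraMap R K r) (ρ : B →+* LaurentSeries k)
    (hρ : ∀ r, ρ (algebraMap R B r) = HahnSeries.C (π r))
    (f : B) (hf : ρ f ≠ 0) [IsLocalization.Away f B'] :
    Nontrivial (B' ⊗[R] K) := by
  have hunit : IsUnit ((tdMapHom i).comp ρ f) := by
    apply IsUnit.mk0
    intro h
    apply hf
    apply tdMapHom_injective i
    rw [map_zero]
    exact h
  let ρ' : B' →+* LaurentSeries K := IsLocalization.Away.lift f hunit
  have hρ' : ∀ b : B, ρ' (algebraMap B B' b) = tdMapHom i (ρ b) := fun b =>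
    IsLocalization.Away.lift_eq f hunit b
  let fB' : B' →ₐ[R] LaurentSeries K :=
    { toRingHom := ρ'
      commutes' := by
        intro r
        show ρ' (algebraMap R B' r) = _
        rw [IsScalarTower.algebraMap_apply R B B', hρ', hρ, tdMapHom_C, hi, td_algebraMap] }
  let Φ : B' ⊗[R] K →ₐ[R] LaurentSeries K :=
    Algebra.TensorProduct.productMap fB' (tdRight R K)
  exact Φ.toRingHom.domain_nontrivial

end Fermat.Agent.S28
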