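import Mathlib
import Fermat.Agent.S28.UnitDefs
import Fermat.Agent.S24.Conj
import Fermat.Agent.S24.JExp
import Fermat.Agent.S28.DeltaExpSpec
import Fermat.Agent.S28.UnitTransformSpec
import Fermat.Agent.S28.BasicSpec

/-!
# S28 leaf L3-C : the modular units `u_δ = Δ(δτ)/Δ(τ)`, `δ ∣ N`, at all cusps

Same names and statements as `UnitsSpec.lean`. Helper names are prefixed `unt`.
-/

set_option autoImplicit false
set_option linter.unusedSectionVars false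

noncomputable section

namespace Fermat.Agent.S28

open UpperHalfPlane ModularCurve Fermat.Agent.S24
open scoped MatrixGroups Real

/-! ### The two-step normal form `qExpand k (qExpand a (rot ζ P))`, `P` with integer coefficients -/

/-- The normal form of the expansion in `exp(2πiτ/(d'k))` of `f((aτ+b)/d')`, `f = ∑ Pₘ qᵐ`. -/
def untSer (k a : ℕ) [NeZero k] [NeZero a] (ζ : ℂˣ) (P : LaurentSeries ℤ) : LaurentSeries ℂ :=
  qExpand ℂ k (qExpand ℂ a (rotLaurent ζ (coeffMap (Int.castRingHom ℂ) P)))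

theorem untSer_coeff_mul (k a : ℕ) [NeZero k] [NeZero a] (ζ : ℂˣ) (P : LaurentSeries ℤ) (m : ℤ) :
    (untSer k a ζ P).coeff ((k : ℤ) * ((a : ℤ) * m)) = (ζ : ℂ) ^ m * ((P.coeff m : ℤ) : ℂ) := by
  rw [untSer, qExpand_coeff_mul, qExpand_coeff_mul, rotLaurent_coeff, coeffMap_coeff]
  rfl

theorem untSer_coeff_of_not_exists (k a : ℕ) [NeZero k] [NeZero a] (ζ : ℂˣ) (P : LaurentSeries ℤ)
    (m : ℤ) (hm : ¬ ∃ j : ℤ, m = (k : ℤ) * ((a : ℤ) * j)) : (untSer k a ζ P).coeff m = 0 := by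
  rw [untSer]
  by_cases h1 : (k : ℤ) ∣ m
  · obtain ⟨m₁, rfl⟩ := h1
    rw [qExpand_coeff_mul]
    by_cases h2 : (a : ℤ) ∣ m₁
    · obtain ⟨j, rfl⟩ := h2
      exact absurd ⟨j, rfl⟩ hm
    · exact qExpand_coeff_of_not_dvd a _ h2
  · exact qExpand_coeff_of_not_dvd k _ h1

theorem untSer_coeff_of_lt (k a : ℕ) [NeZero k] [NeZero a] (ζ : ℂˣ) (P : LaurentSeries ℤ)
    {m₁ : ℤ} (hP : ∀ i : ℤ, i < m₁ → P.coeff i = 0) {m : ℤ}
    (hm : m < (k : ℤ) * ((a : ℤ) * m₁)) : (untSer k a ζ P).coeff m = 0 := by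
  by_cases h : ∃ j : ℤ, m = (k : ℤ) * ((a : ℤ) * j)
  · obtain ⟨j, rfl⟩ := h
    rw [untSer_coeff_mul]
    have hk : (0 : ℤ) < k := by exact_mod_cast Nat.pos_of_ne_zero (NeZero.ne k)
    have ha : (0 : ℤ) < a := by exact_mod_cast Nat.pos_of_ne_zero (NeZero.ne a)
    have hj : j < m₁ := by
      by_contra hj
      rw [not_lt] at hj
      have h1 : (a : ℤ) * m₁ ≤ (a : ℤ) * j := mul_le_mul_of_nonneg_left hj ha.le
      have h2 : (k : ℤ) * ((a : ℤ) * m₁) ≤ (k : ℤ) * ((a : ℤ) * j) :=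
        mul_le_mul_of_nonneg_left h1 hk.le
      exact absurd hm (not_lt.2 h2)
    rw [hP j hj, Int.cast_zero, mul_zero]
  · exact untSer_coeff_of_not_exists k a ζ P m h

variable (N : ℕ) [NeZero N] (ℓ : ℕ) [Fact ℓ.Prime]

/-- The coefficient map `OBar ℓ((s)) → ℂ((s))`. -/
def untE : LaurentSeries (OBar ℓ) →+* LaurentSeries ℂ := (coeffMap iotaBar).comp (serO ℓ)

theorem untE_apply (S : LaurentSeries (OBar ℓ)) : untE ℓ S = coeffMap iotaBar (serO ℓ S) := rfl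

theorem untE_coeff (S : LaurentSeries (OBar ℓ)) (m : ℤ) :
    (untE ℓ S).coeff m = iotaBar ((S.coeff m : OBar ℓ) : QBar) := rfl

theorem untE_qExpand (n : ℕ) [NeZero n] (S : LaurentSeries (OBar ℓ)) :
    untE ℓ (qExpand (OBar ℓ) n S) = qExpand ℂ n (untE ℓ S) := by
  rw [untE_apply, untE_apply, serO, coeffMap_qExpand, coeffMap_qExpand]

theorem untE_C (u : OBar ℓ) : untE ℓ (HahnSeries.C u) = HahnSeries.C (iotaBar (u : QBar)) := by
  ext m
  rw [untE_coeff, HahnSeries.C_apply, HahnSeries.C_apply]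
  by_cases hm : m = 0
  · subst hm
    rw [HahnSeries.coeff_single_same, HahnSeries.coeff_single_same]
  · rw [HahnSeries.coeff_single_of_ne hm, HahnSeries.coeff_single_of_ne hm]
    simp

theorem untE_deltaSer : untE ℓ (deltaSer (OBar ℓ)) = deltaSer ℂ := by
  rw [untE_apply, serO, coeffMap_deltaSer, coeffMap_deltaSer]

theorem untE_deltaInvSer : untE ℓ (deltaInvSer (OBar ℓ)) = deltaInvSer ℂ := by
  rw [untE_apply, serO, coeffMap_deltaInvSer, coeffMap_deltaInvSer]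

theorem unt_eq_zero {x : OBar ℓ} (h : iotaBar (x : QBar) = 0) : x = 0 := by
  apply Subtype.ext
  apply iotaBar_injective
  rw [h]
  simp

theorem unt_isUnit_of_pow_eq_one {x : OBar ℓ} {d' : ℕ} (hd' : d' ≠ 0) (h : x ^ d' = 1) :
    IsUnit x := by
  obtain ⟨k, rfl⟩ : ∃ k, d' = k + 1 := Nat.exists_eq_add_one_of_ne_zero hd'
  exact IsUnit.of_mul_eq_one (x ^ k) (by rw [← pow_succ', h])

/-- The normal form has coefficients in `OBar ℓ`. -/
theorem unt_exists_series (k a : ℕ) [NeZero k] [NeZero a] {d' : ℕ} (hd' : d' ≠ 0) (ζ : ℂˣ)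
    (hζ : (ζ : ℂ) ^ d' = 1) (P : LaurentSeries ℤ) :
    ∃ S : LaurentSeries (OBar ℓ), untE ℓ S = untSer k a ζ P := by
  obtain ⟨z, hz⟩ := conj_mem_range_iotaBar_of_pow_eq_one hd' hζ
  have hzd : z ^ d' = 1 := by
    apply iotaBar_injective
    rw [map_pow, hz, hζ, map_one]
  obtain ⟨R', hR'⟩ : ∃ R' : LaurentSeries QBar,
      coeffMap iotaBar R' = rotLaurent ζ (coeffMap (Int.castRingHom ℂ) P) := by
    apply conj_exists_coeffMap_eq
    intro m
    rw [rotLaurent_coeff, coeffMap_coeff]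
    refine Subring.mul_mem _ ⟨z ^ m, ?_⟩ ⟨((P.coeff m : ℤ) : QBar), ?_⟩
    · rw [map_zpow₀, hz]
    · rw [map_intCast]
      rfl
  have hcoeff : ∀ m : ℤ, R'.coeff m = z ^ m * ((P.coeff m : ℤ) : QBar) := by
    intro m
    apply iotaBar_injective
    have := congrArg (fun U : LaurentSeries ℂ => U.coeff m) hR'
    simp only [coeffMap_coeff, rotLaurent_coeff] at this
    rw [this, map_mul, map_zpow₀, hz, map_intCast]
    rfl
  have hmem : R' ∈ (serO ℓ).range := by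
    rw [mem_range_serO_iff]
    intro m
    rw [hcoeff]
    refine Subring.mul_mem _ ?_ (intCast_mem _ _)
    refine mem_OBar_of_pow_eq_one ℓ hd' ?_
    rw [← zpow_natCast, ← zpow_mul, mul_comm, zpow_mul, zpow_natCast, hzd, one_zpow]
  obtain ⟨R₀, hR₀⟩ := hmem
  refine ⟨qExpand (OBar ℓ) k (qExpand (OBar ℓ) a R₀), ?_⟩
  rw [untE_qExpand, untE_qExpand, untSer, untE_apply, hR₀, hR']

/-- The leading coefficient of the normal form is a unit of `OBar ℓ`. -/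
theorem unt_hasUnitLead (k a : ℕ) [NeZero k] [NeZero a] {d' : ℕ} (hd' : d' ≠ 0) (ζ : ℂˣ)
    (hζ : (ζ : ℂ) ^ d' = 1) (P : LaurentSeries ℤ) {S : LaurentSeries (OBar ℓ)}
    (hS : untE ℓ S = untSer k a ζ P) {m₁ : ℤ} (h1 : P.coeff m₁ = 1)
    (h0 : ∀ i : ℤ, i < m₁ → P.coeff i = 0) :
    HasUnitLead S ((k : ℤ) * ((a : ℤ) * m₁)) := by
  refine ⟨?_, fun i hi => ?_⟩
  · have hx : iotaBar ((S.coeff ((k : ℤ) * ((a : ℤ) * m₁)) : OBar ℓ) : QBar) = (ζ : ℂ) ^ m₁ := by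
      rw [← untE_coeff, hS, untSer_coeff_mul, h1, Int.cast_one, mul_one]
    apply unt_isUnit_of_pow_eq_one ℓ hd'
    apply Subtype.ext
    apply iotaBar_injective
    rw [Subring.coe_pow, map_pow, hx, ← zpow_natCast, ← zpow_mul, mul_comm, zpow_mul, zpow_natCast,
      hζ, one_zpow]
    simp
  · apply unt_eq_zero
    rw [← untE_coeff, hS, untSer_coeff_of_lt k a ζ P h0 hi]

/-- Expansion of `f((aτ+b)/d')` in `exp(2πiτ/(d'k))`. -/
theorem unt_hasCuspExp_affine {f : ℍ → ℂ} (P : LaurentSeries ℤ)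
    (hf : HasCuspExp 1 f (coeffMap (Int.castRingHom ℂ) P)) {a d' : ℕ} (ha : a ≠ 0) (hd' : d' ≠ 0)
    (b : ℤ) (k : ℕ) [NeZero k] :
    ∃ ζ : ℂˣ, (ζ : ℂ) ^ d' = 1 ∧
      haveI : NeZero a := ⟨ha⟩
      HasCuspExp (d' * k) (fun τ => f (Fermat.Agent.S23.utGL a b d' • τ)) (untSer k a ζ P) := by
  haveI : NeZero a := ⟨ha⟩
  haveI : NeZero d' := ⟨hd'⟩
  refine ⟨Units.mk0 (Complex.exp (2 * π * Complex.I * b / d')) (Complex.exp_ne_zero _), ?_, ?_⟩
  · rw [Units.val_mk0, ← Complex.exp_nat_mul]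
    have hd'c : (d' : ℂ) ≠ 0 := by exact_mod_cast hd'
    have : (d' : ℂ) * (2 * π * Complex.I * b / d') = b * (2 * π * Complex.I) := by
      field_simp
    rw [this, Complex.exp_int_mul_two_pi_mul_I]
  · have h1 := HasCuspExp.comp_affine ha hd' b _
      (fun τ => Fermat.Agent.S23.coe_utGL_smul ha hd' b τ) hf
      (Units.mk0 (Complex.exp (2 * π * Complex.I * b / d')) (Complex.exp_ne_zero _)) rfl
    exact h1.qExpand k

theorem unt_deltaSer_int : coeffMap (Int.castRingHom ℂ) (deltaSer ℤ) = deltaSer ℂ :=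
  coeffMap_deltaSer _

theorem unt_deltaInvSer_int : coeffMap (Int.castRingHom ℂ) (deltaInvSer ℤ) = deltaInvSer ℂ :=
  coeffMap_deltaInvSer _

/-- `qExpand N` of a series with unit leading coefficient. -/
theorem unt_hasUnitLead_qExpand (n : ℕ) [NeZero n] {S : LaurentSeries (OBar ℓ)} {m : ℤ}
    (h : HasUnitLead S m) : HasUnitLead (qExpand (OBar ℓ) n S) ((n : ℤ) * m) := by
  refine ⟨?_, fun i hi => ?_⟩
  · rw [qExpand_coeff_mul]
    exact h.1
  · by_cases hd : (n : ℤ) ∣ i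
    · obtain ⟨j, rfl⟩ := hd
      rw [qExpand_coeff_mul]
      apply h.2
      have hn : (0 : ℤ) < n := by exact_mod_cast Nat.pos_of_ne_zero (NeZero.ne n)
      by_contra hj
      rw [not_lt] at hj
      exact absurd hi (not_lt.2 (mul_le_mul_of_nonneg_left hj hn.le))
    · exact qExpand_coeff_of_not_dvd n _ hd

theorem unt_hasUnitLead_C {u : OBar ℓ} (hu : IsUnit u) :
    HasUnitLead (HahnSeries.C u : LaurentSeries (OBar ℓ)) 0 := by
  refine ⟨?_, fun i hi => ?_⟩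
  · rw [HahnSeries.C_apply, HahnSeries.coeff_single_same]
    exact hu
  · rw [HahnSeries.C_apply, HahnSeries.coeff_single_of_ne hi.ne]

/-- the data common to `u_δ` and `u_δ⁻¹`. -/
theorem unt_coprime_of_dvd (hℓN : ¬ ℓ ∣ N) {d' : ℕ} (h : d' ∣ N) : d'.Coprime ℓ := by
  have hℓ : ℓ.Prime := Fact.out
  rw [Nat.coprime_comm, Nat.Prime.coprime_iff_not_dvd hℓ]
  exact fun h' => hℓN (dvd_trans h' h)

/-- the conjugates of `u_δ` have `ℓ`-integral expansions with unit leading coefficient, of order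
`(N/δ) gcd(δ, t)² - N` in `s`, `t` the type of the cusp. -/
theorem exists_intPair_unit (hℓN : ¬ ℓ ∣ N) (δ : ℕ) [NeZero δ] (hδ : δ ∣ N) (g : SL(2, ℤ)) :
    ∃ S : LaurentSeries (OBar ℓ), ((g • unitHol δ : HolRing), S) ∈ IntPair N ℓ ∧
      HasUnitLead S (((N / δ : ℕ) : ℤ) * ((Nat.gcd δ (cuspType N g) : ℕ) : ℤ) ^ 2 - (N : ℤ)) := by
  obtain ⟨a, d', b, ha, hd', had, hagcd, hunit, -⟩ := exists_unitHol_transform δ g
  haveI : NeZero a := ⟨ha⟩
  haveI : NeZero d' := ⟨hd'⟩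
  have hd'N : d' ∣ N := dvd_trans ⟨a, by rw [← had, mul_comm]⟩ hδ
  obtain ⟨k, hk⟩ := hd'N
  have hk0 : k ≠ 0 := by
    rintro rfl
    exact NeZero.ne N (by rw [hk, mul_zero])
  haveI : NeZero k := ⟨hk0⟩
  -- the three factors
  obtain ⟨ζ, hζ, hexp₁⟩ := unt_hasCuspExp_affine (f := fun τ : ℍ => ModularForm.discriminant τ)
    (deltaSer ℤ) (by rw [unt_deltaSer_int]; exact hasCuspExp_delta) ha hd' b k
  rw [← hk] at hexp₁
  have hexp₂ : HasCuspExp N (fun τ : ℍ => (ModularForm.discriminant τ)⁻¹)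
      (qExpand ℂ N (deltaInvSer ℂ)) := by
    have := hasCuspExp_deltaInv.qExpand N
    rwa [one_mul] at this
  have hexp₀ : HasCuspExp N (fun _ : ℍ => ((d' : ℂ)⁻¹) ^ 12) (HahnSeries.C (((d' : ℂ)⁻¹) ^ 12)) :=
    HasCuspExp.const _
  have hexp : HasCuspExp N ((g • unitHol δ : HolRing) : ℍ → ℂ)
      (HahnSeries.C (((d' : ℂ)⁻¹) ^ 12) * untSer k a ζ (deltaSer ℤ) *
        qExpand ℂ N (deltaInvSer ℂ)) := by
    have h := (hexp₀.mul hexp₁).mul hexp₂
    have hfun : ((g • unitHol δ : HolRing) : ℍ → ℂ) =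
        ((fun _ : ℍ => ((d' : ℂ)⁻¹) ^ 12) *
          fun τ => ModularForm.discriminant (Fermat.Agent.S23.utGL a b d' • τ)) *
          fun τ : ℍ => (ModularForm.discriminant τ)⁻¹ := by
      funext τ
      rw [hunit τ]
      rfl
    rw [hfun]
    exact h
  -- the series over `OBar ℓ`
  have hcop : d'.Coprime ℓ := unt_coprime_of_dvd N ℓ hℓN ⟨k, hk⟩
  obtain ⟨v, hv⟩ := isUnit_natCast_OBar ℓ hcop
  obtain ⟨S₁, hS₁⟩ := unt_exists_series ℓ k a hd' ζ hζ (deltaSer ℤ)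
  set u : (OBar ℓ)ˣ := (v⁻¹) ^ 12 with hu
  have hιu : iotaBar (((u : (OBar ℓ)ˣ) : OBar ℓ) : QBar) = ((d' : ℂ)⁻¹) ^ 12 := by
    have h1 : iotaBar (((v : (OBar ℓ)ˣ) : OBar ℓ) : QBar) = (d' : ℂ) := by
      rw [hv]
      simp
    have h2 : iotaBar ((((v⁻¹ : (OBar ℓ)ˣ)) : OBar ℓ) : QBar) = (d' : ℂ)⁻¹ := by
      have h3 : iotaBar ((((v⁻¹ : (OBar ℓ)ˣ)) : OBar ℓ) : QBar) *
          iotaBar (((v : (OBar ℓ)ˣ) : OBar ℓ) : QBar) = 1 := by
        rw [← map_mul, ← Subring.coe_mul, Units.inv_mul]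
        simp
      rw [h1] at h3
      exact eq_inv_of_mul_eq_one_left h3
    rw [hu, Units.val_pow_eq_pow_val, Subring.coe_pow, map_pow, h2]
  refine ⟨HahnSeries.C (u : OBar ℓ) * S₁ * qExpand (OBar ℓ) N (deltaInvSer (OBar ℓ)), ?_, ?_⟩
  · rw [mem_IntPair]
    change HasCuspExp N ((g • unitHol δ : HolRing) : ℍ → ℂ)
      (untE ℓ (HahnSeries.C (u : OBar ℓ) * S₁ * qExpand (OBar ℓ) N (deltaInvSer (OBar ℓ))))
    rw [map_mul, map_mul, untE_C, hιu, hS₁, untE_qExpand, untE_deltaInvSer]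
    exact hexp
  · have hl₀ := unt_hasUnitLead_C ℓ (u.isUnit)
    have hl₁ := unt_hasUnitLead ℓ k a hd' ζ hζ (deltaSer ℤ) hS₁ (deltaSer_coeff_one ℤ)
      (fun i hi => deltaSer_coeff_of_lt ℤ hi)
    have hl₂ : HasUnitLead (deltaInvSer (OBar ℓ)) (-1) :=
      ⟨by rw [deltaInvSer_coeff_neg_one]; exact isUnit_one,
        fun i hi => deltaInvSer_coeff_of_lt (OBar ℓ) hi⟩
    have hl := (hl₀.mul hl₁).mul (unt_hasUnitLead_qExpand ℓ N hl₂)
    -- the order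
    have hgcd : Nat.gcd δ (cuspType N g) = a := by
      rw [cuspType, ← Nat.gcd_assoc, ← hagcd]
      exact Nat.gcd_eq_left (dvd_trans ⟨d', had.symm⟩ hδ)
    obtain ⟨q₀, hq₀⟩ := hδ
    have hδ0 : δ ≠ 0 := NeZero.ne δ
    have hNδ : N / δ = q₀ := by
      rw [hq₀, Nat.mul_div_cancel_left _ (Nat.pos_of_ne_zero hδ0)]
    have hkq : k = a * q₀ := by
      have h1 : d' * k = d' * (a * q₀) := by
        rw [← hk, hq₀, ← had]
        ring
      exact Nat.eq_of_mul_eq_mul_left (Nat.pos_of_ne_zero hd') h1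
    have hidx : (0 : ℤ) + (k : ℤ) * ((a : ℤ) * 1) + (N : ℤ) * (-1) =
        ((N / δ : ℕ) : ℤ) * ((Nat.gcd δ (cuspType N g) : ℕ) : ℤ) ^ 2 - (N : ℤ) := by
      rw [hgcd, hNδ, hkq]
      push_cast
      ring
    rw [← hidx]
    exact hl

/-- the conjugates of `u_δ⁻¹` have `ℓ`-integral expansions. -/
theorem exists_intPair_unitInv (hℓN : ¬ ℓ ∣ N) (δ : ℕ) [NeZero δ] (hδ : δ ∣ N) (g : SL(2, ℤ)) :
    ∃ S : LaurentSeries (OBar ℓ), ((g • unitHolInv δ : HolRing), S) ∈ IntPair N ℓ := by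
  obtain ⟨a, d', b, ha, hd', had, -, -, hinv⟩ := exists_unitHol_transform δ g
  haveI : NeZero a := ⟨ha⟩
  haveI : NeZero d' := ⟨hd'⟩
  have hd'N : d' ∣ N := dvd_trans ⟨a, by rw [← had, mul_comm]⟩ hδ
  obtain ⟨k, hk⟩ := hd'N
  have hk0 : k ≠ 0 := by
    rintro rfl
    exact NeZero.ne N (by rw [hk, mul_zero])
  haveI : NeZero k := ⟨hk0⟩
  obtain ⟨ζ, hζ, hexp₁⟩ := unt_hasCuspExp_affine
    (f := fun τ : ℍ => (ModularForm.discriminant τ)⁻¹)
    (deltaInvSer ℤ) (by rw [unt_deltaInvSer_int]; exact hasCuspExp_deltaInv) ha hd' b k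
  rw [← hk] at hexp₁
  have hexp₂ : HasCuspExp N (fun τ : ℍ => ModularForm.discriminant τ)
      (qExpand ℂ N (deltaSer ℂ)) := by
    have := hasCuspExp_delta.qExpand N
    rwa [one_mul] at this
  have hexp₀ : HasCuspExp N (fun _ : ℍ => (d' : ℂ) ^ 12) (HahnSeries.C ((d' : ℂ) ^ 12)) :=
    HasCuspExp.const _
  have hexp : HasCuspExp N ((g • unitHolInv δ : HolRing) : ℍ → ℂ)
      (HahnSeries.C ((d' : ℂ) ^ 12) * untSer k a ζ (deltaInvSer ℤ) *
        qExpand ℂ N (deltaSer ℂ)) := by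
    have h := (hexp₀.mul hexp₁).mul hexp₂
    have hfun : ((g • unitHolInv δ : HolRing) : ℍ → ℂ) =
        ((fun _ : ℍ => (d' : ℂ) ^ 12) *
          fun τ => (ModularForm.discriminant (Fermat.Agent.S23.utGL a b d' • τ))⁻¹) *
          fun τ : ℍ => ModularForm.discriminant τ := by
      funext τ
      rw [hinv τ]
      rfl
    rw [hfun]
    exact h
  obtain ⟨S₁, hS₁⟩ := unt_exists_series ℓ k a hd' ζ hζ (deltaInvSer ℤ)
  refine ⟨HahnSeries.C (((d' : ℕ) : OBar ℓ) ^ 12) * S₁ * qExpand (OBar ℓ) N (deltaSer (OBar ℓ)), ?_⟩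
  rw [mem_IntPair]
  change HasCuspExp N ((g • unitHolInv δ : HolRing) : ℍ → ℂ)
    (untE ℓ (HahnSeries.C (((d' : ℕ) : OBar ℓ) ^ 12) * S₁ *
      qExpand (OBar ℓ) N (deltaSer (OBar ℓ))))
  have hc : iotaBar (((((d' : ℕ) : OBar ℓ) ^ 12 : OBar ℓ)) : QBar) = (d' : ℂ) ^ 12 := by
    simp
  rw [map_mul, map_mul, untE_C, hc, hS₁, untE_qExpand, untE_deltaSer]
  exact hexp

/-- `u_δ` is `Γ₀(N)`-invariant (not needed if the next two are proved directly for all `g`). -/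
theorem smul_unitHol_of_mem_Gamma0 (δ : ℕ) [NeZero δ] (hδ : δ ∣ N) (γ : SL(2, ℤ))
    (hγ : γ ∈ CongruenceSubgroup.Gamma0 N) : γ • unitHol δ = unitHol δ := by
  obtain ⟨a, d', b, ha, hd', had, hagcd, hunit, -⟩ := exists_unitHol_transform δ γ
  have hδ0 : δ ≠ 0 := NeZero.ne δ
  -- `a = δ`, `d' = 1`
  have hγ' : γ⁻¹ ∈ CongruenceSubgroup.Gamma0 N := inv_mem hγ
  rw [CongruenceSubgroup.Gamma0_mem, ZMod.intCast_zmod_eq_zero_iff_dvd] at hγ'
  have hdvd : δ ∣ ((γ⁻¹ : SL(2, ℤ)) 1 0).natAbs := by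
    have h1 : (δ : ℤ) ∣ (γ⁻¹ : SL(2, ℤ)) 1 0 :=
      dvd_trans (by exact_mod_cast hδ) hγ'
    exact Int.natCast_dvd.mp h1
  have haδ : a = δ := by rw [hagcd]; exact Nat.gcd_eq_left hdvd
  have hd1 : d' = 1 := by
    rw [haδ] at had
    have : δ * d' = δ * 1 := by rw [had, mul_one]
    exact Nat.eq_of_mul_eq_mul_left (Nat.pos_of_ne_zero hδ0) this
  subst haδ
  subst hd1
  -- both `Δ(aτ + b)` and `Δ(aτ)` have the same expansion
  obtain ⟨ζ, hζ, hexp⟩ := unt_hasCuspExp_affine (f := fun τ : ℍ => ModularForm.discriminant τ)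
    (deltaSer ℤ) (by rw [unt_deltaSer_int]; exact hasCuspExp_delta) ha one_ne_zero b 1
  obtain ⟨ζ', hζ', hexp'⟩ := unt_hasCuspExp_affine (f := fun τ : ℍ => ModularForm.discriminant τ)
    (deltaSer ℤ) (by rw [unt_deltaSer_int]; exact hasCuspExp_delta) ha one_ne_zero 0 1
  rw [pow_one] at hζ hζ'
  have hζ1 : ζ = 1 := Units.ext hζ
  have hζ'1 : ζ' = 1 := Units.ext hζ'
  rw [hζ1] at hexp
  rw [hζ'1] at hexp'
  have hfun := hexp.eq_of_eq hexp'
  apply Subtype.ext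
  funext τ
  have h1 : ModularForm.discriminant (Fermat.Agent.S23.utGL a b 1 • τ) =
      ModularForm.discriminant (Fermat.Agent.S23.utGL a 0 1 • τ) := congrFun hfun τ
  rw [hunit τ, unitHol_apply, div_eq_mul_inv, h1]
  simp

end Fermat.Agent.S28
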